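/-
S43lib / B2 / Bridge / Cond (helper5).

Two elementary facts on characters of finite commutative groups used by the group-ring form of the
BRIDGE:
* `eq_zero_of_forall_char_sum_eq_zero`: over a field with enough roots of unity the characters separate
  the points of the function space `G → K`;
* `exists_conductor`: conductor decomposition of a character of odd order of `(ZMod M)ˣ`;
* `exists_sqrt_char`: the square root `ψ₁ ^ ((n+1)/2)` of a character of odd order `n`.
-/
import Mathlib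

set_option autoImplicit false
set_option linter.style.haveILetI false

namespace Fermat.Agent.S43lib.B2.Bridge


/-- characters of a finite commutative group separate the points of the function space, over a field
with enough roots of unity -/
theorem eq_zero_of_forall_char_sum_eq_zero {G : Type*} [CommGroup G] [Fintype G] {K : Type*} [Field K]
    [HasEnoughRootsOfUnity K (Monoid.exponent G)] (a : G → K)
    (h : ∀ ψ : G →* Kˣ, ∑ g, a g * (ψ g : K) = 0) : a = 0 := by
  classical
  haveI : Finite (G →* Kˣ) := inferInstance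
  haveI : Fintype (G →* Kˣ) := Fintype.ofFinite _
  let v : (G →* Kˣ) → (G → K) := fun ψ g => (ψ g : K)
  have hli : LinearIndependent K v := by
    have h1 := linearIndependent_monoidHom G K
    have hinj : Function.Injective (fun ψ : G →* Kˣ => (Units.coeHom K).comp ψ) := by
      intro ψ ψ' hψ
      ext g
      exact congrArg (fun f : G →* K => f g) hψ
    exact h1.comp _ hinj
  have hcard : Fintype.card (G →* Kˣ) = Module.finrank K (G → K) := by
    rw [Module.finrank_pi, ← Nat.card_eq_fintype_card, ← Nat.card_eq_fintype_card,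
      CommGroup.card_monoidHom_of_hasEnoughRootsOfUnity]
  have hspan := hli.span_eq_top_of_card_eq_finrank' hcard
  let L : (G → K) →ₗ[K] K :=
    { toFun := fun f => ∑ g, a g * f g
      map_add' := fun f f' => by simp [mul_add, Finset.sum_add_distrib]
      map_smul' := fun c f => by
        simp only [Pi.smul_apply, smul_eq_mul, RingHom.id_apply, Finset.mul_sum]
        exact Finset.sum_congr rfl fun g _ => by ring }
  have hL : L = 0 := by
    apply LinearMap.ext_on_range hspan
    intro ψ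
    exact h ψ
  funext g
  have := congrArg (fun l : (G → K) →ₗ[K] K => l (Pi.single g 1)) hL
  simpa [L, Pi.single_apply] using this

/-- an element of odd order whose square is `1` is `1` -/
theorem eq_one_of_sq_of_odd_pow {H : Type*} [Monoid H] {a : H} {n : ℕ} (hn : Odd n)
    (h2 : a * a = 1) (hpow : a ^ n = 1) : a = 1 := by
  obtain ⟨k, rfl⟩ := hn
  rw [pow_succ, pow_mul, pow_two, h2, one_pow, one_mul] at hpow
  exact hpow

/-- **Conductor decomposition**: a character `φ` of `(ZMod M)ˣ` of odd order which is trivial on the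
kernel of the reduction to `(ZMod T)ˣ` factors through `(ZMod T₁)ˣ` for a divisor `T₁` of `T` at all
of whose primes the induced character is primitive. -/
theorem exists_conductor {M T : ℕ} [NeZero M] (hTM : T ∣ M) {H : Type*} [CommGroup H]
    (φ : (ZMod M)ˣ →* H) (hφ : ∀ u, ZMod.unitsMap hTM u = 1 → φ u = 1) {n : ℕ} (hn : Odd n)
    (hpow : ∀ u, φ u ^ n = 1) :
    ∃ (T₁ : ℕ) (hT₁ : T₁ ∣ T) (ψ₁ : (ZMod T₁)ˣ →* H),
      (∀ u, φ u = ψ₁ (ZMod.unitsMap (hT₁.trans hTM) u)) ∧
      ∀ (t : ℕ) (ht : t ∣ T₁), t.Prime →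
        ∃ x : (ZMod T₁)ˣ, ZMod.unitsMap (Nat.div_dvd_of_dvd ht) x = 1 ∧ ψ₁ x * ψ₁ x ≠ 1 := by
  classical
  -- the set of admissible moduli
  let 𝒟 : ℕ → Prop := fun d => ∃ hd : d ∣ T, ∀ u, ZMod.unitsMap (hd.trans hTM) u = 1 → φ u = 1
  have h𝒟 : ∃ d, 𝒟 d := ⟨T, dvd_refl T, hφ⟩
  obtain ⟨hT₁, hker⟩ := Nat.find_spec h𝒟
  set T₁ := Nat.find h𝒟 with hT₁def
  have hT₁M : T₁ ∣ M := hT₁.trans hTM
  have hsurj : Function.Surjective (ZMod.unitsMap hT₁M) := ZMod.unitsMap_surjective hT₁M
  have hle : (ZMod.unitsMap hT₁M).ker ≤ φ.ker := fun u hu => by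
    rw [MonoidHom.mem_ker] at hu ⊢
    exact hker u hu
  let ψ₁ : (ZMod T₁)ˣ →* H :=
    (ZMod.unitsMap hT₁M).liftOfRightInverse (Function.surjInv hsurj)
      (Function.rightInverse_surjInv hsurj) ⟨φ, hle⟩
  have hψ₁ : ∀ u, ψ₁ (ZMod.unitsMap hT₁M u) = φ u := fun u =>
    MonoidHom.liftOfRightInverse_comp_apply _ _ (Function.rightInverse_surjInv hsurj) ⟨φ, hle⟩ u
  refine ⟨T₁, hT₁, ψ₁, fun u => (hψ₁ u).symm, fun t ht htp => ?_⟩
  by_contra hcon
  push Not at hcon
  have hT₁0 : T₁ ≠ 0 := fun h0 => NeZero.ne M (Nat.eq_zero_of_zero_dvd (h0 ▸ hT₁M))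
  have hdt : T₁ / t ∣ T₁ := Nat.div_dvd_of_dvd ht
  have hlt : T₁ / t < T₁ := Nat.div_lt_self (Nat.pos_of_ne_zero hT₁0) htp.one_lt
  refine Nat.find_min h𝒟 hlt ⟨hdt.trans hT₁, fun u hu => ?_⟩
  have h1 : ZMod.unitsMap hdt (ZMod.unitsMap hT₁M u) = 1 := by
    have := congrArg (fun f : (ZMod M)ˣ →* (ZMod (T₁ / t))ˣ => f u) (ZMod.unitsMap_comp hdt hT₁M)
    simp only [MonoidHom.comp_apply] at this
    rw [this]
    exact hu
  have h2 := hcon _ h1
  rw [hψ₁] at h2
  exact eq_one_of_sq_of_odd_pow hn h2 (hpow u)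

/-- a square root of a character of odd order -/
theorem exists_sqrt_char {A H : Type*} [CommGroup A] [CommGroup H] (ψ₁ : A →* H) {n : ℕ} (hn : Odd n)
    (hpow : ∀ u, ψ₁ u ^ n = 1) :
    ∀ u, (ψ₁ ^ ((n + 1) / 2)) u * (ψ₁ ^ ((n + 1) / 2)) u = ψ₁ u := by
  intro u
  obtain ⟨k, rfl⟩ := hn
  have h1 : (2 * k + 1 + 1) / 2 = k + 1 := by omega
  rw [h1, MonoidHom.pow_apply, ← pow_add]
  have h2 : k + 1 + (k + 1) = (2 * k + 1) + 1 := by ring
  rw [h2, pow_succ, hpow u, one_mul]

end Fermat.Agent.S43lib.B2.Bridge
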