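/-
S43lib / B2 / Bridge / ES (helper5).

The Eichler–Shimura bridge at a `Γ₀(M)`-level with universal coefficients:
every (non-commutative) polynomial relation `P(T_ℓ) = 0` between the Hecke operators of
`heckeAlgebra M 2 S` (operators on the weight two cusp forms of `Γ₀(M)`) holds for the operators
`heckeT` on the parabolic classes `Hom_par(Γ₀(M), A)`, for every torsion-free abelian group `A`.

`ℂ`: S21 (`periodHomPair` is injective with range the parabolic classes) and
`heckeT_periodHomPair`;  `ℤ`: the coefficient injection `ℤ → ℂ`;  general `A`: the values of a class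
lie in a finitely generated, hence free, subgroup of `A`, and the operators are natural in `A`.
-/
import Mathlib
import Fermat.Agent.S41lib.HC.BridgeMain
import Fermat.Agent.S16lib.LG.Lift

set_option autoImplicit false
set_option linter.unusedSectionVars false

noncomputable section

namespace Fermat.Agent.S43lib.B2.Bridge

open CongruenceSubgroup ModularCurve ModularCurve.Period Matrix.SpecialLinearGroup
open Fermat.Agent.S41lib.HC
open scoped MatrixGroups

/-! ### A generic intertwining lemma for free algebras -/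

section Free

variable {X : Type*} {V V' : Type*} [AddCommGroup V] [AddCommGroup V']

/-- If `J ∘ a x = b x ∘ J` for all generators then `J ∘ P(a) = P(b) ∘ J`. -/
theorem lift_intertwine (a : X → Module.End ℤ V) (b : X → Module.End ℤ V') (J : V →+ V')
    (h : ∀ x v, J (a x v) = b x (J v)) (P : FreeAlgebra ℤ X) (v : V) :
    J (FreeAlgebra.lift ℤ a P v) = FreeAlgebra.lift ℤ b P (J v) := by
  induction P using FreeAlgebra.induction generalizing v with
  | grade0 r =>
    rw [AlgHom.commutes, AlgHom.commutes, Module.algebraMap_end_apply, Module.algebraMap_end_apply,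
      map_zsmul]
  | grade1 x => rw [FreeAlgebra.lift_ι_apply, FreeAlgebra.lift_ι_apply, h]
  | mul p q hp hq =>
    rw [map_mul, map_mul, Module.End.mul_apply, Module.End.mul_apply, hp, hq]
  | add p q hp hq =>
    rw [map_add, map_add, LinearMap.add_apply, LinearMap.add_apply, map_add, hp, hq]

/-- A submodule (subgroup) stable under the generators is stable under `P(a)`. -/
theorem lift_mem (a : X → Module.End ℤ V) (W : AddSubgroup V) (h : ∀ x, ∀ v ∈ W, a x v ∈ W)
    (P : FreeAlgebra ℤ X) (v : V) (hv : v ∈ W) : FreeAlgebra.lift ℤ a P v ∈ W := by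
  induction P using FreeAlgebra.induction generalizing v with
  | grade0 r =>
    rw [AlgHom.commutes, Module.algebraMap_end_apply]
    exact W.zsmul_mem hv r
  | grade1 x =>
    rw [FreeAlgebra.lift_ι_apply]
    exact h x v hv
  | mul p q hp hq =>
    rw [map_mul, Module.End.mul_apply]
    exact hp _ (hq _ hv)
  | add p q hp hq =>
    rw [map_add, LinearMap.add_apply]
    exact W.add_mem (hp _ hv) (hq _ hv)

end Free

/-! ### The good primes and the two evaluations -/

/-- the primes `ℓ ∤ M`, `ℓ ∉ S` -/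
def GoodPrime (M : ℕ) (S : Set ℕ) : Type := {ℓ : ℕ // ℓ.Prime ∧ ¬ ℓ ∣ M ∧ ℓ ∉ S}

variable {M : ℕ} {S : Set ℕ}

/-- `T_ℓ` on `Hom(Γ₀(M), A)` as a `ℤ`-linear endomorphism -/
def heckeOp (A : Type*) [AddCommGroup A] (ℓ : GoodPrime M S) :
    Module.End ℤ (H (Gamma0 M) A) :=
  haveI : Fact ℓ.1.Prime := ⟨ℓ.2.1⟩
  (heckeT ℓ.2.2.1 A).toIntLinearMap

theorem heckeOp_apply (A : Type*) [AddCommGroup A] (ℓ : GoodPrime M S) (φ : H (Gamma0 M) A) :
    heckeOp A ℓ φ = (haveI : Fact ℓ.1.Prime := ⟨ℓ.2.1⟩; heckeT ℓ.2.2.1 A φ) := rfl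

/-- evaluation of a non-commutative polynomial at the operators `heckeT` -/
def evalCoh (A : Type*) [AddCommGroup A] :
    FreeAlgebra ℤ (GoodPrime M S) →ₐ[ℤ] Module.End ℤ (H (Gamma0 M) A) :=
  FreeAlgebra.lift ℤ (heckeOp A)

@[simp] theorem evalCoh_ι (A : Type*) [AddCommGroup A] (ℓ : GoodPrime M S) :
    evalCoh A (FreeAlgebra.ι ℤ ℓ) = heckeOp A ℓ := FreeAlgebra.lift_ι_apply _ _

/-- naturality in the coefficients -/
theorem evalCoh_coeff {A A' : Type*} [AddCommGroup A] [AddCommGroup A'] (j : A →+ A')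
    (P : FreeAlgebra ℤ (GoodPrime M S)) (φ : H (Gamma0 M) A) :
    coeff (Gamma0 M) j (evalCoh A P φ) = evalCoh A' P (coeff (Gamma0 M) j φ) := by
  refine lift_intertwine (heckeOp A) (heckeOp A') (coeff (Gamma0 M) j) ?_ P φ
  intro ℓ v
  have : Fact ℓ.1.Prime := ⟨ℓ.2.1⟩
  exact (heckeT_coeff j ℓ.2.2.1 v).symm

/-- the parabolic classes are stable -/
theorem evalCoh_isParabolicHom {A : Type*} [AddCommGroup A] (P : FreeAlgebra ℤ (GoodPrime M S))
    {φ : H (Gamma0 M) A} (hφ : IsParabolicHom (Gamma0 M) φ) :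
    IsParabolicHom (Gamma0 M) (evalCoh A P φ) := by
  have h := lift_mem (heckeOp A) (parabolicHoms ℤ (Gamma0 M) A).toAddSubgroup ?_ P φ hφ
  · exact h
  · intro ℓ v hv
    have : Fact ℓ.1.Prime := ⟨ℓ.2.1⟩
    exact heckeT_isParabolicHom ℓ.2.2.1 hv

variable [NeZero M]

/-- evaluation of a non-commutative polynomial at the Hecke operators on cusp forms -/
def evalForms : FreeAlgebra ℤ (GoodPrime M S) →ₐ[ℤ] ↥(CuspForm.heckeAlgebra M 2 S) :=
  FreeAlgebra.lift ℤ (fun ℓ => CuspForm.heckeAlgebra.T ℓ.2.1 ℓ.2.2.1 ℓ.2.2.2)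

@[simp] theorem evalForms_ι (ℓ : GoodPrime M S) :
    evalForms (FreeAlgebra.ι ℤ ℓ) = CuspForm.heckeAlgebra.T ℓ.2.1 ℓ.2.2.1 ℓ.2.2.2 :=
  FreeAlgebra.lift_ι_apply _ _

/-- **`P(T) ∘ per = per ∘ (P(T) × P(T))`** -/
theorem evalCoh_periodHomPair (P : FreeAlgebra ℤ (GoodPrime M S))
    (f g : CuspForm (Gamma0 M) 2) :
    evalCoh ℂ P (periodHomPair M (f, g)) =
      periodHomPair M ((evalForms P : ↥(CuspForm.heckeAlgebra M 2 S)).1 f,
        (evalForms P : ↥(CuspForm.heckeAlgebra M 2 S)).1 g) := by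
  induction P using FreeAlgebra.induction generalizing f g with
  | grade0 r =>
    rw [AlgHom.commutes, AlgHom.commutes, Module.algebraMap_end_apply]
    have h1 : ((algebraMap ℤ ↥(CuspForm.heckeAlgebra M 2 S) r :
        ↥(CuspForm.heckeAlgebra M 2 S)) :
          Module.End ℂ (CuspForm (Gamma0 M) 2)) = algebraMap ℤ _ r := rfl
    rw [h1, Module.algebraMap_end_apply, Module.algebraMap_end_apply]
    have h2 : ((r • f, r • g) : CuspForm (Gamma0 M) 2 × CuspForm (Gamma0 M) 2) = r • (f, g) := rfl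
    rw [h2, map_zsmul]
  | grade1 ℓ =>
    rw [evalCoh_ι, evalForms_ι, heckeOp_apply]
    have : Fact ℓ.1.Prime := ⟨ℓ.2.1⟩
    exact heckeT_periodHomPair ℓ.2.1 ℓ.2.2.1 f g
  | mul p q hp hq =>
    rw [map_mul, map_mul, Module.End.mul_apply, hq, hp]
    rfl
  | add p q hp hq =>
    rw [map_add, map_add, LinearMap.add_apply, hp, hq, ← map_add]
    rfl

/-- the relation on complex parabolic classes -/
theorem evalCoh_complex_eq_zero (P : FreeAlgebra ℤ (GoodPrime M S))
    (hP : (evalForms P : ↥(CuspForm.heckeAlgebra M 2 S)) = 0) {φ : H (Gamma0 M) ℂ}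
    (hφ : IsParabolicHom (Gamma0 M) φ) : evalCoh ℂ P φ = 0 := by
  have hφ' : φ ∈ parabolicHoms ℂ (Gamma0 M) ℂ := hφ
  rw [← (Fermat.Agent.S21.result M).2] at hφ'
  obtain ⟨⟨f, g⟩, rfl⟩ := hφ'
  rw [evalCoh_periodHomPair, hP]
  show periodHomPair M ((0 : Module.End ℂ (CuspForm (Gamma0 M) 2)) f,
    (0 : Module.End ℂ (CuspForm (Gamma0 M) 2)) g) = 0
  rw [LinearMap.zero_apply, LinearMap.zero_apply]
  exact map_zero _

/-- the relation on integral parabolic classes -/
theorem evalCoh_int_eq_zero (P : FreeAlgebra ℤ (GoodPrime M S))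
    (hP : (evalForms P : ↥(CuspForm.heckeAlgebra M 2 S)) = 0) {φ : H (Gamma0 M) ℤ}
    (hφ : IsParabolicHom (Gamma0 M) φ) : evalCoh ℤ P φ = 0 := by
  apply coeff_injective (Gamma0 M) (Int.castAddHom ℂ) Int.cast_injective
  rw [evalCoh_coeff, map_zero]
  exact evalCoh_complex_eq_zero P hP (coeff_isParabolicHom _ _ hφ)

/-- **the relation on parabolic classes with torsion-free coefficients** -/
theorem evalCoh_eq_zero {A : Type*} [AddCommGroup A] [IsAddTorsionFree A]
    (P : FreeAlgebra ℤ (GoodPrime M S))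
    (hP : (evalForms P : ↥(CuspForm.heckeAlgebra M 2 S)) = 0) {φ : H (Gamma0 M) A}
    (hφ : IsParabolicHom (Gamma0 M) φ) : evalCoh A P φ = 0 := by
  have := Fermat.Agent.S16lib.LG.Gamma0_fg M
  obtain ⟨T, hT⟩ := (Group.FG.out : (⊤ : Subgroup ↥(Gamma0 M)).FG)
  -- the finitely generated group of values
  set A₀ : Submodule ℤ A :=
    Submodule.span ℤ (Set.range (fun s : ↥T => φ (Additive.ofMul s.1))) with hA₀
  have hfg : A₀.FG := Submodule.fg_span (Set.finite_range _)
  have : Module.Finite ℤ ↥A₀ := Module.Finite.of_fg hfg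
  have : Module.Free ℤ ↥A₀ := Module.free_of_finite_type_torsion_free'
  let e := Module.Free.chooseBasis ℤ ↥A₀
  have hval : ∀ a : Additive ↥(Gamma0 M), φ a ∈ A₀ := by
    let K : Subgroup ↥(Gamma0 M) :=
      { carrier := {γ | φ (Additive.ofMul γ) ∈ A₀}
        mul_mem' := by
          intro a b ha hb
          show φ (Additive.ofMul (a * b)) ∈ A₀
          rw [ofMul_mul, map_add]
          exact A₀.add_mem ha hb
        one_mem' := by
          show φ (Additive.ofMul 1) ∈ A₀
          rw [ofMul_one, map_zero]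
          exact A₀.zero_mem
        inv_mem' := by
          intro a ha
          show φ (Additive.ofMul a⁻¹) ∈ A₀
          rw [ofMul_inv, map_neg]
          exact A₀.neg_mem ha }
    have hK : Subgroup.closure (T : Set ↥(Gamma0 M)) ≤ K := by
      rw [Subgroup.closure_le]
      intro s hs
      exact Submodule.subset_span ⟨⟨s, hs⟩, rfl⟩
    rw [hT] at hK
    intro a
    exact hK (Subgroup.mem_top (Additive.toMul a))
  -- `φ` with values in `A₀`
  let φ₀ : H (Gamma0 M) ↥A₀ :=
    { toFun := fun a => ⟨φ a, hval a⟩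
      map_zero' := Subtype.ext (map_zero φ)
      map_add' := fun a b => Subtype.ext (map_add φ a b) }
  have hφ₀ : IsParabolicHom (Gamma0 M) φ₀ := fun γ hγ => Subtype.ext (hφ γ hγ)
  have hφeq : φ = coeff (Gamma0 M) A₀.subtype.toAddMonoidHom φ₀ := by
    ext a
    rfl
  rw [hφeq, ← evalCoh_coeff]
  -- it suffices to see that all coordinates vanish
  have hzero : evalCoh ↥A₀ P φ₀ = 0 := by
    refine AddMonoidHom.ext fun a => ?_
    apply e.ext_elem
    intro i
    have h1 := evalCoh_coeff (M := M) (S := S) (e.coord i).toAddMonoidHom P φ₀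
    have h2 : evalCoh ℤ P (coeff (Gamma0 M) (e.coord i).toAddMonoidHom φ₀) = 0 :=
      evalCoh_int_eq_zero P hP (coeff_isParabolicHom _ _ hφ₀)
    rw [h2] at h1
    have h3 := congrArg (fun F : H (Gamma0 M) ℤ => F a) h1
    simp only [coeff_apply, AddMonoidHom.zero_apply] at h3
    show e.repr (evalCoh ↥A₀ P φ₀ a) i = e.repr ((0 : H (Gamma0 M) ↥A₀) a) i
    rw [AddMonoidHom.zero_apply, map_zero, Finsupp.zero_apply]
    exact h3
  rw [hzero, map_zero]

end Fermat.Agent.S43lib.B2.Bridge
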