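/-
S43lib / B2 / Bridge / Lift (helper5).

**The abstract pushforward.**  Let `E` be a commutative local `𝒪`-algebra (`𝒪 → E` local) and
`t_ℓ ∈ E` (`ℓ ∤ N`, `ℓ ∉ S`) elements satisfying every relation `P(T_ℓ) = 0` of the Hecke algebra of the
weight two cusp forms of level `N` and lifting the residual eigenvalues `θ(T_ℓ)`.  If `S` contains the
primes dividing `N`, there is a (unique) `𝒪`-algebra homomorphism
`heckeLocal N S 𝒪 θ → E` with `π(T_ℓ) ↦ t_ℓ`.
-/
import Mathlib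
import Fermat.Agent.S43lib.B2.Ring
import Fermat.Agent.S43lib.B2.Bridge.ES

set_option autoImplicit false
set_option linter.unusedSectionVars false
set_option linter.style.haveILetI false

noncomputable section

namespace Fermat.Agent.S43lib.B2.Bridge

open CuspForm IsLocalRing
open scoped TensorProduct

variable (N : ℕ) [NeZero N] (S : Set ℕ)

/-! ### `evalForms` is surjective -/

theorem evalForms_surjective (hS : ∀ q : ℕ, q.Prime → q ∣ N → q ∈ S) :
    Function.Surjective (evalForms (M := N) (S := S)) := by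
  rintro ⟨y, hy⟩
  suffices h : ∃ P : FreeAlgebra ℤ (GoodPrime N S),
      ((evalForms P : ↥(heckeAlgebra N 2 S)) :
        Module.End ℂ (CuspForm (CongruenceSubgroup.Gamma0 N) 2)) = y by
    obtain ⟨P, hP⟩ := h
    exact ⟨P, Subtype.ext hP⟩
  induction hy using Algebra.adjoin_induction with
  | mem y hy =>
    rcases hy with ⟨ℓ, hℓ, hℓN, hℓS, rfl⟩ | ⟨q, hqN, hq, hqS, rfl⟩
    · refine ⟨FreeAlgebra.ι ℤ (⟨ℓ, hℓ, hℓN, hℓS⟩ : GoodPrime N S), ?_⟩
      rw [evalForms_ι]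
      rfl
    · exact absurd (hS q hq hqN) hqS
  | algebraMap r =>
    refine ⟨algebraMap ℤ _ r, ?_⟩
    rw [AlgHom.commutes]
    rfl
  | add x y _ _ hx hy =>
    obtain ⟨P, hP⟩ := hx
    obtain ⟨Q, hQ⟩ := hy
    refine ⟨P + Q, ?_⟩
    rw [map_add, Subalgebra.coe_add, hP, hQ]
  | mul x y _ _ hx hy =>
    obtain ⟨P, hP⟩ := hx
    obtain ⟨Q, hQ⟩ := hy
    refine ⟨P * Q, ?_⟩
    rw [map_mul, Subalgebra.coe_mul, hP, hQ]

variable (𝒪 : Type) [CommRing 𝒪] [IsDomain 𝒪] [IsDiscreteValuationRing 𝒪]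
  [IsAdicComplete (maximalIdeal 𝒪) 𝒪]
  (θ : heckeAlgebra N 2 S →+* ResidueField 𝒪) [hint : Fact (HasIntegralStructure N 2)]

set_option synthInstance.maxHeartbeats 400000
set_option maxHeartbeats 1000000

/-! ### Homomorphisms out of the localised Hecke algebra -/

/-- a ring homomorphism `χ : 𝕋 → E` into a local `𝒪`-algebra lifting `θ` extends to `heckeLocal` -/
theorem heckeLocal_exists_algHom (E : Type*) [CommRing E] [Algebra 𝒪 E] [IsLocalRing E]
    [IsLocalHom (algebraMap 𝒪 E)] (χ : heckeAlgebra N 2 S →+* E)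
    (hχ : ∀ t : heckeAlgebra N 2 S,
      residue E (χ t) = ResidueField.map (algebraMap 𝒪 E) (θ t)) :
    ∃ β : heckeLocal N S 𝒪 θ →ₐ[𝒪] E, ∀ t : heckeAlgebra N 2 S,
      β (heckeLocal.π N S 𝒪 θ t) = χ t := by
  classical
  let e : ↥(heckeAlgebra N 2 S) ≃ₐ[ℤ] ↥(heckeLatticeAlgebra N S) :=
    AlgEquiv.ofBijective (latticeRestrictHom N S) (latticeRestrictHom_bijective N S hint.out)
  let χ' : ↥(heckeLatticeAlgebra N S) →ₐ[ℤ] E := χ.toIntAlgHom.comp (e.symm : _ →ₐ[ℤ] _)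
  let g : heckeBaseAlgebra N S 𝒪 →ₐ[𝒪] E :=
    (Algebra.TensorProduct.lift (Algebra.ofId 𝒪 E) χ' (fun _ _ => Commute.all _ _) :
      (𝒪 ⊗[ℤ] ↥(heckeLatticeAlgebra N S)) →ₐ[𝒪] E)
  have hg : ∀ (a : 𝒪) (t : ↥(heckeAlgebra N 2 S)),
      g (latticeBaseChange N S 𝒪 (a ⊗ₜ[ℤ] t)) = algebraMap 𝒪 E a * χ t := by
    intro a t
    rw [latticeBaseChange_tmul']
    have h1 : g (baseTmul N S 𝒪 a (latticeRestrictHom N S t)) =
        algebraMap 𝒪 E a * χ (e.symm (e t)) :=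
      Algebra.TensorProduct.lift_tmul (Algebra.ofId 𝒪 E) χ' (fun _ _ => Commute.all _ _) a
        (latticeRestrictHom N S t)
    rw [h1, AlgEquiv.symm_apply_apply]
  have hres : ∀ x : 𝒪 ⊗[ℤ] ↥(heckeAlgebra N 2 S),
      residue E (g (latticeBaseChange N S 𝒪 x)) =
        ResidueField.map (algebraMap 𝒪 E) (residualCharacter N S 𝒪 θ x) := by
    intro x
    induction x using TensorProduct.induction_on with
    | zero => simp only [map_zero]
    | tmul a t =>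
      rw [hg, map_mul, hχ, residualCharacter_tmul, map_mul, ResidueField.map_residue]
    | add x y hx hy => rw [map_add, map_add, map_add, hx, hy, map_add, map_add]
  have hunit : ∀ y : heckeLocalSubmonoid N S 𝒪 θ,
      IsUnit ((g : heckeBaseAlgebra N S 𝒪 →+* E) (y : heckeBaseAlgebra N S 𝒪)) := by
    rintro ⟨_, x, hx, rfl⟩
    have h1 : residue E (g (latticeBaseChange N S 𝒪 x)) ≠ 0 := by
      rw [hres]
      intro h
      have h2 : residualCharacter N S 𝒪 θ x = 0 :=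
        (map_eq_zero (ResidueField.map (algebraMap 𝒪 E))).mp h
      exact (Ideal.mem_primeCompl_iff.mp hx) ((mem_heckeCharKernel_iff N S 𝒪 θ x).mpr h2)
    exact IsLocalRing.notMem_maximalIdeal.mp fun h => h1 ((residue_eq_zero_iff _).mpr h)
  let β₀ : heckeLocal N S 𝒪 θ →+* E :=
    IsLocalization.lift (M := heckeLocalSubmonoid N S 𝒪 θ)
      (g := (g : heckeBaseAlgebra N S 𝒪 →+* E)) hunit
  have hβ₀ : ∀ b : heckeBaseAlgebra N S 𝒪,
      β₀ (algebraMap (heckeBaseAlgebra N S 𝒪) (heckeLocal N S 𝒪 θ) b) = g b :=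
    fun b => IsLocalization.lift_eq hunit b
  refine ⟨{ toRingHom := β₀, commutes' := fun a => ?_ }, fun t => ?_⟩
  · show β₀ (algebraMap 𝒪 (heckeLocal N S 𝒪 θ) a) = algebraMap 𝒪 E a
    rw [IsScalarTower.algebraMap_apply 𝒪 (heckeBaseAlgebra N S 𝒪) (heckeLocal N S 𝒪 θ), hβ₀]
    exact g.commutes a
  · show β₀ (heckeLocal.π N S 𝒪 θ t) = χ t
    rw [heckeLocal_π_apply, hβ₀, hg, map_one, one_mul]

/-! ### The pushforward -/

/-- **the abstract pushforward** -/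
theorem exists_heckeLocal_pushforward (hS : ∀ q : ℕ, q.Prime → q ∣ N → q ∈ S)
    (E : Type*) [CommRing E] [Algebra 𝒪 E] [IsLocalRing E] [IsLocalHom (algebraMap 𝒪 E)]
    (t : GoodPrime N S → E)
    (hR : ∀ P : FreeAlgebra ℤ (GoodPrime N S),
      (evalForms P : ↥(heckeAlgebra N 2 S)) = 0 → FreeAlgebra.lift ℤ t P = 0)
    (hL : ∀ ℓ : GoodPrime N S, residue E (t ℓ) =
      ResidueField.map (algebraMap 𝒪 E) (θ (heckeAlgebra.T ℓ.2.1 ℓ.2.2.1 ℓ.2.2.2))) :
    ∃ β : heckeLocal N S 𝒪 θ →ₐ[𝒪] E, ∀ ℓ : GoodPrime N S,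
      β (heckeLocal.π N S 𝒪 θ (heckeAlgebra.T ℓ.2.1 ℓ.2.2.1 ℓ.2.2.2)) = t ℓ := by
  classical
  have hsurj := evalForms_surjective N S hS
  -- the ring homomorphism `𝕋 → E`
  let ev : FreeAlgebra ℤ (GoodPrime N S) →+* ↥(heckeAlgebra N 2 S) :=
    (evalForms (M := N) (S := S) : FreeAlgebra ℤ (GoodPrime N S) →+* ↥(heckeAlgebra N 2 S))
  let lt : FreeAlgebra ℤ (GoodPrime N S) →+* E :=
    (FreeAlgebra.lift ℤ t : FreeAlgebra ℤ (GoodPrime N S) →+* E)
  have hker : RingHom.ker ev ≤ RingHom.ker lt := by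
    intro P hP
    rw [RingHom.mem_ker] at hP ⊢
    exact hR P hP
  let χ : ↥(heckeAlgebra N 2 S) →+* E := RingHom.liftOfSurjective ev hsurj ⟨lt, hker⟩
  have hχ : ∀ P : FreeAlgebra ℤ (GoodPrime N S), χ (evalForms P) = FreeAlgebra.lift ℤ t P :=
    fun P => RingHom.liftOfRightInverse_comp_apply ev _ _ ⟨lt, hker⟩ P
  have hχT : ∀ ℓ : GoodPrime N S, χ (heckeAlgebra.T ℓ.2.1 ℓ.2.2.1 ℓ.2.2.2) = t ℓ := by
    intro ℓ
    rw [← evalForms_ι, hχ, FreeAlgebra.lift_ι_apply]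
  -- compatibility with the residual character
  have hres : ∀ x : ↥(heckeAlgebra N 2 S),
      residue E (χ x) = ResidueField.map (algebraMap 𝒪 E) (θ x) := by
    intro x
    obtain ⟨P, rfl⟩ := hsurj x
    let a₁ : FreeAlgebra ℤ (GoodPrime N S) →ₐ[ℤ] ResidueField E :=
      (((residue E).comp χ).toIntAlgHom).comp (evalForms (M := N) (S := S))
    let a₂ : FreeAlgebra ℤ (GoodPrime N S) →ₐ[ℤ] ResidueField E :=
      (((ResidueField.map (algebraMap 𝒪 E)).comp θ).toIntAlgHom).comp (evalForms (M := N) (S := S))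
    have h12 : a₁ = a₂ := by
      refine FreeAlgebra.hom_ext (funext fun ℓ => ?_)
      show residue E (χ (evalForms (FreeAlgebra.ι ℤ ℓ))) =
        ResidueField.map (algebraMap 𝒪 E) (θ (evalForms (FreeAlgebra.ι ℤ ℓ)))
      rw [evalForms_ι, hχT, hL]
    exact congrArg (fun a : FreeAlgebra ℤ (GoodPrime N S) →ₐ[ℤ] ResidueField E => a P) h12
  obtain ⟨β, hβ⟩ := heckeLocal_exists_algHom N S 𝒪 θ E χ hres
  exact ⟨β, fun ℓ => by rw [hβ, hχT]⟩

end Fermat.Agent.S43lib.B2.Bridge
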