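/-
S43lib / B2 / Bridge / CocRes (helper5).

A crossed homomorphism (in the sense of `S43lib/B1/ZCoh`) with values in a vector space over a field of
characteristic zero which vanishes on a subgroup of finite index is principal: the restriction
`H¹(Γ, W) → H¹(Γ₀, W)` is injective.
-/
import Mathlib
import Fermat.Agent.S43lib.B1.ZCoh

set_option autoImplicit false
set_option linter.unusedSectionVars false

noncomputable section

namespace Fermat.Agent.S43lib.B2.Bridge

open Fermat.Agent.S43lib.B1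

variable {Γ G : Type*} [Group Γ] [Group G] (π : Γ →* G)
variable {K : Type*} [Field K] {W : Type*} [AddCommGroup W] [Module K W] [DistribMulAction G W]
  [SMulCommClass G K W]

theorem exists_coboundary_of_restrict_eq_zero [CharZero K] (Γ₀ : Subgroup Γ) [Γ₀.FiniteIndex]
    (f : Γ → W) (hf : f ∈ Z1 π K W) (h0 : ∀ γ ∈ Γ₀, f γ = 0) :
    ∃ w : W, ∀ γ, f γ = π γ • w - w := by
  classical
  let _ : Fintype (Γ ⧸ Γ₀) := Subgroup.fintypeQuotientOfFiniteIndex
  have hconst : ∀ γ γ₀, γ₀ ∈ Γ₀ → f (γ * γ₀) = f γ := by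
    intro γ γ₀ h
    rw [hf, h0 _ h, smul_zero, add_zero]
  let F : Γ ⧸ Γ₀ → W := fun q => Quotient.liftOn' q f (fun a b hab => by
    rw [QuotientGroup.leftRel_apply] at hab
    have := hconst a (a⁻¹ * b) hab
    rw [mul_inv_cancel_left] at this
    exact this.symm)
  have hF : ∀ γ : Γ, F (QuotientGroup.mk γ) = f γ := fun γ => rfl
  set n : ℕ := Fintype.card (Γ ⧸ Γ₀) with hn
  have hn0 : (n : K) ≠ 0 := Nat.cast_ne_zero.mpr Fintype.card_ne_zero
  have key : ∀ h : Γ, ∑ q, π h • F q = (∑ q, F q) - (n : K) • f h := by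
    intro h
    have h1 : ∀ q : Γ ⧸ Γ₀, π h • F q = F (h • q) - f h := by
      intro q
      obtain ⟨g, rfl⟩ := QuotientGroup.mk_surjective q
      have h2 : h • (QuotientGroup.mk g : Γ ⧸ Γ₀) = QuotientGroup.mk (h * g) := rfl
      rw [h2, hF, hF, hf h g]
      abel
    have h3 : ∑ q : Γ ⧸ Γ₀, F (h • q) = ∑ q, F q :=
      Equiv.sum_comp (MulAction.toPerm h : Equiv.Perm (Γ ⧸ Γ₀)) F
    rw [Finset.sum_congr rfl fun q _ => h1 q, Finset.sum_sub_distrib, h3, Finset.sum_const,
      Finset.card_univ, Nat.cast_smul_eq_nsmul]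
  refine ⟨-((n : K)⁻¹ • ∑ q, F q), fun h => ?_⟩
  rw [smul_neg, smul_comm, Finset.smul_sum, key, smul_sub, smul_smul, inv_mul_cancel₀ hn0, one_smul]
  abel

end Fermat.Agent.S43lib.B2.Bridge
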