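/-
S43lib / B2 / Bridge / HeckeN (helper5).

Normalised Hecke coset data.

* `dUnit M : Γ₀(M) →* (ZMod M)ˣ`, the lower right entry;
* `GammaD M X = {γ ∈ Γ₀(M) | d(γ) ∈ X}` for a subgroup `X` of `(ZMod M)ˣ`;
* `tDataN hℓM`: the coset datum of `T_ℓ` on `Γ₀(M)` with the representatives
  `h_j = (1 j; 0 ℓ)` and `σ_ℓ h_∞ = σ_ℓ (ℓ 0; 0 1)`, `σ_ℓ ∈ Γ₀(M)` with `d(σ_ℓ) = ℓ`; its cocycle
  preserves the lower right entry modulo `M`, so it restricts to every `GammaD M X`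
  (`tDataD hℓM X`); on `Γ₀(M)` its operator is `heckeT`;
* `op_res_of_rel`: compatibility of two such data with a restriction.
-/
import Mathlib
import Fermat.Agent.S41lib.HC.Parabolic

set_option autoImplicit false
set_option linter.unusedSectionVars false

noncomputable section

namespace Fermat.Agent.S43lib.B2.Bridge

open CongruenceSubgroup Matrix.SpecialLinearGroup ModularCurve.Period ModularForm
open Fermat.Agent.S41lib.HC Fermat.Agent.S16lib.LH Fermat.Agent.S29lib.H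
open P2MW.S_ModularForm_heckeT_slash_eq_self_of_mem_Gamma0.ModularForm.HeckeSlashInvariance
open scoped MatrixGroups

/-! ### Generalities on coset data -/

section General

variable {Γ Γ' : Type*} [Group Γ] [Group Γ'] {ι : Type*}

/-- conjugate the cocycle of a coset datum by a function `s : ι → Γ'` -/
def conjBy (D : CosetData Γ Γ' ι) (s : ι → Γ') : CosetData Γ Γ' ι where
  σ := D.σ
  c γ x := s x * D.c γ x * (s (D.σ γ x))⁻¹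
  σ_mul := D.σ_mul
  c_mul γ γ' x := by
    rw [D.c_mul, D.σ_mul]
    group

@[simp] theorem conjBy_σ (D : CosetData Γ Γ' ι) (s : ι → Γ') (γ : Γ) :
    (conjBy D s).σ γ = D.σ γ := rfl

@[simp] theorem conjBy_c (D : CosetData Γ Γ' ι) (s : ι → Γ') (γ : Γ) (x : ι) :
    (conjBy D s).c γ x = s x * D.c γ x * (s (D.σ γ x))⁻¹ := rfl

theorem conjBy_op [Fintype ι] (D : CosetData Γ Γ' ι) (s : ι → Γ') (A : Type*)
    [AddCommGroup A] : (conjBy D s).op A = D.op A :=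
  CosetData.op_eq_of_conj D (conjBy D s) (Equiv.refl ι) s (fun _ _ => rfl) A

end General

/-! ### Relations in `GL₂(ℝ)` and restriction -/

section Rel

variable {Γ₁ Γ₂ : Subgroup SL(2, ℤ)} {ι : Type*} [Fintype ι]

/-- a coset datum on a subgroup of `SL₂(ℤ)` has the representatives `r` -/
def HasReps {Γ Γ' : Subgroup SL(2, ℤ)} (D : CosetData ↥Γ ↥Γ' ι) (r : ι → GL (Fin 2) ℝ) : Prop :=
  ∀ (γ : ↥Γ) (x : ι), r x * (mapGL ℝ (γ : SL(2, ℤ)) : GL (Fin 2) ℝ) =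
    (mapGL ℝ ((D.c γ x : ↥Γ') : SL(2, ℤ)) : GL (Fin 2) ℝ) * r (D.σ γ x)

/-- restriction `Hom(Γ₁, A) → Hom(Γ₂, A)` for `Γ₂ ≤ Γ₁` -/
def resOp (h : Γ₂ ≤ Γ₁) (A : Type*) [AddCommGroup A] : H Γ₁ A →+ H Γ₂ A :=
  (CosetData.ofHom (Subgroup.inclusion h)).op A

@[simp] theorem resOp_apply (h : Γ₂ ≤ Γ₁) {A : Type*} [AddCommGroup A] (φ : H Γ₁ A) (γ : ↥Γ₂) :
    resOp h A φ (Additive.ofMul γ) = φ (Additive.ofMul (Subgroup.inclusion h γ)) :=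
  CosetData.ofHom_op_apply _ φ γ

theorem resOp_isParabolicHom (h : Γ₂ ≤ Γ₁) {A : Type*} [AddCommGroup A] {φ : H Γ₁ A}
    (hφ : IsParabolicHom Γ₁ φ) : IsParabolicHom Γ₂ (resOp h A φ) := by
  intro γ hγ
  rw [resOp_apply]
  exact hφ _ hγ

/-- **Two coset data with the same permutations whose representatives differ by left
multiplication with elements of the larger group commute with restriction.** -/
theorem op_res_of_rel (h : Γ₂ ≤ Γ₁) (D₁ : CosetData ↥Γ₁ ↥Γ₁ ι) (D₂ : CosetData ↥Γ₂ ↥Γ₂ ι)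
    (r₁ r₂ : ι → GL (Fin 2) ℝ) (hr₁ : HasReps D₁ r₁) (hr₂ : HasReps D₂ r₂)
    (hσ : ∀ (γ : ↥Γ₂) (x : ι), D₂.σ γ x = D₁.σ (Subgroup.inclusion h γ) x)
    (d : ι → ↥Γ₁) (hd : ∀ x, r₂ x = (mapGL ℝ ((d x : ↥Γ₁) : SL(2, ℤ)) : GL (Fin 2) ℝ) * r₁ x)
    {A : Type*} [AddCommGroup A] (φ : H Γ₁ A) :
    D₂.op A (resOp h A φ) = resOp h A (D₁.op A φ) := by
  refine AddMonoidHom.ext fun a => ?_
  obtain ⟨γ, rfl⟩ : ∃ γ : ↥Γ₂, Additive.ofMul γ = a := ⟨Additive.toMul a, rfl⟩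
  rw [CosetData.op_apply, resOp_apply, CosetData.op_apply]
  have key : ∀ x, Subgroup.inclusion h (D₂.c γ x) =
      d x * D₁.c (Subgroup.inclusion h γ) x * (d (D₁.σ (Subgroup.inclusion h γ) x))⁻¹ := by
    intro x
    apply Subtype.ext
    apply mapGL_injective (S := ℝ)
    have h1 := hr₂ γ x
    have h2 := hr₁ (Subgroup.inclusion h γ) x
    rw [hσ, hd, hd, mul_assoc] at h1
    have h3 : (mapGL ℝ ((Subgroup.inclusion h γ : ↥Γ₁) : SL(2, ℤ)) : GL (Fin 2) ℝ) =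
        mapGL ℝ (γ : SL(2, ℤ)) := rfl
    rw [← h3, h2, ← mul_assoc, ← mul_assoc] at h1
    have h4 := mul_right_cancel h1
    show (mapGL ℝ ((D₂.c γ x : ↥Γ₂) : SL(2, ℤ)) : GL (Fin 2) ℝ) = _
    rw [Subgroup.coe_mul, Subgroup.coe_mul, Subgroup.coe_inv, map_mul, map_mul, map_inv,
      eq_mul_inv_iff_mul_eq]
    exact h4.symm
  simp_rw [resOp_apply, key, ofMul_mul, ofMul_inv, map_add, map_neg]
  rw [Finset.sum_add_distrib, Finset.sum_add_distrib, Finset.sum_neg_distrib,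
    Equiv.sum_comp (D₁.σ (Subgroup.inclusion h γ)) (fun x => φ (Additive.ofMul (d x)))]
  abel

end Rel


/-! ### The lower right entry -/

section DUnit

/-- the lower right entry modulo `M` as a unit -/
def dUnit (M : ℕ) : ↥(Gamma0 M) →* (ZMod M)ˣ := (Gamma0Map M).toHomUnits

@[simp] theorem coe_dUnit (M : ℕ) (γ : ↥(Gamma0 M)) :
    ((dUnit M γ : (ZMod M)ˣ) : ZMod M) = Gamma0Map M γ := rfl

theorem coe_dUnit' (M : ℕ) (γ : ↥(Gamma0 M)) :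
    ((dUnit M γ : (ZMod M)ˣ) : ZMod M) = (((γ : SL(2, ℤ)) 1 1 : ℤ) : ZMod M) := rfl

/-- the subgroup of `Γ₀(M)` cut out by a condition on the lower right entry -/
def GammaD (M : ℕ) (X : Subgroup (ZMod M)ˣ) : Subgroup SL(2, ℤ) :=
  (X.comap (dUnit M)).map (Gamma0 M).subtype

theorem mem_GammaD {M : ℕ} {X : Subgroup (ZMod M)ˣ} {γ : SL(2, ℤ)} :
    γ ∈ GammaD M X ↔ ∃ h : γ ∈ Gamma0 M, dUnit M ⟨γ, h⟩ ∈ X := by
  constructor
  · rintro ⟨g, hg, rfl⟩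
    exact ⟨g.2, hg⟩
  · rintro ⟨h, hX⟩
    exact ⟨⟨γ, h⟩, hX, rfl⟩

theorem GammaD_le (M : ℕ) (X : Subgroup (ZMod M)ˣ) : GammaD M X ≤ Gamma0 M := by
  intro γ hγ
  exact (mem_GammaD.mp hγ).1

/-- the inclusion `GammaD M X → Γ₀(M)` -/
def toGamma0 {M : ℕ} (X : Subgroup (ZMod M)ˣ) : ↥(GammaD M X) →* ↥(Gamma0 M) :=
  Subgroup.inclusion (GammaD_le M X)

@[simp] theorem coe_toGamma0 {M : ℕ} (X : Subgroup (ZMod M)ˣ) (γ : ↥(GammaD M X)) :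
    ((toGamma0 X γ : ↥(Gamma0 M)) : SL(2, ℤ)) = (γ : SL(2, ℤ)) := rfl

theorem dUnit_toGamma0_mem {M : ℕ} (X : Subgroup (ZMod M)ˣ) (γ : ↥(GammaD M X)) :
    dUnit M (toGamma0 X γ) ∈ X := by
  obtain ⟨h, hX⟩ := mem_GammaD.mp γ.2
  exact hX

theorem mem_GammaD_of_dUnit {M : ℕ} {X : Subgroup (ZMod M)ˣ} (g : ↥(Gamma0 M))
    (hg : dUnit M g ∈ X) : (g : SL(2, ℤ)) ∈ GammaD M X :=
  mem_GammaD.mpr ⟨g.2, hg⟩

theorem GammaD_top (M : ℕ) : GammaD M ⊤ = Gamma0 M := by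
  ext γ
  rw [mem_GammaD]
  exact ⟨fun ⟨h, _⟩ => h, fun h => ⟨h, Subgroup.mem_top _⟩⟩

end DUnit

/-! ### The normalised datum of `T_ℓ` -/

section TN

variable {M ℓ : ℕ} [Fact ℓ.Prime] (hℓM : ¬ ℓ ∣ M)

include hℓM in
theorem exists_sigmaL : ∃ s : ↥(Gamma0 M), Gamma0Map M s = (ℓ : ZMod M) := by
  have hcop : IsCoprime (ℓ : ℤ) (M : ℤ) :=
    Nat.isCoprime_iff_coprime.mpr ((Nat.Prime.coprime_iff_not_dvd Fact.out).mpr hℓM)
  obtain ⟨a, b, hab⟩ := hcop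
  -- `a ℓ + b M = 1`
  let g : SL(2, ℤ) := ⟨!![a, -b; (M : ℤ), (ℓ : ℤ)], by
    rw [Matrix.det_fin_two_of]
    linarith⟩
  have hg : g ∈ Gamma0 M := by
    rw [Gamma0_mem]
    show (((M : ℤ) : ℤ) : ZMod M) = 0
    simp
  refine ⟨⟨g, hg⟩, ?_⟩
  show (((ℓ : ℤ) : ℤ) : ZMod M) = (ℓ : ZMod M)
  simp

/-- an element of `Γ₀(M)` with lower right entry `ℓ` -/
def sigmaL : ↥(Gamma0 M) := (exists_sigmaL hℓM).choose

theorem gamma0Map_sigmaL : Gamma0Map M (sigmaL hℓM) = (ℓ : ZMod M) :=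
  (exists_sigmaL hℓM).choose_spec

/-- the normalising elements: `σ_ℓ` at `∞`, `1` at the finite points -/
def sN (y : OnePoint (ZMod ℓ)) : ↥(Gamma0 M) := y.elim (sigmaL hℓM) (fun _ => 1)

@[simp] theorem sN_infty : sN hℓM (OnePoint.infty) = sigmaL hℓM := rfl
@[simp] theorem sN_coe (j : ZMod ℓ) : sN hℓM (j : OnePoint (ZMod ℓ)) = 1 := rfl

theorem gamma0Map_sN (y : OnePoint (ZMod ℓ)) :
    Gamma0Map M (sN hℓM y) * (repD ℓ y : ZMod M) = (ℓ : ZMod M) := by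
  induction y using OnePoint.rec with
  | infty => rw [sN_infty, gamma0Map_sigmaL, repD_infty, Nat.cast_one, mul_one]
  | coe j => rw [sN_coe, map_one, repD_coe, one_mul]

/-- the normalised coset datum of `T_ℓ` on `Γ₀(M)` -/
def tDataN : CosetData ↥(Gamma0 M) ↥(Gamma0 M) (OnePoint (ZMod ℓ)) :=
  conjBy (tData hℓM) (sN hℓM)

@[simp] theorem tDataN_σ (γ : ↥(Gamma0 M)) : (tDataN hℓM).σ γ = tPerm ℓ γ := rfl

theorem tDataN_c (γ : ↥(Gamma0 M)) (y : OnePoint (ZMod ℓ)) :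
    (tDataN hℓM).c γ y = sN hℓM y * tCoc hℓM γ y * (sN hℓM (tPerm ℓ γ y))⁻¹ := rfl

theorem tDataN_op (A : Type*) [AddCommGroup A] : (tDataN hℓM).op A = heckeT hℓM A :=
  conjBy_op (tData hℓM) (sN hℓM) A

/-- the normalised representatives -/
def repN (y : OnePoint (ZMod ℓ)) : GL (Fin 2) ℝ :=
  (mapGL ℝ ((sN hℓM y : ↥(Gamma0 M)) : SL(2, ℤ)) : GL (Fin 2) ℝ) * heckeRep ℓ y

theorem tDataN_hasReps : HasReps (tDataN hℓM) (repN hℓM) := by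
  intro γ y
  unfold repN
  rw [mul_assoc, tCoc_rel hℓM γ y, tDataN_c, tDataN_σ, Subgroup.coe_mul, Subgroup.coe_mul,
    Subgroup.coe_inv, map_mul, map_mul, map_inv]
  group

include hℓM in
theorem isUnit_natCast_of_not_dvd : IsUnit ((ℓ : ℕ) : ZMod M) :=
  (ZMod.isUnit_iff_coprime ℓ M).mpr ((Nat.Prime.coprime_iff_not_dvd Fact.out).mpr hℓM)

/-- **the normalised cocycle preserves the lower right entry** -/
theorem gamma0Map_tDataN_c (γ : ↥(Gamma0 M)) (y : OnePoint (ZMod ℓ)) :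
    Gamma0Map M ((tDataN hℓM).c γ y) = Gamma0Map M γ := by
  have h1 : (tDataN hℓM).c γ y * sN hℓM (tPerm ℓ γ y) = sN hℓM y * tCoc hℓM γ y := by
    rw [tDataN_c, inv_mul_cancel_right]
  have h2 := congrArg (Gamma0Map M) h1
  rw [map_mul, map_mul] at h2
  have h3 := gamma0Map_tCoc hℓM γ y
  have h4 : Gamma0Map M ((tDataN hℓM).c γ y) * (ℓ : ZMod M) = Gamma0Map M γ * (ℓ : ZMod M) := by
    calc Gamma0Map M ((tDataN hℓM).c γ y) * (ℓ : ZMod M)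
        = Gamma0Map M ((tDataN hℓM).c γ y) *
            (Gamma0Map M (sN hℓM (tPerm ℓ γ y)) * (repD ℓ (tPerm ℓ γ y) : ZMod M)) := by
          rw [gamma0Map_sN]
      _ = Gamma0Map M (sN hℓM y) * (Gamma0Map M (tCoc hℓM γ y) * (repD ℓ (tPerm ℓ γ y) : ZMod M)) := by
          rw [← mul_assoc, h2, mul_assoc]
      _ = Gamma0Map M (sN hℓM y) * ((repD ℓ y : ZMod M) * Gamma0Map M γ) := by rw [h3]
      _ = Gamma0Map M γ * (ℓ : ZMod M) := by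
          rw [← mul_assoc, gamma0Map_sN, mul_comm]
  exact (isUnit_natCast_of_not_dvd hℓM).mul_left_injective h4

theorem dUnit_tDataN_c (γ : ↥(Gamma0 M)) (y : OnePoint (ZMod ℓ)) :
    dUnit M ((tDataN hℓM).c γ y) = dUnit M γ :=
  Units.ext (gamma0Map_tDataN_c hℓM γ y)

/-! ### Restriction to `GammaD M X` -/

variable (X : Subgroup (ZMod M)ˣ)

/-- the normalised coset datum of `T_ℓ` on `GammaD M X` -/
def tDataD : CosetData ↥(GammaD M X) ↥(GammaD M X) (OnePoint (ZMod ℓ)) where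
  σ γ := tPerm ℓ (toGamma0 X γ)
  c γ y := ⟨(((tDataN hℓM).c (toGamma0 X γ) y : ↥(Gamma0 M)) : SL(2, ℤ)),
    mem_GammaD_of_dUnit _ (by rw [dUnit_tDataN_c]; exact dUnit_toGamma0_mem X γ)⟩
  σ_mul γ γ' y := by
    rw [map_mul]
    exact tPerm_mul _ _ y
  c_mul γ γ' y := by
    apply Subtype.ext
    show (((tDataN hℓM).c (toGamma0 X (γ * γ')) y : ↥(Gamma0 M)) : SL(2, ℤ)) =
      (((tDataN hℓM).c (toGamma0 X γ) y : ↥(Gamma0 M)) : SL(2, ℤ)) *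
        (((tDataN hℓM).c (toGamma0 X γ') (tPerm ℓ (toGamma0 X γ) y) : ↥(Gamma0 M)) : SL(2, ℤ))
    rw [map_mul, (tDataN hℓM).c_mul, Subgroup.coe_mul]
    rfl

@[simp] theorem tDataD_σ (γ : ↥(GammaD M X)) : (tDataD hℓM X).σ γ = tPerm ℓ (toGamma0 X γ) := rfl

theorem coe_tDataD_c (γ : ↥(GammaD M X)) (y : OnePoint (ZMod ℓ)) :
    (((tDataD hℓM X).c γ y : ↥(GammaD M X)) : SL(2, ℤ)) =
      (((tDataN hℓM).c (toGamma0 X γ) y : ↥(Gamma0 M)) : SL(2, ℤ)) := rfl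

theorem tDataD_hasReps : HasReps (tDataD hℓM X) (repN hℓM) := by
  intro γ y
  exact tDataN_hasReps hℓM (toGamma0 X γ) y

/-- `T_ℓ` on `Hom(GammaD M X, A)` -/
def heckeD (A : Type*) [AddCommGroup A] : H (GammaD M X) A →+ H (GammaD M X) A :=
  (tDataD hℓM X).op A

theorem heckeD_isParabolicHom {A : Type*} [AddCommGroup A] {φ : H (GammaD M X) A}
    (hφ : IsParabolicHom (GammaD M X) φ) : IsParabolicHom (GammaD M X) (heckeD hℓM X A φ) :=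
  (tDataD hℓM X).op_isParabolicHom (repN hℓM) (tDataD_hasReps hℓM X) hφ

end TN


/-! ### Change of level -/

section Level

variable {M₁ M₂ ℓ : ℕ} [Fact ℓ.Prime] (hℓ₁ : ¬ ℓ ∣ M₁) (hℓ₂ : ¬ ℓ ∣ M₂) (hdvd : M₁ ∣ M₂)
  (X₁ : Subgroup (ZMod M₁)ˣ) (X₂ : Subgroup (ZMod M₂)ˣ)

theorem Gamma0_le_of_dvd {M₁ M₂ : ℕ} (hdvd : M₁ ∣ M₂) : Gamma0 M₂ ≤ Gamma0 M₁ := by
  intro γ hγ
  rw [Gamma0_mem] at hγ ⊢
  rw [ZMod.intCast_zmod_eq_zero_iff_dvd] at hγ ⊢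
  exact (Int.natCast_dvd_natCast.mpr hdvd).trans hγ

theorem gamma0Map_inclusion_of_dvd {M₁ M₂ : ℕ} (hdvd : M₁ ∣ M₂) (g : ↥(Gamma0 M₂)) (n : ℤ)
    (hg : Gamma0Map M₂ g = (n : ZMod M₂)) :
    Gamma0Map M₁ (Subgroup.inclusion (Gamma0_le_of_dvd hdvd) g) = (n : ZMod M₁) := by
  show ((((g : SL(2, ℤ)) 1 1 : ℤ)) : ZMod M₁) = (n : ZMod M₁)
  have h1 : ((((g : SL(2, ℤ)) 1 1 : ℤ)) : ZMod M₂) = (n : ZMod M₂) := hg
  rw [ZMod.intCast_eq_intCast_iff_dvd_sub] at h1 ⊢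
  exact (Int.natCast_dvd_natCast.mpr hdvd).trans h1

include hdvd in
/-- **the normalised Hecke operators commute with restriction between levels** -/
theorem heckeD_resOp (h : GammaD M₂ X₂ ≤ GammaD M₁ X₁) {A : Type*} [AddCommGroup A]
    (φ : H (GammaD M₁ X₁) A) :
    heckeD hℓ₂ X₂ A (resOp h A φ) = resOp h A (heckeD hℓ₁ X₁ A φ) := by
  -- the quotient of the two normalising elements at `∞`
  have hmem : ((Subgroup.inclusion (Gamma0_le_of_dvd hdvd) (sigmaL hℓ₂) * (sigmaL hℓ₁)⁻¹ :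
      ↥(Gamma0 M₁)) : SL(2, ℤ)) ∈ GammaD M₁ X₁ := by
    apply mem_GammaD_of_dUnit
    have : dUnit M₁ (Subgroup.inclusion (Gamma0_le_of_dvd hdvd) (sigmaL hℓ₂) * (sigmaL hℓ₁)⁻¹)
        = 1 := by
      rw [map_mul, map_inv, mul_inv_eq_one]
      apply Units.ext
      rw [coe_dUnit, coe_dUnit, gamma0Map_sigmaL]
      have := gamma0Map_inclusion_of_dvd hdvd (sigmaL hℓ₂) (ℓ : ℤ)
        (by rw [gamma0Map_sigmaL]; simp)
      rw [this]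
      simp
    rw [this]
    exact X₁.one_mem
  refine op_res_of_rel h (tDataD hℓ₁ X₁) (tDataD hℓ₂ X₂) (repN hℓ₁) (repN hℓ₂)
    (tDataD_hasReps hℓ₁ X₁) (tDataD_hasReps hℓ₂ X₂) (fun γ x => rfl)
    (fun y => y.elim ⟨_, hmem⟩ (fun _ => 1)) ?_ φ
  intro y
  induction y using OnePoint.rec with
  | infty =>
    unfold repN
    rw [sN_infty, sN_infty, ← mul_assoc, ← map_mul]
    congr 2
    show ((sigmaL hℓ₂ : ↥(Gamma0 M₂)) : SL(2, ℤ)) =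
      (((sigmaL hℓ₂ : ↥(Gamma0 M₂)) : SL(2, ℤ)) * ((sigmaL hℓ₁ : ↥(Gamma0 M₁)) : SL(2, ℤ))⁻¹) *
        ((sigmaL hℓ₁ : ↥(Gamma0 M₁)) : SL(2, ℤ))
    rw [inv_mul_cancel_right]
  | coe j =>
    have h1 : ((sN hℓ₂ (j : OnePoint (ZMod ℓ)) : ↥(Gamma0 M₂)) : SL(2, ℤ)) = 1 := rfl
    have h2 : ((sN hℓ₁ (j : OnePoint (ZMod ℓ)) : ↥(Gamma0 M₁)) : SL(2, ℤ)) = 1 := rfl
    unfold repN
    rw [h1, h2]
    show _ = (mapGL ℝ (1 : SL(2, ℤ)) : GL (Fin 2) ℝ) * _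
    simp only [map_one, one_mul]

end Level


/-! ### Restriction from `Γ₀(M₁)` -/

section Level0

variable {M₁ M₂ ℓ : ℕ} [Fact ℓ.Prime] (hℓ₁ : ¬ ℓ ∣ M₁) (hℓ₂ : ¬ ℓ ∣ M₂) (hdvd : M₁ ∣ M₂)
  (X₂ : Subgroup (ZMod M₂)ˣ)

include hdvd in
/-- **`heckeT` on `Γ₀(M₁)` and the normalised operator on `GammaD M₂ X₂` commute with
restriction** -/
theorem heckeD_resOp_gamma0 (h : GammaD M₂ X₂ ≤ Gamma0 M₁) {A : Type*} [AddCommGroup A]
    (φ : H (Gamma0 M₁) A) :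
    heckeD hℓ₂ X₂ A (resOp h A φ) = resOp h A (heckeT hℓ₁ A φ) := by
  rw [← tDataN_op hℓ₁ A]
  refine op_res_of_rel h (tDataN hℓ₁) (tDataD hℓ₂ X₂) (repN hℓ₁) (repN hℓ₂)
    (tDataN_hasReps hℓ₁) (tDataD_hasReps hℓ₂ X₂) (fun γ x => rfl)
    (fun y => y.elim (Subgroup.inclusion (Gamma0_le_of_dvd hdvd) (sigmaL hℓ₂) * (sigmaL hℓ₁)⁻¹)
      (fun _ => 1)) ?_ φ
  intro y
  induction y using OnePoint.rec with
  | infty =>
    unfold repN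
    rw [sN_infty, sN_infty, ← mul_assoc, ← map_mul]
    congr 2
    show ((sigmaL hℓ₂ : ↥(Gamma0 M₂)) : SL(2, ℤ)) =
      (((sigmaL hℓ₂ : ↥(Gamma0 M₂)) : SL(2, ℤ)) * ((sigmaL hℓ₁ : ↥(Gamma0 M₁)) : SL(2, ℤ))⁻¹) *
        ((sigmaL hℓ₁ : ↥(Gamma0 M₁)) : SL(2, ℤ))
    rw [inv_mul_cancel_right]
  | coe j =>
    have h1 : ((sN hℓ₂ (j : OnePoint (ZMod ℓ)) : ↥(Gamma0 M₂)) : SL(2, ℤ)) = 1 := rfl
    have h2 : ((sN hℓ₁ (j : OnePoint (ZMod ℓ)) : ↥(Gamma0 M₁)) : SL(2, ℤ)) = 1 := rfl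
    unfold repN
    rw [h1, h2]
    show _ = (mapGL ℝ (1 : SL(2, ℤ)) : GL (Fin 2) ℝ) * _
    simp only [map_one, one_mul]

end Level0

end Fermat.Agent.S43lib.B2.Bridge
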