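/-
S43lib / B2 / Bridge / Alpha (helper5).

The matrices `α_u = (1 u/T; 0 1)` and their commutation with `SL₂(ℤ)` and with the Hecke
representatives:

* `alpha_mul_eq` : for `γ = (a b; c d) ∈ SL₂(ℤ)` with `T² ∣ c` and `T ∣ d u - a v` there is
  `κ ∈ SL₂(ℤ)` with `α_u γ = κ α_v`, with the same lower left entry and diagonal
  `(a + (c/T) u, d - (c/T) v)`;
* `alpha_mul_heckeRep_coe`, `alpha_mul_heckeDiag` : `α_u h_j = h_j α_{ℓ u}`,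
  `α_{ℓ² u} h_∞ = h_∞ α_{ℓ u}`.
-/
import Mathlib
import Fermat.Agent.S43lib.B2.Bridge.HeckeN

set_option autoImplicit false
set_option linter.unusedSectionVars false

noncomputable section

namespace Fermat.Agent.S43lib.B2.Bridge

open CongruenceSubgroup Matrix.SpecialLinearGroup ModularForm
open P2MW.S_ModularForm_heckeT_slash_eq_self_of_mem_Gamma0.ModularForm.HeckeSlashInvariance
open scoped MatrixGroups

/-- `α_u = (1 u/T; 0 1)` -/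
def alphaGL (T : ℕ) (u : ℤ) : GL (Fin 2) ℝ :=
  upperTriangularGL 1 ((u : ℝ) / (T : ℝ)) 1 (by norm_num)

@[simp] theorem val_alphaGL (T : ℕ) (u : ℤ) :
    ((alphaGL T u : GL (Fin 2) ℝ) : Matrix (Fin 2) (Fin 2) ℝ) =
      !![(1 : ℝ), (u : ℝ) / (T : ℝ); 0, 1] := rfl

theorem alphaGL_add (T : ℕ) (u v : ℤ) : alphaGL T (u + v) = alphaGL T u * alphaGL T v := by
  ext i j
  fin_cases i <;> fin_cases j <;>
    simp [Matrix.mul_apply, Fin.sum_univ_two] <;> ring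

theorem alphaGL_zero (T : ℕ) : alphaGL T 0 = 1 := by
  ext i j
  fin_cases i <;> fin_cases j <;> simp

theorem alphaGL_neg (T : ℕ) (u : ℤ) : alphaGL T (-u) = (alphaGL T u)⁻¹ := by
  rw [eq_inv_iff_mul_eq_one, ← alphaGL_add, neg_add_cancel, alphaGL_zero]

/-- `α_T = τ = (1 1; 0 1)` is integral -/
theorem alphaGL_mul_self (T : ℕ) (hT : T ≠ 0) (m : ℤ) :
    alphaGL T (m * T) = (mapGL ℝ (⟨!![1, m; 0, 1], by simp [Matrix.det_fin_two_of]⟩ : SL(2, ℤ)) :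
      GL (Fin 2) ℝ) := by
  have hT' : (T : ℝ) ≠ 0 := by exact_mod_cast hT
  ext i j
  fin_cases i <;> fin_cases j <;> simp [hT']

/-- **`α_u γ = κ α_v`**, general form: `c = T c₁` and `T ∣ d u - a v - c₁ u v`. -/
theorem alpha_mul_eq' (T : ℕ) (hT : T ≠ 0) (γ : SL(2, ℤ)) (u v c₁ : ℤ)
    (hc : γ 1 0 = T * c₁) (huv : (T : ℤ) ∣ γ 1 1 * u - γ 0 0 * v - c₁ * u * v) :
    ∃ κ : SL(2, ℤ), alphaGL T u * (mapGL ℝ γ : GL (Fin 2) ℝ) = mapGL ℝ κ * alphaGL T v ∧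
      κ 1 0 = γ 1 0 ∧ κ 0 0 = γ 0 0 + c₁ * u ∧ κ 1 1 = γ 1 1 - c₁ * v ∧
      (T : ℤ) * κ 0 1 = T * γ 0 1 + (γ 1 1 * u - γ 0 0 * v - c₁ * u * v) := by
  obtain ⟨m, hm⟩ := huv
  have hdet := det_eq γ
  have hT' : (T : ℝ) ≠ 0 := by exact_mod_cast hT
  refine ⟨⟨!![γ 0 0 + c₁ * u, γ 0 1 + m; γ 1 0, γ 1 1 - c₁ * v], ?_⟩, ?_, rfl, rfl, rfl, ?_⟩
  · rw [Matrix.det_fin_two_of]
    linear_combination hdet + (-(m : ℤ)) * hc + c₁ * hm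
  · have hc' : ((γ 1 0 : ℤ) : ℝ) = (T : ℝ) * c₁ := by exact_mod_cast hc
    have hm' : ((γ 1 1 : ℤ) : ℝ) * u - (γ 0 0 : ℤ) * v - c₁ * u * v = (T : ℝ) * m := by
      exact_mod_cast hm
    ext i j
    fin_cases i <;> fin_cases j <;>
      simp [Matrix.mul_apply, Fin.sum_univ_two]
    all_goals first
      | (rw [hc']; field_simp; done)
      | (field_simp; linear_combination hm')
      | (field_simp; linear_combination (-1 : ℝ) * hm')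
      | (rw [hc']; field_simp; ring)
  · show (T : ℤ) * (γ 0 1 + m) = _
    rw [hm]
    ring

/-- **`α_u γ = κ α_v`** for `T² ∣ c`, `T ∣ d u - a v`. -/
theorem alpha_mul_eq (T : ℕ) (hT : T ≠ 0) (γ : SL(2, ℤ)) (u v : ℤ)
    (hc : ((T : ℤ) * T) ∣ γ 1 0) (huv : (T : ℤ) ∣ γ 1 1 * u - γ 0 0 * v) :
    ∃ κ : SL(2, ℤ), alphaGL T u * (mapGL ℝ γ : GL (Fin 2) ℝ) = mapGL ℝ κ * alphaGL T v ∧
      κ 1 0 = γ 1 0 ∧ (∃ c₁ : ℤ, γ 1 0 = T * c₁ ∧ (T : ℤ) ∣ c₁ ∧ κ 0 0 = γ 0 0 + c₁ * u ∧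
        κ 1 1 = γ 1 1 - c₁ * v ∧
        (T : ℤ) * κ 0 1 = T * γ 0 1 + (γ 1 1 * u - γ 0 0 * v - c₁ * u * v)) := by
  obtain ⟨c₂, hc₂⟩ := hc
  have h1 : γ 1 0 = T * ((T : ℤ) * c₂) := by rw [hc₂]; ring
  have h2 : (T : ℤ) ∣ γ 1 1 * u - γ 0 0 * v - (T : ℤ) * c₂ * u * v :=
    dvd_sub huv ⟨c₂ * u * v, by ring⟩
  obtain ⟨κ, hrel, h10, h00, h11, h01⟩ := alpha_mul_eq' T hT γ u v ((T : ℤ) * c₂) h1 h2
  exact ⟨κ, hrel, h10, (T : ℤ) * c₂, h1, dvd_mul_right _ _, h00, h11, h01⟩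

/-- `α_u h_j = h_j α_{ℓ u}` -/
theorem alpha_mul_heckeMatrix (T ℓ : ℕ) (hℓ : ℓ ≠ 0) (u : ℤ) (j : ℕ) :
    alphaGL T u * heckeMatrix ℓ j = heckeMatrix ℓ j * alphaGL T (ℓ * u) := by
  ext i k
  fin_cases i <;> fin_cases k <;>
    simp [Matrix.mul_apply, Fin.sum_univ_two, val_heckeMatrix hℓ] <;> ring

/-- `α_{ℓ² u} h_∞ = h_∞ α_{ℓ u}` -/
theorem alpha_mul_heckeDiag (T ℓ : ℕ) (hℓ : ℓ ≠ 0) (u : ℤ) :
    alphaGL T (ℓ * ℓ * u) * heckeDiagMatrix ℓ = heckeDiagMatrix ℓ * alphaGL T (ℓ * u) := by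
  ext i k
  fin_cases i <;> fin_cases k <;>
    simp [Matrix.mul_apply, Fin.sum_univ_two, val_heckeDiagMatrix hℓ] <;> ring

end Fermat.Agent.S43lib.B2.Bridge
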