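/-
S43lib / B2 / Bridge / Eis (helper5).

**The Eisenstein lemma.**  For a prime `ℓ ≡ 1` modulo `M` and a torsion-free abelian group `A`, the
operator `T_ℓ - (1 + ℓ)` maps `Hom(Γ₀(M), A)` into the parabolic classes: on the boundary `T_ℓ` acts as
`1 + ℓ`.

Proof: a parabolic `γ ∈ Γ₀(M)` satisfies `γ² = G τ^{2s} G⁻¹`; for `n = γ^{2Mℓ} = G τ^{mℓ} G⁻¹`
(`m = 2sM`) the cocycle of `T_ℓ` is `c(n, y) = G'_y τ^{m_z} G'_y⁻¹` with `h_y G = G'_y h_z`,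
`m_z ∈ {m, ℓ² m}`; as `h_y ≡ τ^{a_y}` modulo `M`, `G'_y ∈ τ^{a_y} G τ^{-a_z} Γ(M)` and
`φ(G'_y τ^{m'} G'_y⁻¹) = φ(G τ^{m'} G⁻¹)`.
-/
import Mathlib
import Fermat.Agent.S43lib.B2.Bridge.Alpha
import Fermat.Agent.S41lib.HC.Unique
import Fermat.Agent.S29lib.K3.CuspDiv

set_option autoImplicit false
set_option linter.unusedSectionVars false

noncomputable section

namespace Fermat.Agent.S43lib.B2.Bridge

open CongruenceSubgroup Matrix.SpecialLinearGroup ModularForm ModularCurve.Period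
open Fermat.Agent.S41lib.HC Fermat.Agent.S16lib.LH Fermat.Agent.S29lib.H
open P2MW.S_ModularForm_heckeT_slash_eq_self_of_mem_Gamma0.ModularForm.HeckeSlashInvariance
open scoped MatrixGroups

/-! ### The translations -/

/-- `τ^m = (1 m; 0 1)` -/
def tauZ (m : ℤ) : SL(2, ℤ) := ⟨!![1, m; 0, 1], by simp [Matrix.det_fin_two_of]⟩

@[simp] theorem tauZ_apply_zero_zero (m : ℤ) : tauZ m 0 0 = 1 := rfl
@[simp] theorem tauZ_apply_zero_one (m : ℤ) : tauZ m 0 1 = m := rfl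
@[simp] theorem tauZ_apply_one_zero (m : ℤ) : tauZ m 1 0 = 0 := rfl
@[simp] theorem tauZ_apply_one_one (m : ℤ) : tauZ m 1 1 = 1 := rfl

theorem tauZ_add (a b : ℤ) : tauZ (a + b) = tauZ a * tauZ b := by
  ext i j
  fin_cases i <;> fin_cases j <;>
    simp [tauZ, Matrix.mul_apply, Fin.sum_univ_two, add_comm]

theorem tauZ_zero : tauZ 0 = 1 := by
  ext i j
  fin_cases i <;> fin_cases j <;> simp [tauZ]

theorem tauZ_neg (a : ℤ) : tauZ (-a) = (tauZ a)⁻¹ := by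
  rw [eq_inv_iff_mul_eq_one, ← tauZ_add, neg_add_cancel, tauZ_zero]

theorem tauZ_comm (a b : ℤ) : tauZ a * tauZ b = tauZ b * tauZ a := by
  rw [← tauZ_add, ← tauZ_add, add_comm]

theorem tauZ_pow (a : ℤ) (k : ℕ) : tauZ a ^ k = tauZ (k * a) := by
  induction k with
  | zero => rw [pow_zero, Nat.cast_zero, zero_mul, tauZ_zero]
  | succ k ih =>
    rw [pow_succ, ih, ← tauZ_add]
    congr 1
    push_cast
    ring

theorem tauZ_eq_T_zpow (m : ℤ) : tauZ m = ModularGroup.T ^ m := by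
  ext i j
  rw [ModularGroup.coe_T_zpow]
  rfl

theorem tauZ_mem_Gamma0 (M : ℕ) (m : ℤ) : tauZ m ∈ Gamma0 M := by
  rw [Gamma0_mem]
  simp

theorem tauZ_mem_Gamma (M : ℕ) (k : ℤ) : tauZ (M * k) ∈ Gamma M := by
  rw [Gamma_mem]
  simp

theorem mapGL_tauZ (m : ℤ) : (mapGL ℝ (tauZ m) : GL (Fin 2) ℝ) = alphaGL 1 m := by
  have := alphaGL_mul_self 1 one_ne_zero m
  rw [Nat.cast_one, mul_one] at this
  exact this.symm

/-! ### The cusp homomorphisms -/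

section Cusp

variable {M : ℕ} {A : Type*} [AddCommGroup A]

theorem Gamma_le_Gamma0' (M : ℕ) : Gamma M ≤ Gamma0 M := by
  intro γ hγ
  rw [Gamma_mem] at hγ
  rw [Gamma0_mem]
  exact hγ.2.2.1

/-- `n ↦ X n X⁻¹`, `Γ(M) → Γ₀(M)` -/
def conjGamma (M : ℕ) (X : SL(2, ℤ)) : ↥(Gamma M) →* ↥(Gamma0 M) :=
  haveI : (Gamma M).Normal := Gamma_normal M
  (Subgroup.inclusion (Gamma_le_Gamma0' M)).comp
    (MulAut.conjNormal X : MulAut ↥(Gamma M)).toMonoidHom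

theorem coe_conjGamma (X : SL(2, ℤ)) (n : ↥(Gamma M)) :
    ((conjGamma M X n : ↥(Gamma0 M)) : SL(2, ℤ)) = X * (n : SL(2, ℤ)) * X⁻¹ := by
  have : (Gamma M).Normal := Gamma_normal M
  exact MulAut.conjNormal_apply X n

variable (φ : H (Gamma0 M) A)

/-- `n ↦ φ(X n X⁻¹)` on `Γ(M)` -/
def cuspHom (X : SL(2, ℤ)) : Additive ↥(Gamma M) →+ A :=
  φ.comp (MonoidHom.toAdditive (conjGamma M X))

theorem cuspHom_apply (X : SL(2, ℤ)) (n : ↥(Gamma M)) :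
    cuspHom φ X (Additive.ofMul n) = φ (Additive.ofMul (conjGamma M X n)) := rfl

theorem cuspHom_eq_of_coe (X : SL(2, ℤ)) (n : ↥(Gamma M)) (g : ↥(Gamma0 M))
    (hg : (g : SL(2, ℤ)) = X * (n : SL(2, ℤ)) * X⁻¹) :
    φ (Additive.ofMul g) = cuspHom φ X (Additive.ofMul n) := by
  rw [cuspHom_apply]
  congr 2
  apply Subtype.ext
  rw [hg, coe_conjGamma]

theorem cuspHom_mul_right (X : SL(2, ℤ)) (ν n : ↥(Gamma M)) :
    cuspHom φ (X * (ν : SL(2, ℤ))) (Additive.ofMul n) = cuspHom φ X (Additive.ofMul n) := by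
  rw [← hom_conj (cuspHom φ X) ν n, cuspHom_apply, cuspHom_apply]
  congr 2
  apply Subtype.ext
  rw [coe_conjGamma, coe_conjGamma, Subgroup.coe_mul, Subgroup.coe_mul, Subgroup.coe_inv]
  group

theorem cuspHom_mul_left (b : ↥(Gamma0 M)) (X : SL(2, ℤ)) (n : ↥(Gamma M)) :
    cuspHom φ ((b : SL(2, ℤ)) * X) (Additive.ofMul n) = cuspHom φ X (Additive.ofMul n) := by
  rw [cuspHom_apply, cuspHom_apply, ← hom_conj φ b (conjGamma M X n)]
  congr 2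
  apply Subtype.ext
  rw [coe_conjGamma, Subgroup.coe_mul, Subgroup.coe_mul, Subgroup.coe_inv, coe_conjGamma]
  group

/-- the element `τ^{M k}` of `Γ(M)` -/
def tauG (M : ℕ) (k : ℤ) : ↥(Gamma M) := ⟨tauZ (M * k), tauZ_mem_Gamma M k⟩

/-- the value `φ(X τ^{M k} X⁻¹)` -/
def cuspVal (X : SL(2, ℤ)) (k : ℤ) : A := cuspHom φ X (Additive.ofMul (tauG M k))

theorem cuspVal_mul_tauZ (X : SL(2, ℤ)) (c k : ℤ) :
    cuspVal φ (X * tauZ c) k = cuspVal φ X k := by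
  unfold cuspVal
  rw [cuspHom_apply, cuspHom_apply]
  congr 2
  apply Subtype.ext
  rw [coe_conjGamma, coe_conjGamma]
  show X * tauZ c * tauZ (M * k) * (X * tauZ c)⁻¹ = X * tauZ (M * k) * X⁻¹
  rw [mul_inv_rev, mul_assoc X, tauZ_comm, ← tauZ_neg]
  have : X * (tauZ (↑M * k) * tauZ c) * (tauZ (-c) * X⁻¹) =
      X * tauZ (M * k) * (tauZ c * tauZ (-c)) * X⁻¹ := by group
  rw [this, ← tauZ_add, add_neg_cancel, tauZ_zero, mul_one]

theorem cuspVal_nat_mul (X : SL(2, ℤ)) (j : ℕ) (k : ℤ) :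
    cuspVal φ X (j * k) = j • cuspVal φ X k := by
  unfold cuspVal
  have : tauG M (j * k) = tauG M k ^ j := by
    apply Subtype.ext
    show tauZ (M * (j * k)) = tauZ (M * k) ^ j
    rw [tauZ_pow]
    congr 1
    ring
  rw [this, ofMul_pow, map_nsmul]

/-- the cusp value only depends on `X` modulo `Γ₀(M)` on the left, translations and `Γ(M)` on the
right -/
theorem cuspVal_congr (X X' : SL(2, ℤ)) (a b : ℤ) (ν : ↥(Gamma M))
    (h : X' * tauZ b = tauZ a * X * (ν : SL(2, ℤ))) (k : ℤ) :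
    cuspVal φ X' k = cuspVal φ X k := by
  rw [← cuspVal_mul_tauZ φ X' b k, h]
  unfold cuspVal
  rw [cuspHom_mul_right, cuspHom_mul_left φ ⟨tauZ a, tauZ_mem_Gamma0 M a⟩ X]

end Cusp

/-! ### The congruence for the level one cocycle -/

section Congr

variable {ℓ : ℕ} [Fact ℓ.Prime]

/-- from `GL₂(ℝ)` to integer matrices -/
theorem int_eq_of_heckeRep_mul_mapGL {G G' : SL(2, ℤ)} {y z : OnePoint (ZMod ℓ)}
    (h : heckeRep ℓ y * (mapGL ℝ G : GL (Fin 2) ℝ) = (mapGL ℝ G' : GL (Fin 2) ℝ) * heckeRep ℓ z) :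
    repInt ℓ y * (G : Matrix (Fin 2) (Fin 2) ℤ) = (G' : Matrix (Fin 2) (Fin 2) ℤ) * repInt ℓ z := by
  have h1 := congrArg (fun g : GL (Fin 2) ℝ => (g : Matrix (Fin 2) (Fin 2) ℝ)) h
  simp only [Units.val_mul] at h1
  rw [coe_mapGL_int, coe_mapGL_int, coe_heckeRep, coe_heckeRep, ← Matrix.map_mul,
    ← Matrix.map_mul] at h1
  exact Matrix.map_injective (Int.cast_injective (α := ℝ)) h1

/-- the translation part of the representative -/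
def repA (ℓ : ℕ) (y : OnePoint (ZMod ℓ)) : ℤ := y.elim 0 (fun j => (j.val : ℤ))

theorem repInt_map {M : ℕ} (h1 : (M : ℤ) ∣ (ℓ : ℤ) - 1) (y : OnePoint (ZMod ℓ)) :
    (repInt ℓ y).map (Int.castRingHom (ZMod M)) =
      ((tauZ (repA ℓ y) : SL(2, ℤ)) : Matrix (Fin 2) (Fin 2) ℤ).map (Int.castRingHom (ZMod M)) := by
  have hℓ : ((ℓ : ℕ) : ZMod M) = 1 := by
    have := (ZMod.intCast_zmod_eq_zero_iff_dvd _ _).mpr h1
    push_cast at this
    exact sub_eq_zero.mp this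
  induction y using OnePoint.rec with
  | infty =>
    ext i j
    fin_cases i <;> fin_cases j <;> simp [repA, tauZ, hℓ]
  | coe j =>
    ext i k
    fin_cases i <;> fin_cases k <;> simp [repA, tauZ, hℓ]

/-- **`h_y G = G' h_z` implies `G' τ^{a_z} = τ^{a_y} G ν` with `ν ∈ Γ(M)`** -/
theorem exists_gamma_of_rel {M : ℕ} (h1 : (M : ℤ) ∣ (ℓ : ℤ) - 1) {G G' : SL(2, ℤ)}
    {y z : OnePoint (ZMod ℓ)}
    (h : heckeRep ℓ y * (mapGL ℝ G : GL (Fin 2) ℝ) = (mapGL ℝ G' : GL (Fin 2) ℝ) * heckeRep ℓ z) :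
    ∃ ν : ↥(Gamma M), G' * tauZ (repA ℓ z) = tauZ (repA ℓ y) * G * (ν : SL(2, ℤ)) := by
  have h2 := int_eq_of_heckeRep_mul_mapGL h
  have h3 := congrArg (fun m : Matrix (Fin 2) (Fin 2) ℤ => m.map (Int.castRingHom (ZMod M))) h2
  simp only [Matrix.map_mul] at h3
  rw [repInt_map h1, repInt_map h1, ← Matrix.map_mul, ← Matrix.map_mul] at h3
  have h4 : Matrix.SpecialLinearGroup.map (Int.castRingHom (ZMod M)) (tauZ (repA ℓ y) * G) =
      Matrix.SpecialLinearGroup.map (Int.castRingHom (ZMod M)) (G' * tauZ (repA ℓ z)) := by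
    apply Subtype.ext
    exact h3
  refine ⟨⟨(tauZ (repA ℓ y) * G)⁻¹ * (G' * tauZ (repA ℓ z)), ?_⟩, ?_⟩
  · rw [Gamma_mem', map_mul, map_inv, ← h4, inv_mul_cancel]
  · show G' * tauZ (repA ℓ z) = tauZ (repA ℓ y) * G * ((tauZ (repA ℓ y) * G)⁻¹ *
      (G' * tauZ (repA ℓ z)))
    group

/-- `h_z τ^{ℓ k} = τ^{k_z} h_z` with `k_z = k` (`z` finite), `ℓ² k` (`z = ∞`) -/
def repK (ℓ : ℕ) (k : ℤ) (z : OnePoint (ZMod ℓ)) : ℤ := z.elim (ℓ * ℓ * k) (fun _ => k)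

theorem heckeRep_mul_tauZ (k : ℤ) (z : OnePoint (ZMod ℓ)) :
    heckeRep ℓ z * (mapGL ℝ (tauZ (ℓ * k)) : GL (Fin 2) ℝ) =
      (mapGL ℝ (tauZ (repK ℓ k z)) : GL (Fin 2) ℝ) * heckeRep ℓ z := by
  have hℓ0 : ℓ ≠ 0 := (Fact.out : ℓ.Prime).ne_zero
  rw [mapGL_tauZ, mapGL_tauZ]
  induction z using OnePoint.rec with
  | infty =>
    rw [heckeRep_infty]
    exact (alpha_mul_heckeDiag 1 ℓ hℓ0 k).symm
  | coe j =>
    rw [heckeRep_coe]
    exact (alpha_mul_heckeMatrix 1 ℓ hℓ0 k j.val).symm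

end Congr

/-! ### The Eisenstein lemma -/

section Main

variable {M ℓ : ℕ} [Fact ℓ.Prime] (hℓM : ¬ ℓ ∣ M) (h1 : (M : ℤ) ∣ (ℓ : ℤ) - 1)
variable {A : Type*} [AddCommGroup A]

/-- the exponents `k_z = k` (`z` finite), `ℓ² k` (`z = ∞`) -/
def cuspK (ℓ : ℕ) (k : ℤ) (z : OnePoint (ZMod ℓ)) : ℤ := z.elim (((ℓ * ℓ : ℕ) : ℤ) * k) (fun _ => k)

theorem repK_mul (M : ℕ) (k : ℤ) (z : OnePoint (ZMod ℓ)) :
    repK ℓ (M * k) z = M * cuspK ℓ k z := by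
  induction z using OnePoint.rec with
  | infty =>
    show (ℓ : ℤ) * ℓ * (M * k) = M * (((ℓ * ℓ : ℕ) : ℤ) * k)
    push_cast
    ring
  | coe j => rfl

include h1 in
/-- **`T_ℓ` at `n = G τ^{ℓ M k} G⁻¹`** -/
theorem heckeT_apply_conj_tauZ (φ : H (Gamma0 M) A) (G : SL(2, ℤ)) (k : ℤ) (n : ↥(Gamma0 M))
    (hn : (n : SL(2, ℤ)) = G * tauZ (ℓ * (M * k)) * G⁻¹) :
    heckeT hℓM A φ (Additive.ofMul n) = (ℓ * ℓ + ℓ) • cuspVal φ G k := by
  rw [Fermat.Agent.S41lib.HC.heckeT_apply]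
  have key : ∀ y : OnePoint (ZMod ℓ), φ (Additive.ofMul (tCoc hℓM n y)) =
      cuspVal φ G (cuspK ℓ k (redMatrix ℓ G • y)) := by
    intro y
    obtain ⟨G', -, hrel⟩ := heckeRep_mul (N := 1) (p := ℓ) (by
      intro h
      exact (Fact.out : ℓ.Prime).one_lt.ne' (Nat.dvd_one.mp h)) G (one_dvd _) y
    set z := redMatrix ℓ G • y with hz
    have hinv : heckeRep ℓ z * (mapGL ℝ G : GL (Fin 2) ℝ)⁻¹ =
        (mapGL ℝ G' : GL (Fin 2) ℝ)⁻¹ * heckeRep ℓ y := by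
      rw [eq_inv_mul_iff_mul_eq, ← mul_assoc, ← hrel, mul_inv_cancel_right]
    have hcomp : heckeRep ℓ y * (mapGL ℝ (n : SL(2, ℤ)) : GL (Fin 2) ℝ) =
        (mapGL ℝ (G' * tauZ (repK ℓ (M * k) z) * G'⁻¹) : GL (Fin 2) ℝ) * heckeRep ℓ y := by
      rw [hn, map_mul, map_mul, map_inv, map_mul, map_mul, map_inv]
      calc heckeRep ℓ y * ((mapGL ℝ G : GL (Fin 2) ℝ) * (mapGL ℝ (tauZ (ℓ * (M * k))) : GL (Fin 2) ℝ) *
            (mapGL ℝ G : GL (Fin 2) ℝ)⁻¹)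
          = (heckeRep ℓ y * (mapGL ℝ G : GL (Fin 2) ℝ)) *
              (mapGL ℝ (tauZ (ℓ * (M * k))) : GL (Fin 2) ℝ) * (mapGL ℝ G : GL (Fin 2) ℝ)⁻¹ := by
            group
        _ = (mapGL ℝ G' : GL (Fin 2) ℝ) *
              (heckeRep ℓ z * (mapGL ℝ (tauZ (ℓ * (M * k))) : GL (Fin 2) ℝ)) *
              (mapGL ℝ G : GL (Fin 2) ℝ)⁻¹ := by
            rw [hrel]
            group
        _ = (mapGL ℝ G' : GL (Fin 2) ℝ) * (mapGL ℝ (tauZ (repK ℓ (M * k) z)) : GL (Fin 2) ℝ) *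
              (heckeRep ℓ z * (mapGL ℝ G : GL (Fin 2) ℝ)⁻¹) := by
            rw [heckeRep_mul_tauZ]
            group
        _ = _ := by
            rw [hinv]
            group
    obtain ⟨-, hc⟩ := tCoc_unique hℓM n y y _ hcomp
    obtain ⟨ν, hν⟩ := exists_gamma_of_rel h1 hrel
    have h2 : φ (Additive.ofMul (tCoc hℓM n y)) = cuspVal φ G' (cuspK ℓ k z) := by
      refine cuspHom_eq_of_coe φ G' (tauG M (cuspK ℓ k z)) (tCoc hℓM n y) ?_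
      rw [← hc, repK_mul]
      rfl
    rw [h2]
    exact cuspVal_congr φ G G' _ _ ν hν _
  rw [Finset.sum_congr rfl fun y _ => key y]
  have hperm : ∑ y : OnePoint (ZMod ℓ), cuspVal φ G (cuspK ℓ k (redMatrix ℓ G • y)) =
      ∑ z : OnePoint (ZMod ℓ), cuspVal φ G (cuspK ℓ k z) :=
    Equiv.sum_comp (MulAction.toPerm (redMatrix ℓ G))
      (fun z : OnePoint (ZMod ℓ) => cuspVal φ G (cuspK ℓ k z))
  rw [hperm]
  refine (Fintype.sum_option (fun z : OnePoint (ZMod ℓ) => cuspVal φ G (cuspK ℓ k z))).trans ?_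
  have h3 : cuspVal φ G (cuspK ℓ k (none : OnePoint (ZMod ℓ))) = (ℓ * ℓ) • cuspVal φ G k :=
    cuspVal_nat_mul φ G (ℓ * ℓ) k
  have h4 : ∀ j : ZMod ℓ, cuspVal φ G (cuspK ℓ k (some j : OnePoint (ZMod ℓ))) =
      cuspVal φ G k := fun j => rfl
  rw [h3, Finset.sum_congr rfl fun j _ => h4 j, Finset.sum_const, Finset.card_univ, ZMod.card,
    add_smul]

include h1 in
/-- **The Eisenstein lemma.** -/
theorem heckeT_sub_isParabolicHom [IsAddTorsionFree A] (φ : H (Gamma0 M) A) :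
    IsParabolicHom (Gamma0 M) (heckeT hℓM A φ - (1 + ℓ) • φ) := by
  intro γ hγ
  have hℓ2 : 2 ≤ ℓ := (Fact.out : ℓ.Prime).two_le
  have hM0 : M ≠ 0 := by
    rintro rfl
    rw [Nat.cast_zero, zero_dvd_iff] at h1
    have : (ℓ : ℤ) = 1 := by linarith
    have : ℓ = 1 := by exact_mod_cast this
    omega
  obtain ⟨g, s, h | h⟩ :=
    Fermat.Agent.S29lib.K3.exists_eq_conj_T_zpow_of_isPar (γ : SL(2, ℤ)) hγ
  all_goals
    have hsq : ((γ : SL(2, ℤ))) ^ 2 = g⁻¹ * tauZ (2 * s) * (g⁻¹)⁻¹ := by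
      rw [h, ← tauZ_eq_T_zpow, pow_two, two_mul, tauZ_add]
      try rw [neg_mul_neg]
      group
    have hpow : ∀ j : ℕ, ((γ : SL(2, ℤ))) ^ (2 * j) = g⁻¹ * tauZ (j * (2 * s)) * (g⁻¹)⁻¹ := by
      intro j
      rw [pow_mul, hsq, conj_pow, tauZ_pow]
    -- `n = γ^{2 M ℓ}`, `u = γ^{2 M}`
    have hn : ((γ ^ (2 * (M * ℓ)) : ↥(Gamma0 M)) : SL(2, ℤ)) =
        g⁻¹ * tauZ (ℓ * (M * (2 * s))) * (g⁻¹)⁻¹ := by
      rw [Subgroup.coe_pow, hpow]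
      congr 3
      push_cast
      ring
    have hu : ((γ ^ (2 * M) : ↥(Gamma0 M)) : SL(2, ℤ)) =
        g⁻¹ * ((tauG M (2 * s) : ↥(Gamma M)) : SL(2, ℤ)) * (g⁻¹)⁻¹ := by
      rw [Subgroup.coe_pow, hpow]
      rfl
    have hE := heckeT_apply_conj_tauZ hℓM h1 φ g⁻¹ (2 * s) (γ ^ (2 * (M * ℓ))) hn
    rw [ofMul_pow, map_nsmul] at hE
    have hφ : (2 * M) • φ (Additive.ofMul γ) = cuspVal φ g⁻¹ (2 * s) := by
      rw [← map_nsmul, ← ofMul_pow]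
      exact cuspHom_eq_of_coe φ g⁻¹ (tauG M (2 * s)) (γ ^ (2 * M)) hu
    have hfin : (2 * (M * ℓ)) • ((heckeT hℓM A φ - (1 + ℓ) • φ) (Additive.ofMul γ)) = 0 := by
      rw [AddMonoidHom.sub_apply, AddMonoidHom.nsmul_apply, smul_sub, hE, ← hφ, smul_smul,
        smul_smul]
      have : (ℓ * ℓ + ℓ) * (2 * M) = 2 * (M * ℓ) * (1 + ℓ) := by ring
      rw [this, sub_self]
    have hne : 2 * (M * ℓ) ≠ 0 := by
      have : 0 < M * ℓ := Nat.mul_pos (Nat.pos_of_ne_zero hM0) (by omega)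
      omega
    exact (nsmul_eq_zero_iff_right hne).mp hfin

end Main

end Fermat.Agent.S43lib.B2.Bridge
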