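/-
S43lib / B2 / Bridge / Conj (helper5).

Conjugation by an element `g ∈ GL₂(ℝ)` as a homomorphism between subgroups of `SL₂(ℤ)`
(`g Γ g⁻¹ ⊆ Γ'`), the induced operator `Hom(Γ', A) → Hom(Γ, A)`, its composition with coset data
having representatives, and a criterion for the equality of the operators of two coset data with
representatives.
-/
import Mathlib
import Fermat.Agent.S43lib.B2.Bridge.HeckeN

set_option autoImplicit false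
set_option linter.unusedSectionVars false

noncomputable section

namespace Fermat.Agent.S43lib.B2.Bridge

open CongruenceSubgroup Matrix.SpecialLinearGroup ModularCurve.Period
open Fermat.Agent.S41lib.HC
open scoped MatrixGroups

/-! ### Equality of operators from representatives -/

section Reps

variable {Γ Γ' : Subgroup SL(2, ℤ)} {ι κ : Type*} [Fintype ι] [Fintype κ]

/-- two coset data whose representatives differ by left multiplication with elements of the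
target group (and a bijection of the index sets compatible with the permutations) induce the same
operator -/
theorem op_eq_of_reps (D₁ : CosetData ↥Γ ↥Γ' ι) (D₂ : CosetData ↥Γ ↥Γ' κ)
    (r₁ : ι → GL (Fin 2) ℝ) (r₂ : κ → GL (Fin 2) ℝ) (hr₁ : HasReps D₁ r₁) (hr₂ : HasReps D₂ r₂)
    (e : ι ≃ κ) (hσ : ∀ (γ : ↥Γ) (x : ι), D₂.σ γ (e x) = e (D₁.σ γ x))
    (d : ι → ↥Γ')
    (hd : ∀ x, r₂ (e x) = (mapGL ℝ ((d x : ↥Γ') : SL(2, ℤ)) : GL (Fin 2) ℝ) * r₁ x)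
    (A : Type*) [AddCommGroup A] : D₂.op A = D₁.op A := by
  refine CosetData.op_eq_of_conj D₁ D₂ e d ?_ A
  intro γ x
  apply Subtype.ext
  apply mapGL_injective (S := ℝ)
  have h1 := hr₂ γ (e x)
  have h2 := hr₁ γ x
  rw [hσ, hd, hd, mul_assoc, h2, ← mul_assoc, ← mul_assoc] at h1
  have h4 := mul_right_cancel h1
  rw [Subgroup.coe_mul, Subgroup.coe_mul, Subgroup.coe_inv, map_mul, map_mul, map_inv,
    eq_mul_inv_iff_mul_eq]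
  exact h4.symm

end Reps

/-! ### Conjugation homomorphisms -/

section ConjHom

variable {Γ Γ' : Subgroup SL(2, ℤ)} (g : GL (Fin 2) ℝ)
  (h : ∀ γ : ↥Γ, ∃ κ : ↥Γ', g * (mapGL ℝ (γ : SL(2, ℤ)) : GL (Fin 2) ℝ) =
    (mapGL ℝ ((κ : ↥Γ') : SL(2, ℤ)) : GL (Fin 2) ℝ) * g)

/-- `γ ↦ g γ g⁻¹`, as a function -/
def conjFun (γ : ↥Γ) : ↥Γ' := (h γ).choose

theorem conjFun_rel (γ : ↥Γ) :
    g * (mapGL ℝ (γ : SL(2, ℤ)) : GL (Fin 2) ℝ) =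
      (mapGL ℝ ((conjFun g h γ : ↥Γ') : SL(2, ℤ)) : GL (Fin 2) ℝ) * g :=
  (h γ).choose_spec

/-- `γ ↦ g γ g⁻¹` -/
def conjHom : ↥Γ →* ↥Γ' :=
  MonoidHom.mk' (conjFun g h) (by
    intro a b
    apply Subtype.ext
    apply mapGL_injective (S := ℝ)
    have h1 : (mapGL ℝ ((conjFun g h (a * b) : ↥Γ') : SL(2, ℤ)) : GL (Fin 2) ℝ) * g =
        (mapGL ℝ ((conjFun g h a : ↥Γ') : SL(2, ℤ)) : GL (Fin 2) ℝ) *
          (mapGL ℝ ((conjFun g h b : ↥Γ') : SL(2, ℤ)) : GL (Fin 2) ℝ) * g := by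
      calc (mapGL ℝ ((conjFun g h (a * b) : ↥Γ') : SL(2, ℤ)) : GL (Fin 2) ℝ) * g
          = g * (mapGL ℝ ((a * b : ↥Γ) : SL(2, ℤ)) : GL (Fin 2) ℝ) := (conjFun_rel g h (a * b)).symm
        _ = (g * (mapGL ℝ (a : SL(2, ℤ)) : GL (Fin 2) ℝ)) * (mapGL ℝ (b : SL(2, ℤ)) : GL (Fin 2) ℝ) := by
            rw [Subgroup.coe_mul, map_mul, mul_assoc]
        _ = (mapGL ℝ ((conjFun g h a : ↥Γ') : SL(2, ℤ)) : GL (Fin 2) ℝ) *
              (g * (mapGL ℝ (b : SL(2, ℤ)) : GL (Fin 2) ℝ)) := by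
            rw [conjFun_rel g h a, mul_assoc]
        _ = _ := by rw [conjFun_rel g h b, mul_assoc]
    rw [Subgroup.coe_mul, map_mul]
    exact mul_right_cancel h1)

theorem conjHom_rel (γ : ↥Γ) :
    g * (mapGL ℝ (γ : SL(2, ℤ)) : GL (Fin 2) ℝ) =
      (mapGL ℝ ((conjHom g h γ : ↥Γ') : SL(2, ℤ)) : GL (Fin 2) ℝ) * g :=
  conjFun_rel g h γ

theorem conjHom_unique (γ : ↥Γ) (κ : SL(2, ℤ))
    (hκ : g * (mapGL ℝ (γ : SL(2, ℤ)) : GL (Fin 2) ℝ) = (mapGL ℝ κ : GL (Fin 2) ℝ) * g) :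
    ((conjHom g h γ : ↥Γ') : SL(2, ℤ)) = κ := by
  apply mapGL_injective (S := ℝ)
  have h1 := conjHom_rel g h γ
  rw [hκ] at h1
  exact (mul_right_cancel h1).symm

/-- the operator `φ ↦ φ ∘ (g · g⁻¹)` -/
def conjOp (A : Type*) [AddCommGroup A] : H Γ' A →+ H Γ A :=
  (CosetData.ofHom (conjHom g h)).op A

@[simp] theorem conjOp_apply {A : Type*} [AddCommGroup A] (φ : H Γ' A) (γ : ↥Γ) :
    conjOp g h A φ (Additive.ofMul γ) = φ (Additive.ofMul (conjHom g h γ)) :=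
  CosetData.ofHom_op_apply _ φ γ

theorem trace_conjHom (γ : ↥Γ) :
    (((conjHom g h γ : ↥Γ') : SL(2, ℤ)) : Matrix (Fin 2) (Fin 2) ℤ).trace =
      ((γ : SL(2, ℤ)) : Matrix (Fin 2) (Fin 2) ℤ).trace := by
  have h1 := conjHom_rel g h γ
  have h2 : (mapGL ℝ ((conjHom g h γ : ↥Γ') : SL(2, ℤ)) : GL (Fin 2) ℝ) =
      g * (mapGL ℝ (γ : SL(2, ℤ)) : GL (Fin 2) ℝ) * g⁻¹ := by
    rw [h1, mul_inv_cancel_right]
  have h3 := congrArg (fun M : GL (Fin 2) ℝ => (M : Matrix (Fin 2) (Fin 2) ℝ).trace) h2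
  simp only [Matrix.GeneralLinearGroup.coe_mul] at h3
  rw [Matrix.trace_mul_comm, ← mul_assoc, ← Matrix.GeneralLinearGroup.coe_mul, inv_mul_cancel,
    Matrix.GeneralLinearGroup.coe_one, one_mul] at h3
  rw [trace_mapGL, trace_mapGL] at h3
  exact_mod_cast h3

theorem conjOp_isParabolicHom {A : Type*} [AddCommGroup A] {φ : H Γ' A}
    (hφ : IsParabolicHom Γ' φ) : IsParabolicHom Γ (conjOp g h A φ) := by
  intro γ hγ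
  rw [conjOp_apply]
  apply hφ
  rw [trace_conjHom]
  exact hγ

end ConjHom


/-! ### Composites with coset data -/

section Comp

variable {Γ Γ' Γ'' : Subgroup SL(2, ℤ)} {ι : Type*} [Fintype ι]

/-- representatives of `φ ↦ (D φ) ∘ (g · g⁻¹)` -/
theorem hasReps_conj_comp (g : GL (Fin 2) ℝ)
    (h : ∀ γ : ↥Γ, ∃ κ : ↥Γ', g * (mapGL ℝ (γ : SL(2, ℤ)) : GL (Fin 2) ℝ) =
      (mapGL ℝ ((κ : ↥Γ') : SL(2, ℤ)) : GL (Fin 2) ℝ) * g)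
    (D : CosetData ↥Γ' ↥Γ'' ι) (r : ι → GL (Fin 2) ℝ) (hr : HasReps D r) :
    HasReps ((CosetData.ofHom (conjHom g h)).comp D) (fun p : Unit × ι => r p.2 * g) := by
  rintro γ ⟨u, x⟩
  show r x * g * (mapGL ℝ (γ : SL(2, ℤ)) : GL (Fin 2) ℝ) =
    (mapGL ℝ ((D.c (conjHom g h γ) x : ↥Γ'') : SL(2, ℤ)) : GL (Fin 2) ℝ) *
      (r (D.σ (conjHom g h γ) x) * g)
  rw [mul_assoc, conjHom_rel g h γ, ← mul_assoc, hr (conjHom g h γ) x, mul_assoc]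

/-- representatives of `φ ↦ D (φ ∘ (g · g⁻¹))` -/
theorem hasReps_comp_conj (g : GL (Fin 2) ℝ)
    (h : ∀ γ : ↥Γ', ∃ κ : ↥Γ'', g * (mapGL ℝ (γ : SL(2, ℤ)) : GL (Fin 2) ℝ) =
      (mapGL ℝ ((κ : ↥Γ'') : SL(2, ℤ)) : GL (Fin 2) ℝ) * g)
    (D : CosetData ↥Γ ↥Γ' ι) (r : ι → GL (Fin 2) ℝ) (hr : HasReps D r) :
    HasReps (D.comp (CosetData.ofHom (conjHom g h))) (fun p : ι × Unit => g * r p.1) := by
  rintro γ ⟨x, u⟩
  show g * r x * (mapGL ℝ (γ : SL(2, ℤ)) : GL (Fin 2) ℝ) =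
    (mapGL ℝ ((conjHom g h (D.c γ x) : ↥Γ'') : SL(2, ℤ)) : GL (Fin 2) ℝ) * (g * r (D.σ γ x))
  rw [mul_assoc, hr γ x, ← mul_assoc, conjHom_rel g h (D.c γ x), mul_assoc]

theorem conjOp_comp_op (g : GL (Fin 2) ℝ)
    (h : ∀ γ : ↥Γ, ∃ κ : ↥Γ', g * (mapGL ℝ (γ : SL(2, ℤ)) : GL (Fin 2) ℝ) =
      (mapGL ℝ ((κ : ↥Γ') : SL(2, ℤ)) : GL (Fin 2) ℝ) * g)
    (D : CosetData ↥Γ' ↥Γ'' ι) (A : Type*) [AddCommGroup A] :
    ((CosetData.ofHom (conjHom g h)).comp D).op A = (conjOp g h A).comp (D.op A) :=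
  CosetData.comp_op _ _ A

theorem op_comp_conjOp (g : GL (Fin 2) ℝ)
    (h : ∀ γ : ↥Γ', ∃ κ : ↥Γ'', g * (mapGL ℝ (γ : SL(2, ℤ)) : GL (Fin 2) ℝ) =
      (mapGL ℝ ((κ : ↥Γ'') : SL(2, ℤ)) : GL (Fin 2) ℝ) * g)
    (D : CosetData ↥Γ ↥Γ' ι) (A : Type*) [AddCommGroup A] :
    (D.comp (CosetData.ofHom (conjHom g h))).op A = (D.op A).comp (conjOp g h A) :=
  CosetData.comp_op _ _ A

end Comp

/-! ### Inner conjugations and composition -/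

section Inner

variable {Γ Γ' Γ'' : Subgroup SL(2, ℤ)}

/-- conjugation by an element of `Γ` acts trivially on `Hom(Γ, A)` -/
theorem conjOp_inner (b : ↥Γ)
    (h : ∀ γ : ↥Γ, ∃ κ : ↥Γ, (mapGL ℝ (b : SL(2, ℤ)) : GL (Fin 2) ℝ) *
      (mapGL ℝ (γ : SL(2, ℤ)) : GL (Fin 2) ℝ) =
      (mapGL ℝ ((κ : ↥Γ) : SL(2, ℤ)) : GL (Fin 2) ℝ) * (mapGL ℝ (b : SL(2, ℤ)) : GL (Fin 2) ℝ))
    {A : Type*} [AddCommGroup A] (φ : H Γ A) :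
    conjOp (mapGL ℝ (b : SL(2, ℤ)) : GL (Fin 2) ℝ) h A φ = φ := by
  refine AddMonoidHom.ext fun a => ?_
  obtain ⟨γ, rfl⟩ : ∃ γ : ↥Γ, Additive.ofMul γ = a := ⟨Additive.toMul a, rfl⟩
  rw [conjOp_apply]
  have h1 : conjHom (mapGL ℝ (b : SL(2, ℤ)) : GL (Fin 2) ℝ) h γ = b * γ * b⁻¹ := by
    apply Subtype.ext
    apply conjHom_unique
    rw [Subgroup.coe_mul, Subgroup.coe_mul, Subgroup.coe_inv, map_mul, map_mul, map_inv,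
      inv_mul_cancel_right]
  rw [h1]
  exact hom_conj φ b γ

/-- the conjugation operators compose contravariantly -/
theorem conjOp_mul (g₁ g₂ : GL (Fin 2) ℝ)
    (h₁ : ∀ γ : ↥Γ, ∃ κ : ↥Γ', g₁ * (mapGL ℝ (γ : SL(2, ℤ)) : GL (Fin 2) ℝ) =
      (mapGL ℝ ((κ : ↥Γ') : SL(2, ℤ)) : GL (Fin 2) ℝ) * g₁)
    (h₂ : ∀ γ : ↥Γ', ∃ κ : ↥Γ'', g₂ * (mapGL ℝ (γ : SL(2, ℤ)) : GL (Fin 2) ℝ) =
      (mapGL ℝ ((κ : ↥Γ'') : SL(2, ℤ)) : GL (Fin 2) ℝ) * g₂)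
    (h₂₁ : ∀ γ : ↥Γ, ∃ κ : ↥Γ'', g₂ * g₁ * (mapGL ℝ (γ : SL(2, ℤ)) : GL (Fin 2) ℝ) =
      (mapGL ℝ ((κ : ↥Γ'') : SL(2, ℤ)) : GL (Fin 2) ℝ) * (g₂ * g₁))
    {A : Type*} [AddCommGroup A] (φ : H Γ'' A) :
    conjOp (g₂ * g₁) h₂₁ A φ = conjOp g₁ h₁ A (conjOp g₂ h₂ A φ) := by
  refine AddMonoidHom.ext fun a => ?_
  obtain ⟨γ, rfl⟩ : ∃ γ : ↥Γ, Additive.ofMul γ = a := ⟨Additive.toMul a, rfl⟩
  rw [conjOp_apply, conjOp_apply, conjOp_apply]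
  congr 2
  apply Subtype.ext
  apply conjHom_unique
  rw [mul_assoc, conjHom_rel g₁ h₁ γ, ← mul_assoc, conjHom_rel g₂ h₂, mul_assoc]

/-- the conjugation operator only depends on `g` -/
theorem conjOp_congr (g₁ g₂ : GL (Fin 2) ℝ) (hg : g₁ = g₂)
    (h₁ : ∀ γ : ↥Γ, ∃ κ : ↥Γ', g₁ * (mapGL ℝ (γ : SL(2, ℤ)) : GL (Fin 2) ℝ) =
      (mapGL ℝ ((κ : ↥Γ') : SL(2, ℤ)) : GL (Fin 2) ℝ) * g₁)
    (h₂ : ∀ γ : ↥Γ, ∃ κ : ↥Γ', g₂ * (mapGL ℝ (γ : SL(2, ℤ)) : GL (Fin 2) ℝ) =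
      (mapGL ℝ ((κ : ↥Γ') : SL(2, ℤ)) : GL (Fin 2) ℝ) * g₂)
    (A : Type*) [AddCommGroup A] : conjOp g₁ h₁ A = conjOp g₂ h₂ A := by
  subst hg
  rfl

end Inner

end Fermat.Agent.S43lib.B2.Bridge
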