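/-
S43lib / B2 / Bridge / Groups (helper5).

The groups of the twist: for coprime `N₁`, `T`
* `GammaSS N₁ T = Γ₀(N₁ T²) ∩ Γ₁(T)` (lower left entry `≡ 0 (N₁ T²)`, diagonal `≡ 1 (T)`),
  as `GammaD (N₁ T²) (units ≡ 1 mod T)`;
* it is normalised by `α_u = (1 u/T; 0 1)` and by `Γ₀(N₁ T)`;
* for `σ ∈ Γ₀(N₁ T²)` and `T ∣ d u - a v`: `α_u σ = κ α_v` with `κ ∈ Γ₀(N₁ T²)`, `d(κ) ≡ d(σ)`
  modulo `N₁ T`.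
-/
import Mathlib
import Fermat.Agent.S43lib.B2.Bridge.Alpha
import Fermat.Agent.S43lib.B2.Bridge.Conj

set_option autoImplicit false
set_option linter.unusedSectionVars false

noncomputable section

namespace Fermat.Agent.S43lib.B2.Bridge

open CongruenceSubgroup Matrix.SpecialLinearGroup ModularForm
open Fermat.Agent.S41lib.HC
open P2MW.S_ModularForm_heckeT_slash_eq_self_of_mem_Gamma0.ModularForm.HeckeSlashInvariance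
open scoped MatrixGroups

variable (N₁ T : ℕ)

theorem dvd_lvl : T ∣ N₁ * T * T := Dvd.intro_left (N₁ * T) rfl

/-- the units of `ZMod (N₁ T²)` which are `≡ 1` modulo `T` -/
def unitsOne : Subgroup (ZMod (N₁ * T * T))ˣ := (ZMod.unitsMap (dvd_lvl N₁ T)).ker

/-- `Γ₀(N₁ T²) ∩ Γ₁(T)` -/
def GammaSS : Subgroup SL(2, ℤ) := GammaD (N₁ * T * T) (unitsOne N₁ T)

variable {N₁ T}

theorem mem_Gamma0_iff_dvd {M : ℕ} {γ : SL(2, ℤ)} : γ ∈ Gamma0 M ↔ (M : ℤ) ∣ γ 1 0 := by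
  rw [Gamma0_mem, ZMod.intCast_zmod_eq_zero_iff_dvd]

theorem mem_GammaSS {γ : SL(2, ℤ)} :
    γ ∈ GammaSS N₁ T ↔ ((N₁ * T * T : ℕ) : ℤ) ∣ γ 1 0 ∧ (T : ℤ) ∣ γ 1 1 - 1 := by
  unfold GammaSS
  rw [mem_GammaD]
  constructor
  · rintro ⟨h, hX⟩
    refine ⟨mem_Gamma0_iff_dvd.mp h, ?_⟩
    have h1 : ZMod.unitsMap (dvd_lvl N₁ T) (dUnit (N₁ * T * T) ⟨γ, h⟩) = 1 := hX
    have h2 := congrArg Units.val h1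
    rw [ZMod.unitsMap_val, coe_dUnit', Units.val_one, ZMod.cast_intCast (dvd_lvl N₁ T)] at h2
    have h3 : (((γ 1 1 - 1 : ℤ)) : ZMod T) = 0 := by
      push_cast
      rw [h2, sub_self]
    exact (ZMod.intCast_zmod_eq_zero_iff_dvd _ _).mp h3
  · rintro ⟨h1, h2⟩
    refine ⟨mem_Gamma0_iff_dvd.mpr h1, ?_⟩
    show ZMod.unitsMap (dvd_lvl N₁ T) (dUnit (N₁ * T * T) ⟨γ, _⟩) = 1
    apply Units.ext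
    rw [ZMod.unitsMap_val, coe_dUnit', Units.val_one, ZMod.cast_intCast (dvd_lvl N₁ T)]
    have h3 := (ZMod.intCast_zmod_eq_zero_iff_dvd _ _).mpr h2
    push_cast at h3
    exact sub_eq_zero.mp h3

theorem GammaSS_le_Gamma0 : GammaSS N₁ T ≤ Gamma0 (N₁ * T * T) := GammaD_le _ _

/-- the upper left entry is `≡ 1` modulo `T` as well -/
theorem dvd_sub_one_of_mem_GammaSS {γ : SL(2, ℤ)} (h : γ ∈ GammaSS N₁ T) :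
    (T : ℤ) ∣ γ 0 0 - 1 := by
  obtain ⟨h1, h2⟩ := mem_GammaSS.mp h
  have hdet := det_eq γ
  have hT : (T : ℤ) ∣ γ 1 0 := by
    refine Dvd.dvd.trans ?_ h1
    exact ⟨(N₁ : ℤ) * T, by push_cast; ring⟩
  obtain ⟨e, he⟩ := h2
  obtain ⟨f, hf⟩ := hT
  -- `a = a d - a (d - 1) = 1 + b c - a T e`
  refine ⟨γ 0 1 * f - γ 0 0 * e, ?_⟩
  linear_combination hdet + γ 0 1 * hf - γ 0 0 * he


/-! ### `α_u` and `Γ₀(N₁ T²)` -/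

section AlphaNorm

variable (hT : T ≠ 0)

include hT in
/-- `α_u σ = κ α_v` for `σ ∈ Γ₀(N₁ T²)` -/
theorem alpha_mul_gamma0 (σ : ↥(Gamma0 (N₁ * T * T))) (u v : ℤ)
    (huv : (T : ℤ) ∣ (σ : SL(2, ℤ)) 1 1 * u - (σ : SL(2, ℤ)) 0 0 * v) :
    ∃ κ : ↥(Gamma0 (N₁ * T * T)),
      alphaGL T u * (mapGL ℝ (σ : SL(2, ℤ)) : GL (Fin 2) ℝ) =
        (mapGL ℝ ((κ : ↥(Gamma0 (N₁ * T * T))) : SL(2, ℤ)) : GL (Fin 2) ℝ) * alphaGL T v ∧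
      ((N₁ * T : ℕ) : ℤ) ∣ (κ : SL(2, ℤ)) 1 1 - (σ : SL(2, ℤ)) 1 1 ∧
      ((N₁ * T : ℕ) : ℤ) ∣ (κ : SL(2, ℤ)) 0 0 - (σ : SL(2, ℤ)) 0 0 ∧
      (∀ ℓ : ℤ, ℓ ∣ u → ℓ ∣ v → IsCoprime ℓ (T : ℤ) →
        ℓ ∣ (κ : SL(2, ℤ)) 0 0 - (σ : SL(2, ℤ)) 0 0 ∧ ℓ ∣ (κ : SL(2, ℤ)) 0 1 - (σ : SL(2, ℤ)) 0 1 ∧
        (κ : SL(2, ℤ)) 1 0 = (σ : SL(2, ℤ)) 1 0 ∧ ℓ ∣ (κ : SL(2, ℤ)) 1 1 - (σ : SL(2, ℤ)) 1 1) := by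
  have hσ : ((N₁ * T * T : ℕ) : ℤ) ∣ (σ : SL(2, ℤ)) 1 0 := mem_Gamma0_iff_dvd.mp σ.2
  obtain ⟨k, hk⟩ := hσ
  have hc : ((T : ℤ) * T) ∣ (σ : SL(2, ℤ)) 1 0 := ⟨N₁ * k, by rw [hk]; push_cast; ring⟩
  obtain ⟨κ, hrel, h10, c₁, hc₁, -, h00, h11, h01⟩ :=
    alpha_mul_eq T hT (σ : SL(2, ℤ)) u v hc huv
  have hT' : (T : ℤ) ≠ 0 := by exact_mod_cast hT
  have hc₁' : c₁ = (N₁ : ℤ) * T * k := by
    apply mul_left_cancel₀ hT'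
    rw [← hc₁, hk]
    push_cast
    ring
  refine ⟨⟨κ, mem_Gamma0_iff_dvd.mpr ?_⟩, hrel, ?_, ?_, ?_⟩
  · rw [h10, hk]
    exact dvd_mul_right _ _
  · show ((N₁ * T : ℕ) : ℤ) ∣ κ 1 1 - (σ : SL(2, ℤ)) 1 1
    rw [h11, hc₁']
    exact ⟨-(k * v), by push_cast; ring⟩
  · show ((N₁ * T : ℕ) : ℤ) ∣ κ 0 0 - (σ : SL(2, ℤ)) 0 0
    rw [h00, hc₁']
    exact ⟨k * u, by push_cast; ring⟩
  · intro ℓ hu hv hcop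
    refine ⟨?_, ?_, h10, ?_⟩
    · show ℓ ∣ κ 0 0 - (σ : SL(2, ℤ)) 0 0
      rw [h00]
      have : (σ : SL(2, ℤ)) 0 0 + c₁ * u - (σ : SL(2, ℤ)) 0 0 = c₁ * u := by ring
      rw [this]
      exact Dvd.dvd.mul_left hu _
    · show ℓ ∣ κ 0 1 - (σ : SL(2, ℤ)) 0 1
      have h2 : ℓ ∣ (T : ℤ) * (κ 0 1 - (σ : SL(2, ℤ)) 0 1) := by
        have : (T : ℤ) * (κ 0 1 - (σ : SL(2, ℤ)) 0 1) =
            (σ : SL(2, ℤ)) 1 1 * u - (σ : SL(2, ℤ)) 0 0 * v - c₁ * u * v := by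
          linear_combination h01
        rw [this]
        exact dvd_sub (dvd_sub (Dvd.dvd.mul_left hu _) (Dvd.dvd.mul_left hv _))
          (Dvd.dvd.mul_left hv _)
      exact hcop.dvd_of_dvd_mul_left h2
    · show ℓ ∣ κ 1 1 - (σ : SL(2, ℤ)) 1 1
      rw [h11]
      have : (σ : SL(2, ℤ)) 1 1 - c₁ * v - (σ : SL(2, ℤ)) 1 1 = -(c₁ * v) := by ring
      rw [this]
      exact (Dvd.dvd.mul_left hv _).neg_right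

include hT in
/-- `α_u` normalises `GammaSS` -/
theorem alpha_isNorm (u : ℤ) (γ : ↥(GammaSS N₁ T)) :
    ∃ κ : ↥(GammaSS N₁ T), alphaGL T u * (mapGL ℝ (γ : SL(2, ℤ)) : GL (Fin 2) ℝ) =
      (mapGL ℝ ((κ : ↥(GammaSS N₁ T)) : SL(2, ℤ)) : GL (Fin 2) ℝ) * alphaGL T u := by
  obtain ⟨h1, h2⟩ := mem_GammaSS.mp γ.2
  have h0 := dvd_sub_one_of_mem_GammaSS γ.2
  have huv : (T : ℤ) ∣ (γ : SL(2, ℤ)) 1 1 * u - (γ : SL(2, ℤ)) 0 0 * u := by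
    have : (γ : SL(2, ℤ)) 1 1 * u - (γ : SL(2, ℤ)) 0 0 * u =
        ((γ : SL(2, ℤ)) 1 1 - 1) * u - ((γ : SL(2, ℤ)) 0 0 - 1) * u := by ring
    rw [this]
    exact dvd_sub (Dvd.dvd.mul_right h2 u) (Dvd.dvd.mul_right h0 u)
  obtain ⟨κ, hrel, h11, -, -⟩ :=
    alpha_mul_gamma0 hT ⟨(γ : SL(2, ℤ)), GammaSS_le_Gamma0 γ.2⟩ u u huv
  refine ⟨⟨(κ : SL(2, ℤ)), mem_GammaSS.mpr ⟨mem_Gamma0_iff_dvd.mp κ.2, ?_⟩⟩, hrel⟩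
  have hT1 : (T : ℤ) ∣ (κ : SL(2, ℤ)) 1 1 - (γ : SL(2, ℤ)) 1 1 := by
    refine Dvd.dvd.trans ?_ h11
    exact ⟨(N₁ : ℤ), by push_cast; ring⟩
  have : (κ : SL(2, ℤ)) 1 1 - 1 = ((κ : SL(2, ℤ)) 1 1 - (γ : SL(2, ℤ)) 1 1) +
      ((γ : SL(2, ℤ)) 1 1 - 1) := by ring
  rw [this]
  exact dvd_add hT1 h2

end AlphaNorm

/-! ### `Γ₀(N₁ T)` normalises `GammaSS` -/

section BNorm

/-- `Γ₀(N₁ T)` normalises `GammaSS` -/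
theorem gamma0_isNorm (b : ↥(Gamma0 (N₁ * T))) (γ : ↥(GammaSS N₁ T)) :
    ∃ κ : ↥(GammaSS N₁ T), (mapGL ℝ (b : SL(2, ℤ)) : GL (Fin 2) ℝ) *
      (mapGL ℝ (γ : SL(2, ℤ)) : GL (Fin 2) ℝ) =
      (mapGL ℝ ((κ : ↥(GammaSS N₁ T)) : SL(2, ℤ)) : GL (Fin 2) ℝ) *
        (mapGL ℝ (b : SL(2, ℤ)) : GL (Fin 2) ℝ) := by
  obtain ⟨h1, h2⟩ := mem_GammaSS.mp γ.2
  have h0 := dvd_sub_one_of_mem_GammaSS γ.2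
  have hb : ((N₁ * T : ℕ) : ℤ) ∣ (b : SL(2, ℤ)) 1 0 := mem_Gamma0_iff_dvd.mp b.2
  obtain ⟨k, hk⟩ := h1
  obtain ⟨e₂, he₂⟩ := h2
  obtain ⟨e₁, he₁⟩ := h0
  obtain ⟨k', hk'⟩ := hb
  have hdetb := det_eq (b : SL(2, ℤ))
  have hdetγ := det_eq (γ : SL(2, ℤ))
  refine ⟨⟨(b : SL(2, ℤ)) * (γ : SL(2, ℤ)) * (b : SL(2, ℤ))⁻¹, mem_GammaSS.mpr ⟨?_, ?_⟩⟩, ?_⟩
  · -- lower left entry
    refine ⟨k' * (b : SL(2, ℤ)) 1 1 * (e₁ - e₂) + (b : SL(2, ℤ)) 1 1 ^ 2 * k -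
      (N₁ : ℤ) * k' ^ 2 * (γ : SL(2, ℤ)) 0 1, ?_⟩
    simp only [Matrix.SpecialLinearGroup.coe_mul, Matrix.SpecialLinearGroup.coe_inv,
      Matrix.adjugate_fin_two, Matrix.mul_apply, Fin.sum_univ_two, Matrix.of_apply,
      Matrix.cons_val', Matrix.cons_val_zero, Matrix.cons_val_one, Matrix.cons_val_fin_one]
    push_cast at hk hk' ⊢
    linear_combination (↑b : SL(2, ℤ)) 1 1 ^ 2 * hk +
      ((↑b : SL(2, ℤ)) 1 1 * ((↑γ : SL(2, ℤ)) 0 0 - (↑γ : SL(2, ℤ)) 1 1) -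
        (↑γ : SL(2, ℤ)) 0 1 * ((↑b : SL(2, ℤ)) 1 0 + (N₁ : ℤ) * T * k')) * hk' +
      (N₁ : ℤ) * T * k' * (↑b : SL(2, ℤ)) 1 1 * he₁ - (N₁ : ℤ) * T * k' * (↑b : SL(2, ℤ)) 1 1 * he₂
  · -- lower right entry
    refine ⟨(b : SL(2, ℤ)) 0 0 * (b : SL(2, ℤ)) 1 1 * e₂ - (b : SL(2, ℤ)) 0 1 * (b : SL(2, ℤ)) 1 0 * e₁ -
      (b : SL(2, ℤ)) 0 1 * (b : SL(2, ℤ)) 1 1 * ((N₁ : ℤ) * T * k) +
        (b : SL(2, ℤ)) 0 0 * ((N₁ : ℤ) * k') * (γ : SL(2, ℤ)) 0 1, ?_⟩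
    simp only [Matrix.SpecialLinearGroup.coe_mul, Matrix.SpecialLinearGroup.coe_inv,
      Matrix.adjugate_fin_two, Matrix.mul_apply, Fin.sum_univ_two, Matrix.of_apply,
      Matrix.cons_val', Matrix.cons_val_zero, Matrix.cons_val_one, Matrix.cons_val_fin_one]
    push_cast at hk hk' ⊢
    linear_combination hdetb + (↑b : SL(2, ℤ)) 0 0 * (↑b : SL(2, ℤ)) 1 1 * he₂ -
      (↑b : SL(2, ℤ)) 0 1 * (↑b : SL(2, ℤ)) 1 0 * he₁ - (↑b : SL(2, ℤ)) 0 1 * (↑b : SL(2, ℤ)) 1 1 * hk +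
      (↑b : SL(2, ℤ)) 0 0 * (↑γ : SL(2, ℤ)) 0 1 * hk'
  · show _ = (mapGL ℝ ((b : SL(2, ℤ)) * (γ : SL(2, ℤ)) * (b : SL(2, ℤ))⁻¹) : GL (Fin 2) ℝ) * _
    rw [← map_mul, ← map_mul, inv_mul_cancel_right]

end BNorm

end Fermat.Agent.S43lib.B2.Bridge
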