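/-
S43lib / B2 / Bridge / TwistOp (helper5).

The operators on `W = Hom(Γ**, A)`, `Γ** = GammaSS N₁ T = Γ₀(N₁ T²) ∩ Γ₁(T)`:
* `twA u` : `φ ↦ φ ∘ (α_u · α_u⁻¹)`, depending only on `u` modulo `T`, additive in `u`;
* `heckeSS ℓ` : the normalised Hecke operator `T_ℓ` (`ℓ ∤ N₁ T`);
* the commutation `twA (ℓ u) ∘ T_ℓ = T_ℓ ∘ twA u`.
-/
import Mathlib
import Fermat.Agent.S43lib.B2.Bridge.Groups

set_option autoImplicit false
set_option linter.unusedSectionVars false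

noncomputable section

namespace Fermat.Agent.S43lib.B2.Bridge

open CongruenceSubgroup Matrix.SpecialLinearGroup ModularForm ModularCurve.Period
open Fermat.Agent.S41lib.HC Fermat.Agent.S16lib.LH Fermat.Agent.S29lib.H
open P2MW.S_ModularForm_heckeT_slash_eq_self_of_mem_Gamma0.ModularForm.HeckeSlashInvariance
open scoped MatrixGroups

variable {N₁ T : ℕ} (hT : T ≠ 0)

/-! ### The operators `A_u` -/

section TwA

/-- `A_u φ = φ ∘ (α_u · α_u⁻¹)` -/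
def twA (u : ℤ) (A : Type*) [AddCommGroup A] :
    H (GammaSS N₁ T) A →+ H (GammaSS N₁ T) A :=
  conjOp (alphaGL T u) (alpha_isNorm (N₁ := N₁) hT u) A

theorem twA_isParabolicHom (u : ℤ) {A : Type*} [AddCommGroup A] {φ : H (GammaSS N₁ T) A}
    (hφ : IsParabolicHom (GammaSS N₁ T) φ) : IsParabolicHom (GammaSS N₁ T) (twA hT u A φ) :=
  conjOp_isParabolicHom _ _ hφ

/-- `τ^m = (1 m; 0 1)` as an element of `GammaSS` -/
def tauPow (N₁ T : ℕ) (m : ℤ) : ↥(GammaSS N₁ T) :=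
  ⟨⟨!![1, m; 0, 1], by simp [Matrix.det_fin_two_of]⟩, mem_GammaSS.mpr ⟨by simp, by simp⟩⟩

theorem twA_add (u v : ℤ) {A : Type*} [AddCommGroup A] (φ : H (GammaSS N₁ T) A) :
    twA hT (u + v) A φ = twA hT v A (twA hT u A φ) := by
  unfold twA
  rw [← conjOp_mul (alphaGL T v) (alphaGL T u) (alpha_isNorm (N₁ := N₁) hT v)
    (alpha_isNorm (N₁ := N₁) hT u)
    (by rw [← alphaGL_add]; exact alpha_isNorm (N₁ := N₁) hT (u + v))]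
  exact congrFun (congrArg DFunLike.coe
    (conjOp_congr _ _ (alphaGL_add T u v) _ _ A)) φ

theorem twA_mul_T (m : ℤ) {A : Type*} [AddCommGroup A] (φ : H (GammaSS N₁ T) A) :
    twA hT (m * T) A φ = φ := by
  unfold twA
  have hg : alphaGL T (m * T) =
      (mapGL ℝ ((tauPow N₁ T m : ↥(GammaSS N₁ T)) : SL(2, ℤ)) : GL (Fin 2) ℝ) :=
    alphaGL_mul_self T hT m
  have h' : ∀ γ : ↥(GammaSS N₁ T), ∃ κ : ↥(GammaSS N₁ T),
      (mapGL ℝ ((tauPow N₁ T m : ↥(GammaSS N₁ T)) : SL(2, ℤ)) : GL (Fin 2) ℝ) *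
        (mapGL ℝ (γ : SL(2, ℤ)) : GL (Fin 2) ℝ) =
      (mapGL ℝ ((κ : ↥(GammaSS N₁ T)) : SL(2, ℤ)) : GL (Fin 2) ℝ) *
        (mapGL ℝ ((tauPow N₁ T m : ↥(GammaSS N₁ T)) : SL(2, ℤ)) : GL (Fin 2) ℝ) := by
    rw [← hg]
    exact alpha_isNorm (N₁ := N₁) hT (m * T)
  rw [congrFun (congrArg DFunLike.coe (conjOp_congr _ _ hg _ h' A)) φ]
  exact conjOp_inner (tauPow N₁ T m) h' φ

theorem twA_zero {A : Type*} [AddCommGroup A] (φ : H (GammaSS N₁ T) A) :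
    twA hT 0 A φ = φ := by
  have := twA_mul_T (N₁ := N₁) hT 0 φ
  rwa [zero_mul] at this

/-- `A_u` only depends on `u` modulo `T` -/
theorem twA_congr {u v : ℤ} (huv : (T : ℤ) ∣ v - u) {A : Type*} [AddCommGroup A]
    (φ : H (GammaSS N₁ T) A) : twA hT u A φ = twA hT v A φ := by
  obtain ⟨m, hm⟩ := huv
  have hv : v = m * T + u := by linear_combination hm
  rw [hv, twA_add, twA_mul_T]

end TwA


/-! ### The Hecke operators on `W` and their commutation with `A_u` -/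

section Hecke

variable {ℓ : ℕ} [Fact ℓ.Prime] (hℓ : ¬ ℓ ∣ N₁ * T * T)

/-- the normalised `T_ℓ` on `Hom(Γ**, A)` -/
def heckeSS (A : Type*) [AddCommGroup A] : H (GammaSS N₁ T) A →+ H (GammaSS N₁ T) A :=
  heckeD hℓ (unitsOne N₁ T) A

theorem heckeSS_isParabolicHom {A : Type*} [AddCommGroup A] {φ : H (GammaSS N₁ T) A}
    (hφ : IsParabolicHom (GammaSS N₁ T) φ) : IsParabolicHom (GammaSS N₁ T) (heckeSS hℓ A φ) :=
  heckeD_isParabolicHom hℓ _ hφ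

omit [Fact ℓ.Prime] in
theorem redMatrix_eq_of_dvd [Fact ℓ.Prime] (g g' : SL(2, ℤ))
    (h : (ℓ : ℤ) ∣ g' 0 0 - g 0 0 ∧ (ℓ : ℤ) ∣ g' 0 1 - g 0 1 ∧ g' 1 0 = g 1 0 ∧
      (ℓ : ℤ) ∣ g' 1 1 - g 1 1) : redMatrix ℓ g' = redMatrix ℓ g := by
  obtain ⟨h00, h01, h10, h11⟩ := h
  have e00 : ((g' 0 0 : ℤ) : ZMod ℓ) = ((g 0 0 : ℤ) : ZMod ℓ) :=
    (ZMod.intCast_eq_intCast_iff_dvd_sub _ _ _).mpr (by
      have := h00.neg_right
      rwa [neg_sub] at this)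
  have e01 : ((g' 0 1 : ℤ) : ZMod ℓ) = ((g 0 1 : ℤ) : ZMod ℓ) :=
    (ZMod.intCast_eq_intCast_iff_dvd_sub _ _ _).mpr (by
      have := h01.neg_right
      rwa [neg_sub] at this)
  have e11 : ((g' 1 1 : ℤ) : ZMod ℓ) = ((g 1 1 : ℤ) : ZMod ℓ) :=
    (ZMod.intCast_eq_intCast_iff_dvd_sub _ _ _).mpr (by
      have := h11.neg_right
      rwa [neg_sub] at this)
  apply Matrix.GeneralLinearGroup.ext
  intro i j
  fin_cases i <;> fin_cases j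
  · show redMatrix ℓ g' 0 0 = redMatrix ℓ g 0 0
    rw [redMatrix_apply_zero_zero, redMatrix_apply_zero_zero, e11]
  · show redMatrix ℓ g' 0 1 = redMatrix ℓ g 0 1
    rw [redMatrix_apply_zero_one, redMatrix_apply_zero_one, e01]
  · show redMatrix ℓ g' 1 0 = redMatrix ℓ g 1 0
    rw [redMatrix_apply_one_zero, redMatrix_apply_one_zero, h10]
  · show redMatrix ℓ g' 1 1 = redMatrix ℓ g 1 1
    rw [redMatrix_apply_one_one, redMatrix_apply_one_one, e00]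

include hℓ in
theorem isCoprime_ell_T : IsCoprime (ℓ : ℤ) (T : ℤ) := by
  have h1 : ¬ ℓ ∣ T := fun h => hℓ (Dvd.dvd.mul_left h _)
  exact Nat.isCoprime_iff_coprime.mpr ((Nat.Prime.coprime_iff_not_dvd Fact.out).mpr h1)

include hℓ in
/-- the conjugate of `γ ∈ Γ**` by `α_{ℓ u}` is congruent to `γ` modulo `ℓ` -/
theorem tPerm_conjHom_alpha (u : ℤ) (γ : ↥(GammaSS N₁ T)) :
    tPerm ℓ (toGamma0 (unitsOne N₁ T)
      (conjHom (alphaGL T (ℓ * u)) (alpha_isNorm (N₁ := N₁) hT (ℓ * u)) γ)) =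
      tPerm ℓ (toGamma0 (unitsOne N₁ T) γ) := by
  obtain ⟨h1, h2⟩ := mem_GammaSS.mp γ.2
  have h0 := dvd_sub_one_of_mem_GammaSS γ.2
  have huv : (T : ℤ) ∣ (γ : SL(2, ℤ)) 1 1 * (ℓ * u) - (γ : SL(2, ℤ)) 0 0 * (ℓ * u) := by
    have : (γ : SL(2, ℤ)) 1 1 * (ℓ * u) - (γ : SL(2, ℤ)) 0 0 * (ℓ * u) =
        ((γ : SL(2, ℤ)) 1 1 - 1) * (ℓ * u) - ((γ : SL(2, ℤ)) 0 0 - 1) * (ℓ * u) := by ring
    rw [this]
    exact dvd_sub (Dvd.dvd.mul_right h2 _) (Dvd.dvd.mul_right h0 _)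
  obtain ⟨κ, hrel, -, -, hmod⟩ :=
    alpha_mul_gamma0 hT ⟨(γ : SL(2, ℤ)), GammaSS_le_Gamma0 γ.2⟩ (ℓ * u) (ℓ * u) huv
  have hκ := conjHom_unique (alphaGL T (ℓ * u)) (alpha_isNorm (N₁ := N₁) hT (ℓ * u)) γ
    (κ : SL(2, ℤ)) hrel
  have hcong := hmod (ℓ : ℤ) (dvd_mul_right _ _) (dvd_mul_right _ _) (isCoprime_ell_T hℓ)
  unfold tPerm
  congr 1
  show redMatrix ℓ ((conjHom (alphaGL T (ℓ * u)) (alpha_isNorm (N₁ := N₁) hT (ℓ * u)) γ :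
    ↥(GammaSS N₁ T)) : SL(2, ℤ)) = redMatrix ℓ (γ : SL(2, ℤ))
  rw [hκ]
  exact redMatrix_eq_of_dvd _ _ hcong

end Hecke


section Commute

variable {ℓ : ℕ} [Fact ℓ.Prime] (hℓ : ¬ ℓ ∣ N₁ * T * T)

include hT in
/-- the hypothesis of `alpha_mul_gamma0` for `σ_ℓ`, `u`, `ℓ² u` -/
theorem sigmaL_dvd (u : ℤ) :
    (T : ℤ) ∣ ((sigmaL hℓ : ↥(Gamma0 (N₁ * T * T))) : SL(2, ℤ)) 1 1 * u -
      ((sigmaL hℓ : ↥(Gamma0 (N₁ * T * T))) : SL(2, ℤ)) 0 0 * (ℓ * ℓ * u) := by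
  set σ : SL(2, ℤ) := ((sigmaL hℓ : ↥(Gamma0 (N₁ * T * T))) : SL(2, ℤ)) with hσ
  have h1 : ((σ 1 1 : ℤ) : ZMod (N₁ * T * T)) = ((ℓ : ℤ) : ZMod (N₁ * T * T)) := by
    rw [Int.cast_natCast]
    exact gamma0Map_sigmaL hℓ
  have h2 : ((N₁ * T * T : ℕ) : ℤ) ∣ σ 1 1 - ℓ := by
    have := (ZMod.intCast_eq_intCast_iff_dvd_sub _ _ _).mp h1
    have h3 := this.neg_right
    rwa [neg_sub] at h3
  have h3 : (T : ℤ) ∣ σ 1 1 - ℓ := Dvd.dvd.trans ⟨(N₁ : ℤ) * T, by push_cast; ring⟩ h2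
  have h4 : (T : ℤ) ∣ σ 1 0 :=
    Dvd.dvd.trans ⟨(N₁ : ℤ) * T, by push_cast; ring⟩
      (mem_Gamma0_iff_dvd.mp (sigmaL hℓ : ↥(Gamma0 (N₁ * T * T))).2)
  obtain ⟨e, he⟩ := h3
  obtain ⟨f, hf⟩ := h4
  have hdet := det_eq σ
  refine ⟨e * u - ℓ * u * σ 0 1 * f + σ 0 0 * ℓ * e * u, ?_⟩
  linear_combination (u + σ 0 0 * ℓ * u) * he - ℓ * u * hdet - ℓ * u * σ 0 1 * hf

/-- **`A_{ℓ u} T_ℓ = T_ℓ A_u`** -/
theorem twA_heckeSS (u : ℤ) {A : Type*} [AddCommGroup A] (φ : H (GammaSS N₁ T) A) :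
    twA hT (ℓ * u) A (heckeSS hℓ A φ) = heckeSS hℓ A (twA hT u A φ) := by
  have hℓ0 : ℓ ≠ 0 := (Fact.out : ℓ.Prime).ne_zero
  -- the two composite data
  let D₁ : CosetData ↥(GammaSS N₁ T) ↥(GammaSS N₁ T) (Unit × OnePoint (ZMod ℓ)) :=
    (CosetData.ofHom (conjHom (alphaGL T (ℓ * u))
      (alpha_isNorm (N₁ := N₁) hT (ℓ * u)))).comp (tDataD hℓ (unitsOne N₁ T))
  let D₂ : CosetData ↥(GammaSS N₁ T) ↥(GammaSS N₁ T) (OnePoint (ZMod ℓ) × Unit) :=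
    (tDataD hℓ (unitsOne N₁ T)).comp (CosetData.ofHom (conjHom (alphaGL T u)
      (alpha_isNorm (N₁ := N₁) hT u)))
  have hr₁ : HasReps D₁ (fun p : Unit × OnePoint (ZMod ℓ) => repN hℓ p.2 * alphaGL T (ℓ * u)) :=
    hasReps_conj_comp (Γ := GammaSS N₁ T) (Γ' := GammaSS N₁ T) (Γ'' := GammaSS N₁ T) _ _ _ _
      (tDataD_hasReps hℓ (unitsOne N₁ T))
  have hr₂ : HasReps D₂ (fun p : OnePoint (ZMod ℓ) × Unit => alphaGL T u * repN hℓ p.1) :=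
    hasReps_comp_conj (Γ := GammaSS N₁ T) (Γ' := GammaSS N₁ T) (Γ'' := GammaSS N₁ T) _ _ _ _
      (tDataD_hasReps hℓ (unitsOne N₁ T))
  -- the correcting element at `∞`
  obtain ⟨κ, hκrel, hκ11, -, -⟩ := alpha_mul_gamma0 hT (sigmaL hℓ) u (ℓ * ℓ * u) (sigmaL_dvd hT hℓ u)
  have hmem : ((κ * (sigmaL hℓ)⁻¹ : ↥(Gamma0 (N₁ * T * T))) : SL(2, ℤ)) ∈ GammaSS N₁ T := by
    apply mem_GammaD_of_dUnit
    show ZMod.unitsMap (dvd_lvl N₁ T) (dUnit (N₁ * T * T) (κ * (sigmaL hℓ)⁻¹)) = 1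
    rw [map_mul, map_inv, map_mul, map_inv, mul_inv_eq_one]
    apply Units.ext
    rw [ZMod.unitsMap_val, ZMod.unitsMap_val, coe_dUnit', coe_dUnit',
      ZMod.cast_intCast (dvd_lvl N₁ T), ZMod.cast_intCast (dvd_lvl N₁ T)]
    have hT1 : (T : ℤ) ∣ (κ : SL(2, ℤ)) 1 1 - ((sigmaL hℓ : ↥(Gamma0 (N₁ * T * T))) : SL(2, ℤ)) 1 1 :=
      Dvd.dvd.trans ⟨(N₁ : ℤ), by push_cast; ring⟩ hκ11
    have h5 := hT1.neg_right
    rw [neg_sub] at h5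
    exact ((ZMod.intCast_eq_intCast_iff_dvd_sub _ _ _).mpr h5)
  have key := op_eq_of_reps D₁ D₂ _ _ hr₁ hr₂ (Equiv.prodComm Unit (OnePoint (ZMod ℓ)))
    (by
      rintro γ ⟨⟨⟩, y⟩
      show (tPerm ℓ (toGamma0 (unitsOne N₁ T) γ) y, ()) =
        (tPerm ℓ (toGamma0 (unitsOne N₁ T) (conjHom (alphaGL T (ℓ * u))
          (alpha_isNorm (N₁ := N₁) hT (ℓ * u)) γ)) y, ())
      rw [tPerm_conjHom_alpha hT hℓ u γ])
    (fun p => p.2.elim ⟨_, hmem⟩ (fun _ => 1))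
    (by
      rintro ⟨⟨⟩, y⟩
      induction y using OnePoint.rec with
      | infty =>
        show alphaGL T u * repN hℓ OnePoint.infty =
          (mapGL ℝ (((κ * (sigmaL hℓ)⁻¹ : ↥(Gamma0 (N₁ * T * T))) : SL(2, ℤ))) : GL (Fin 2) ℝ) *
            (repN hℓ OnePoint.infty * alphaGL T (ℓ * u))
        unfold repN
        rw [sN_infty, heckeRep_infty, ← mul_assoc, hκrel, mul_assoc, alpha_mul_heckeDiag T ℓ hℓ0 u,
          Subgroup.coe_mul, Subgroup.coe_inv, map_mul, map_inv]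
        group
      | coe j =>
        show alphaGL T u * repN hℓ (j : OnePoint (ZMod ℓ)) =
          (mapGL ℝ (1 : SL(2, ℤ)) : GL (Fin 2) ℝ) *
            (repN hℓ (j : OnePoint (ZMod ℓ)) * alphaGL T (ℓ * u))
        have h1 : ((sN hℓ (j : OnePoint (ZMod ℓ)) : ↥(Gamma0 (N₁ * T * T))) : SL(2, ℤ)) = 1 := rfl
        unfold repN
        rw [h1, heckeRep_coe]
        simp only [map_one, one_mul]
        exact alpha_mul_heckeMatrix T ℓ hℓ0 u j.val)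
    A
  have h1 : D₂.op A φ = D₁.op A φ := congrFun (congrArg DFunLike.coe key) φ
  have h2 : D₂.op A = (heckeSS hℓ A).comp (twA hT u A) :=
    op_comp_conjOp (Γ := GammaSS N₁ T) (Γ' := GammaSS N₁ T) (Γ'' := GammaSS N₁ T) _ _ _ A
  have h3 : D₁.op A = (twA hT (ℓ * u) A).comp (heckeSS hℓ A) :=
    conjOp_comp_op (Γ := GammaSS N₁ T) (Γ' := GammaSS N₁ T) (Γ'' := GammaSS N₁ T) _ _ _ A
  rw [h2, h3] at h1
  exact h1.symm

end Commute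

end Fermat.Agent.S43lib.B2.Bridge
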