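/-
S43lib / B2 / Bridge / R (helper5).

The twisting operator on `W = Hom(Γ**, A)` (`A` a vector space over a field `K`):
`R_ξ = ∑_{u ∈ (ℤ/T₁)ˣ} ξ(u) A_{T₂ u}`, `T = T₁ T₂`, and the commutation `R_ξ T_ℓ = ξ(ℓ) T_ℓ R_ξ`.
-/
import Mathlib
import Fermat.Agent.S43lib.B2.Bridge.TwistOp

set_option autoImplicit false
set_option linter.unusedSectionVars false

noncomputable section

namespace Fermat.Agent.S43lib.B2.Bridge

open CongruenceSubgroup Matrix.SpecialLinearGroup ModularForm ModularCurve.Period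
open Fermat.Agent.S41lib.HC Fermat.Agent.S16lib.LH Fermat.Agent.S29lib.H
open scoped MatrixGroups

/-! ### Linearity of the operators of coset data -/

section Lin

variable {Γ Γ' : Subgroup SL(2, ℤ)} {ι : Type*} [Fintype ι]

theorem op_smul (D : CosetData ↥Γ ↥Γ' ι) {K : Type*} [Semiring K] {A : Type*} [AddCommGroup A]
    [Module K A] (c : K) (φ : H Γ' A) : D.op A (c • φ) = c • D.op A φ :=
  (D.opₗ K A).map_smul c φ

end Lin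

variable {N₁ T : ℕ} (hT : T ≠ 0)
variable (K : Type*) [Field K] (A : Type*) [AddCommGroup A] [Module K A]

/-- `A_u` as a `K`-linear map -/
def twAL (u : ℤ) : Module.End K (H (GammaSS N₁ T) A) :=
  (CosetData.ofHom (conjHom (alphaGL T u) (alpha_isNorm (N₁ := N₁) hT u))).opₗ K A

@[simp] theorem twAL_apply (u : ℤ) (φ : H (GammaSS N₁ T) A) :
    twAL hT K A u φ = twA hT u A φ := rfl

/-- `T_ℓ` on `W` as a `K`-linear map -/
def heckeSSL {ℓ : ℕ} [Fact ℓ.Prime] (hℓ : ¬ ℓ ∣ N₁ * T * T) :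
    Module.End K (H (GammaSS N₁ T) A) :=
  (tDataD hℓ (unitsOne N₁ T)).opₗ K A

@[simp] theorem heckeSSL_apply {ℓ : ℕ} [Fact ℓ.Prime] (hℓ : ¬ ℓ ∣ N₁ * T * T)
    (φ : H (GammaSS N₁ T) A) : heckeSSL K A hℓ φ = heckeSS hℓ A φ := rfl

theorem twA_smul (u : ℤ) (c : K) (φ : H (GammaSS N₁ T) A) :
    twA hT u A (c • φ) = c • twA hT u A φ := (twAL hT K A u).map_smul c φ

theorem heckeSS_smul {ℓ : ℕ} [Fact ℓ.Prime] (hℓ : ¬ ℓ ∣ N₁ * T * T) (c : K)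
    (φ : H (GammaSS N₁ T) A) : heckeSS hℓ A (c • φ) = c • heckeSS hℓ A φ :=
  (heckeSSL K A hℓ).map_smul c φ

/-! ### The twisting operator -/

/-- the standard integer lift of a unit modulo `T₁` -/
def uLift {T₁ : ℕ} (u : (ZMod T₁)ˣ) : ℤ := (((u : ZMod T₁).val : ℕ) : ℤ)

theorem uLift_cast {T₁ : ℕ} [NeZero T₁] (u : (ZMod T₁)ˣ) : ((uLift u : ℤ) : ZMod T₁) = u := by
  unfold uLift
  rw [Int.cast_natCast, ZMod.natCast_zmod_val]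

variable (T₁ T₂ : ℕ) [NeZero T₁]

/-- `R_ξ = ∑_u ξ(u) A_{T₂ u}` -/
def twR (ξ : (ZMod T₁)ˣ →* Kˣ) : Module.End K (H (GammaSS N₁ T) A) :=
  ∑ u : (ZMod T₁)ˣ, ((ξ u : Kˣ) : K) • twAL hT K A (T₂ * uLift u)

theorem twR_apply (ξ : (ZMod T₁)ˣ →* Kˣ) (φ : H (GammaSS N₁ T) A) :
    twR hT K A T₁ T₂ ξ φ =
      ∑ u : (ZMod T₁)ˣ, ((ξ u : Kˣ) : K) • twA hT (T₂ * uLift u) A φ := by
  unfold twR
  rw [LinearMap.sum_apply]
  rfl

/-- **`R_ξ T_ℓ = ξ(ℓ) T_ℓ R_ξ`** -/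
theorem twR_heckeSS (hTT : T₁ * T₂ = T) (ξ : (ZMod T₁)ˣ →* Kˣ) {ℓ : ℕ} [Fact ℓ.Prime]
    (hℓ : ¬ ℓ ∣ N₁ * T * T) (lu : (ZMod T₁)ˣ) (hlu : ((lu : (ZMod T₁)ˣ) : ZMod T₁) = (ℓ : ZMod T₁))
    (φ : H (GammaSS N₁ T) A) :
    twR hT K A T₁ T₂ ξ (heckeSS hℓ A φ) =
      ((ξ lu : Kˣ) : K) • heckeSS hℓ A (twR hT K A T₁ T₂ ξ φ) := by
  rw [twR_apply, twR_apply, map_sum, Finset.smul_sum]
  rw [← Equiv.sum_comp (Equiv.mulLeft lu)]
  refine Finset.sum_congr rfl fun w _ => ?_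
  rw [Equiv.coe_mulLeft, heckeSS_smul, smul_smul, map_mul, Units.val_mul]
  congr 1
  -- `A_{T₂ lift(ℓ w)} = A_{ℓ (T₂ w̃)}`
  have hcong : (T : ℤ) ∣ (ℓ : ℤ) * (T₂ * uLift w) - T₂ * uLift (lu * w) := by
    have h1 : (T₁ : ℤ) ∣ (ℓ : ℤ) * uLift w - uLift (lu * w) := by
      rw [← ZMod.intCast_zmod_eq_zero_iff_dvd]
      push_cast
      rw [uLift_cast, uLift_cast, Units.val_mul, hlu, sub_self]
    obtain ⟨e, he⟩ := h1
    refine ⟨e, ?_⟩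
    rw [← hTT]
    push_cast
    linear_combination (T₂ : ℤ) * he
  rw [twA_congr hT hcong, twA_heckeSS hT hℓ]

end Fermat.Agent.S43lib.B2.Bridge
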