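/-
S43lib / B2 / Bridge / Inv (helper5).

Conjugation by `Γ₀(N₁ T)` on `W = Hom(Γ**, A)`, eigenvectors, and the invariance of the twist:
if `φ (b γ b⁻¹) = ψ₁(d_b) φ(γ)` for all `b ∈ Γ₀(N₁ T)` and `ξ² = ψ₁` then `R_ξ φ` is invariant under
conjugation by `Γ₀(N₁ T²)`, hence (characteristic zero) the restriction of a homomorphism on
`Γ₀(N₁ T²)`.
-/
import Mathlib
import Fermat.Agent.S43lib.B2.Bridge.R
import Fermat.Agent.S43lib.B2.Bridge.Abstract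

set_option autoImplicit false
set_option linter.unusedSectionVars false

noncomputable section

namespace Fermat.Agent.S43lib.B2.Bridge

open CongruenceSubgroup Matrix.SpecialLinearGroup ModularForm ModularCurve.Period
open Fermat.Agent.S41lib.HC Fermat.Agent.S16lib.LH Fermat.Agent.S29lib.H
open P2MW.S_ModularForm_heckeT_slash_eq_self_of_mem_Gamma0.ModularForm.HeckeSlashInvariance
open scoped MatrixGroups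

/-! ### Generalities on conjugation operators -/

section General

variable {Γ Γ' Γ'' : Subgroup SL(2, ℤ)}

theorem conj_exists_mul (g₁ g₂ : GL (Fin 2) ℝ)
    (h₁ : ∀ γ : ↥Γ, ∃ κ : ↥Γ', g₁ * (mapGL ℝ (γ : SL(2, ℤ)) : GL (Fin 2) ℝ) =
      (mapGL ℝ ((κ : ↥Γ') : SL(2, ℤ)) : GL (Fin 2) ℝ) * g₁)
    (h₂ : ∀ γ : ↥Γ', ∃ κ : ↥Γ'', g₂ * (mapGL ℝ (γ : SL(2, ℤ)) : GL (Fin 2) ℝ) =
      (mapGL ℝ ((κ : ↥Γ'') : SL(2, ℤ)) : GL (Fin 2) ℝ) * g₂) :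
    ∀ γ : ↥Γ, ∃ κ : ↥Γ'', g₂ * g₁ * (mapGL ℝ (γ : SL(2, ℤ)) : GL (Fin 2) ℝ) =
      (mapGL ℝ ((κ : ↥Γ'') : SL(2, ℤ)) : GL (Fin 2) ℝ) * (g₂ * g₁) := by
  intro γ
  obtain ⟨κ₁, hκ₁⟩ := h₁ γ
  obtain ⟨κ₂, hκ₂⟩ := h₂ κ₁
  exact ⟨κ₂, by rw [mul_assoc, hκ₁, ← mul_assoc, hκ₂, mul_assoc]⟩

theorem conjOp_smul (g : GL (Fin 2) ℝ)
    (h : ∀ γ : ↥Γ, ∃ κ : ↥Γ', g * (mapGL ℝ (γ : SL(2, ℤ)) : GL (Fin 2) ℝ) =
      (mapGL ℝ ((κ : ↥Γ') : SL(2, ℤ)) : GL (Fin 2) ℝ) * g)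
    {K : Type*} [Semiring K] {A : Type*} [AddCommGroup A] [Module K A] (c : K) (φ : H Γ' A) :
    conjOp g h A (c • φ) = c • conjOp g h A φ :=
  op_smul _ c φ

/-- the value of the conjugation homomorphism for an element of `SL₂(ℤ)` -/
theorem conjHom_mapGL (b : SL(2, ℤ))
    (h : ∀ γ : ↥Γ, ∃ κ : ↥Γ', (mapGL ℝ b : GL (Fin 2) ℝ) *
      (mapGL ℝ (γ : SL(2, ℤ)) : GL (Fin 2) ℝ) =
      (mapGL ℝ ((κ : ↥Γ') : SL(2, ℤ)) : GL (Fin 2) ℝ) * (mapGL ℝ b : GL (Fin 2) ℝ)) (γ : ↥Γ) :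
    ((conjHom (mapGL ℝ b : GL (Fin 2) ℝ) h γ : ↥Γ') : SL(2, ℤ)) = b * (γ : SL(2, ℤ)) * b⁻¹ := by
  apply conjHom_unique
  rw [map_mul, map_mul, map_inv, inv_mul_cancel_right]

end General

/-! ### Extension of conjugation invariant homomorphisms -/

section Extend

variable {Γ₁ Γ₂ : Subgroup SL(2, ℤ)}

theorem exists_extension_of_conj_invariant (h : Γ₂ ≤ Γ₁) [Γ₂.FiniteIndex]
    (hn : ∀ (g : ↥Γ₁) (γ : ↥Γ₂), ∃ κ : ↥Γ₂, (mapGL ℝ (g : SL(2, ℤ)) : GL (Fin 2) ℝ) *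
      (mapGL ℝ (γ : SL(2, ℤ)) : GL (Fin 2) ℝ) =
      (mapGL ℝ ((κ : ↥Γ₂) : SL(2, ℤ)) : GL (Fin 2) ℝ) * (mapGL ℝ (g : SL(2, ℤ)) : GL (Fin 2) ℝ))
    {K : Type*} [Field K] [CharZero K] {A : Type*} [AddCommGroup A] [Module K A] (φ : H Γ₂ A)
    (hinv : ∀ g : ↥Γ₁, conjOp (mapGL ℝ (g : SL(2, ℤ)) : GL (Fin 2) ℝ) (hn g) A φ = φ) :
    ∃ Φ : H Γ₁ A, resOp h A Φ = φ := by
  classical
  -- normality
  have hnorm : (Γ₂.subgroupOf Γ₁).Normal := by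
    refine ⟨fun k hk g => ?_⟩
    rw [Subgroup.mem_subgroupOf] at hk ⊢
    have h1 := conjHom_mapGL (g : SL(2, ℤ)) (hn g) ⟨(k : SL(2, ℤ)), hk⟩
    have h2 : ((g * k * g⁻¹ : ↥Γ₁) : SL(2, ℤ)) = (g : SL(2, ℤ)) * (k : SL(2, ℤ)) *
        (g : SL(2, ℤ))⁻¹ := by
      rw [Subgroup.coe_mul, Subgroup.coe_mul, Subgroup.coe_inv]
    rw [h2, ← h1]
    exact (conjHom _ (hn g) ⟨(k : SL(2, ℤ)), hk⟩).2
  have : (Γ₂.subgroupOf Γ₁).FiniteIndex := inferInstance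
  haveI : Fintype (↥Γ₁ ⧸ Γ₂.subgroupOf Γ₁) := Subgroup.fintypeQuotientOfFiniteIndex
  let e : ↥(Γ₂.subgroupOf Γ₁) →* ↥Γ₂ := (Subgroup.subgroupOfEquivOfLe h).toMonoidHom
  have he : ∀ k : ↥(Γ₂.subgroupOf Γ₁), ((e k : ↥Γ₂) : SL(2, ℤ)) = ((k : ↥Γ₁) : SL(2, ℤ)) :=
    fun k => rfl
  let φ' : Additive ↥(Γ₂.subgroupOf Γ₁) →+ A := φ.comp (MonoidHom.toAdditive e)
  have hφ' : ∀ k : ↥(Γ₂.subgroupOf Γ₁), φ' (Additive.ofMul k) = φ (Additive.ofMul (e k)) :=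
    fun k => rfl
  have hunit : IsUnit ((Fintype.card (↥Γ₁ ⧸ Γ₂.subgroupOf Γ₁) : ℕ) : K) := by
    apply IsUnit.mk0
    exact Nat.cast_ne_zero.mpr Fintype.card_ne_zero
  obtain ⟨Φ, hΦ⟩ := exists_extension_of_invariant (Γ₂.subgroupOf Γ₁) (R := K) hunit φ' (by
    intro g k hk
    rw [hφ', hφ']
    have h1 := congrFun (congrArg DFunLike.coe (hinv g)) (Additive.ofMul (e k))
    rw [conjOp_apply] at h1
    rw [← h1]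
    congr 2
    apply Subtype.ext
    rw [conjHom_mapGL, he, he]
    show ((g * k * g⁻¹ : ↥Γ₁) : SL(2, ℤ)) = _
    rw [Subgroup.coe_mul, Subgroup.coe_mul, Subgroup.coe_inv])
  refine ⟨Φ, ?_⟩
  refine AddMonoidHom.ext fun a => ?_
  obtain ⟨γ, rfl⟩ : ∃ γ : ↥Γ₂, Additive.ofMul γ = a := ⟨Additive.toMul a, rfl⟩
  rw [resOp_apply]
  have hmem : Subgroup.inclusion h γ ∈ Γ₂.subgroupOf Γ₁ := by
    rw [Subgroup.mem_subgroupOf]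
    exact γ.2
  have h1 := hΦ ⟨Subgroup.inclusion h γ, hmem⟩
  rw [hφ'] at h1
  have h2 : e ⟨Subgroup.inclusion h γ, hmem⟩ = γ := Subtype.ext rfl
  rw [h2] at h1
  exact h1

end Extend

/-! ### The action of `Γ₀(N₁ T)` on `W` -/

variable {N₁ T : ℕ} (hT : T ≠ 0)

theorem gamma0_sq_le : Gamma0 (N₁ * T * T) ≤ Gamma0 (N₁ * T) :=
  Gamma0_le_of_dvd (Dvd.intro _ rfl)

/-- `φ ↦ φ ∘ (b · b⁻¹)` for `b ∈ Γ₀(N₁ T)` -/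
def cjB (b : ↥(Gamma0 (N₁ * T))) (A : Type*) [AddCommGroup A] :
    H (GammaSS N₁ T) A →+ H (GammaSS N₁ T) A :=
  conjOp (mapGL ℝ (b : SL(2, ℤ)) : GL (Fin 2) ℝ) (gamma0_isNorm b) A

theorem cjB_smul (b : ↥(Gamma0 (N₁ * T))) {K : Type*} [Semiring K] {A : Type*} [AddCommGroup A]
    [Module K A] (c : K) (φ : H (GammaSS N₁ T) A) : cjB b A (c • φ) = c • cjB b A φ :=
  conjOp_smul _ _ c φ

/-- the key relation `conj_σ ∘ A_u = A_v ∘ conj_κ` when `α_u σ = κ α_v` -/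
theorem cjB_twA (σ κ : ↥(Gamma0 (N₁ * T))) (u v : ℤ)
    (hrel : alphaGL T u * (mapGL ℝ (σ : SL(2, ℤ)) : GL (Fin 2) ℝ) =
      (mapGL ℝ (κ : SL(2, ℤ)) : GL (Fin 2) ℝ) * alphaGL T v)
    {A : Type*} [AddCommGroup A] (φ : H (GammaSS N₁ T) A) :
    cjB σ A (twA hT u A φ) = twA hT v A (cjB κ A φ) := by
  unfold cjB twA
  rw [← conjOp_mul (mapGL ℝ (σ : SL(2, ℤ)) : GL (Fin 2) ℝ) (alphaGL T u) (gamma0_isNorm σ)
      (alpha_isNorm (N₁ := N₁) hT u) (conj_exists_mul _ _ (gamma0_isNorm σ)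
        (alpha_isNorm (N₁ := N₁) hT u)),
    ← conjOp_mul (alphaGL T v) (mapGL ℝ (κ : SL(2, ℤ)) : GL (Fin 2) ℝ)
      (alpha_isNorm (N₁ := N₁) hT v) (gamma0_isNorm κ)
      (conj_exists_mul _ _ (alpha_isNorm (N₁ := N₁) hT v) (gamma0_isNorm κ))]
  exact congrFun (congrArg DFunLike.coe (conjOp_congr _ _ hrel _ _ A)) φ

/-- the lower right entry modulo `T₁` -/
def dT₁ {T₁ : ℕ} (h : T₁ ∣ N₁ * T) : ↥(Gamma0 (N₁ * T)) →* (ZMod T₁)ˣ :=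
  (ZMod.unitsMap h).comp (dUnit (N₁ * T))

theorem coe_dT₁ {T₁ : ℕ} (h : T₁ ∣ N₁ * T) (b : ↥(Gamma0 (N₁ * T))) :
    ((dT₁ h b : (ZMod T₁)ˣ) : ZMod T₁) = (((b : SL(2, ℤ)) 1 1 : ℤ) : ZMod T₁) := by
  unfold dT₁
  rw [MonoidHom.comp_apply, ZMod.unitsMap_val, coe_dUnit', ZMod.cast_intCast h]

theorem dT₁_eq_of_dvd {T₁ : ℕ} (h : T₁ ∣ N₁ * T) (b b' : ↥(Gamma0 (N₁ * T)))
    (hbb : ((N₁ * T : ℕ) : ℤ) ∣ (b' : SL(2, ℤ)) 1 1 - (b : SL(2, ℤ)) 1 1) :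
    dT₁ h b' = dT₁ h b := by
  apply Units.ext
  rw [coe_dT₁, coe_dT₁, ZMod.intCast_eq_intCast_iff_dvd_sub]
  have h1 : (T₁ : ℤ) ∣ (b' : SL(2, ℤ)) 1 1 - (b : SL(2, ℤ)) 1 1 :=
    (Int.natCast_dvd_natCast.mpr h).trans hbb
  have h2 := h1.neg_right
  rwa [neg_sub] at h2

/-! ### Invariance of the twist -/

variable (K : Type*) [Field K] (A : Type*) [AddCommGroup A] [Module K A]
variable (T₁ T₂ : ℕ) [NeZero T₁]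

/-- `φ` is an eigenvector for the conjugation action: `φ(b γ b⁻¹) = ψ₁(d_b) φ(γ)` -/
def IsEigen (h : T₁ ∣ N₁ * T) (ψ₁ : (ZMod T₁)ˣ →* Kˣ) (φ : H (GammaSS N₁ T) A) : Prop :=
  ∀ b : ↥(Gamma0 (N₁ * T)), cjB b A φ = ((ψ₁ (dT₁ h b) : Kˣ) : K) • φ

theorem dvd_of_mul_eq (hTT : T₁ * T₂ = T) : T₁ ∣ N₁ * T :=
  Dvd.dvd.mul_left (Dvd.intro _ hTT) _

/-- **the twist of an eigenvector is invariant under conjugation by `Γ₀(N₁ T²)`** -/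
theorem cjB_twR (hTT : T₁ * T₂ = T) (ψ₁ ξ : (ZMod T₁)ˣ →* Kˣ) (hξ : ∀ u, ξ u * ξ u = ψ₁ u)
    (φ : H (GammaSS N₁ T) A) (hφ : IsEigen K A T₁ (dvd_of_mul_eq T₁ T₂ hTT) ψ₁ φ)
    (σ : ↥(Gamma0 (N₁ * T * T))) :
    cjB (Subgroup.inclusion gamma0_sq_le σ) A (twR hT K A T₁ T₂ ξ φ) =
      twR hT K A T₁ T₂ ξ φ := by
  have hdv := dvd_of_mul_eq (N₁ := N₁) T₁ T₂ hTT
  set σ' : ↥(Gamma0 (N₁ * T)) := Subgroup.inclusion gamma0_sq_le σ with hσ'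
  set dbar : (ZMod T₁)ˣ := dT₁ hdv σ' with hdbar
  have hσ10 : ((N₁ * T * T : ℕ) : ℤ) ∣ (σ : SL(2, ℤ)) 1 0 := mem_Gamma0_iff_dvd.mp σ.2
  have hT₁dvd : (T₁ : ℤ) ∣ (σ : SL(2, ℤ)) 1 0 := by
    refine Dvd.dvd.trans ?_ hσ10
    refine ⟨(N₁ : ℤ) * T₂ * T, ?_⟩
    have hTc : (T : ℤ) = (T₁ : ℤ) * T₂ := by
      rw [← hTT]
      push_cast
      ring
    push_cast
    rw [hTc]
    ring
  -- `a d = 1` modulo `T₁`
  have had : (((σ : SL(2, ℤ)) 0 0 : ℤ) : ZMod T₁) * (((σ : SL(2, ℤ)) 1 1 : ℤ) : ZMod T₁) = 1 := by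
    have hdet := det_eq (σ : SL(2, ℤ))
    have h10 : (((σ : SL(2, ℤ)) 1 0 : ℤ) : ZMod T₁) = 0 :=
      (ZMod.intCast_zmod_eq_zero_iff_dvd _ _).mpr hT₁dvd
    have := congrArg (fun z : ℤ => (z : ZMod T₁)) hdet
    simp only [Int.cast_sub, Int.cast_mul, Int.cast_one] at this
    rw [h10, mul_zero, sub_zero] at this
    exact this
  have hd : ((dbar : (ZMod T₁)ˣ) : ZMod T₁) = (((σ : SL(2, ℤ)) 1 1 : ℤ) : ZMod T₁) :=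
    coe_dT₁ hdv σ'
  rw [twR_apply, map_sum]
  rw [← Equiv.sum_comp (Equiv.mulLeft (dbar * dbar))
    (fun u : (ZMod T₁)ˣ => ((ξ u : Kˣ) : K) • twA hT (T₂ * uLift u) A φ)]
  refine Finset.sum_congr rfl fun u _ => ?_
  rw [Equiv.coe_mulLeft, cjB_smul]
  -- the relation for `u`
  have huv : (T : ℤ) ∣ (σ : SL(2, ℤ)) 1 1 * (T₂ * uLift u) -
      (σ : SL(2, ℤ)) 0 0 * (T₂ * uLift (dbar * dbar * u)) := by
    have h1 : (T₁ : ℤ) ∣ (σ : SL(2, ℤ)) 1 1 * uLift u -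
        (σ : SL(2, ℤ)) 0 0 * uLift (dbar * dbar * u) := by
      rw [← ZMod.intCast_zmod_eq_zero_iff_dvd]
      push_cast
      rw [uLift_cast, uLift_cast, Units.val_mul, Units.val_mul, hd]
      linear_combination (-(((σ : SL(2, ℤ)) 1 1 : ℤ) : ZMod T₁) * (u : ZMod T₁)) * had
    obtain ⟨e, he⟩ := h1
    refine ⟨e, ?_⟩
    have hTc : (T : ℤ) = (T₁ : ℤ) * T₂ := by
      rw [← hTT]
      push_cast
      ring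
    linear_combination (T₂ : ℤ) * he - e * hTc
  obtain ⟨κ, hrel, hκ11, -, -⟩ := alpha_mul_gamma0 hT σ _ _ huv
  have h1 := cjB_twA hT σ' (Subgroup.inclusion gamma0_sq_le κ) _ _ hrel φ
  rw [h1, hφ (Subgroup.inclusion gamma0_sq_le κ), twA_smul hT K A, smul_smul]
  congr 1
  have h2 : dT₁ hdv (Subgroup.inclusion gamma0_sq_le κ) = dbar :=
    dT₁_eq_of_dvd hdv σ' (Subgroup.inclusion gamma0_sq_le κ) hκ11
  rw [h2, map_mul, map_mul, Units.val_mul, Units.val_mul, ← hξ dbar, Units.val_mul]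
  ring

end Fermat.Agent.S43lib.B2.Bridge
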