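/-
S43lib / B2 / Bridge / CoreA (helper5).

**Core-A.**  Let `φ ∈ W = Hom(Γ**, A)` be an eigenvector of the conjugation action of `Γ₀(N₁ T)` with
character `ψ₁ ∘ d`, `ξ² = ψ₁`, and let `E = T_{ℓ₀} - (1 + ℓ₀)` for a prime `ℓ₀` such that `E` maps
`Hom(Γ₀(N₁ T²), A)` into the parabolic classes.  Then for every relation `P` of the Hecke algebra of
weight two cusp forms of level `N₁ T²`,
`R_ξ (P(ξ(ℓ)⁻¹ T_ℓ) (E φ)) = 0`.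
-/
import Mathlib
import Fermat.Agent.S43lib.B2.Bridge.Inv
import Fermat.Agent.S43lib.B2.Bridge.ES

set_option autoImplicit false
set_option linter.unusedSectionVars false

noncomputable section

namespace Fermat.Agent.S43lib.B2.Bridge

open CongruenceSubgroup Matrix.SpecialLinearGroup ModularForm ModularCurve.Period
open Fermat.Agent.S41lib.HC Fermat.Agent.S16lib.LH Fermat.Agent.S29lib.H
open P2MW.S_ModularForm_heckeT_slash_eq_self_of_mem_Gamma0.ModularForm.HeckeSlashInvariance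
open scoped MatrixGroups

variable {N₁ T : ℕ}

/-! ### Finite index -/

theorem Gamma_le_GammaSS : Gamma (N₁ * T * T) ≤ GammaSS N₁ T := by
  intro γ hγ
  rw [Gamma_mem] at hγ
  rw [mem_GammaSS]
  refine ⟨(ZMod.intCast_zmod_eq_zero_iff_dvd _ _).mp hγ.2.2.1, ?_⟩
  have h1 : ((N₁ * T * T : ℕ) : ℤ) ∣ γ 1 1 - 1 := by
    rw [← ZMod.intCast_zmod_eq_zero_iff_dvd]
    push_cast
    rw [hγ.2.2.2, sub_self]
  exact (Int.natCast_dvd_natCast.mpr (dvd_lvl N₁ T)).trans h1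

instance GammaSS_finiteIndex [NeZero (N₁ * T * T)] : (GammaSS N₁ T).FiniteIndex :=
  Subgroup.finiteIndex_of_le Gamma_le_GammaSS

/-! ### The evaluations on `W` -/

variable {S : Set ℕ}

/-- `T_ℓ` on `W` as a `ℤ`-linear endomorphism -/
def heckeSSOp (A : Type*) [AddCommGroup A] (ℓ : GoodPrime (N₁ * T * T) S) :
    Module.End ℤ (H (GammaSS N₁ T) A) :=
  haveI : Fact ℓ.1.Prime := ⟨ℓ.2.1⟩
  (heckeSS ℓ.2.2.1 A).toIntLinearMap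

theorem heckeSSOp_apply (A : Type*) [AddCommGroup A] (ℓ : GoodPrime (N₁ * T * T) S)
    (φ : H (GammaSS N₁ T) A) :
    heckeSSOp A ℓ φ = (haveI : Fact ℓ.1.Prime := ⟨ℓ.2.1⟩; heckeSS ℓ.2.2.1 A φ) := rfl

/-- evaluation at the operators `T_ℓ` on `W` -/
def evalSS (A : Type*) [AddCommGroup A] :
    FreeAlgebra ℤ (GoodPrime (N₁ * T * T) S) →ₐ[ℤ] Module.End ℤ (H (GammaSS N₁ T) A) :=
  FreeAlgebra.lift ℤ (heckeSSOp A)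

/-- restriction intertwines the evaluations -/
theorem resOp_evalCoh {A : Type*} [AddCommGroup A] (P : FreeAlgebra ℤ (GoodPrime (N₁ * T * T) S))
    (Φ : H (Gamma0 (N₁ * T * T)) A) :
    resOp (GammaSS_le_Gamma0 (N₁ := N₁) (T := T)) A (evalCoh A P Φ) =
      evalSS A P (resOp (GammaSS_le_Gamma0 (N₁ := N₁) (T := T)) A Φ) := by
  refine lift_intertwine (heckeOp A) (heckeSSOp A)
    (resOp (GammaSS_le_Gamma0 (N₁ := N₁) (T := T)) A) ?_ P Φ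
  intro ℓ v
  have : Fact ℓ.1.Prime := ⟨ℓ.2.1⟩
  rw [heckeOp_apply, heckeSSOp_apply]
  exact (heckeD_resOp_gamma0 ℓ.2.2.1 ℓ.2.2.1 (dvd_refl _) (unitsOne N₁ T)
    (GammaSS_le_Gamma0 (N₁ := N₁) (T := T)) v).symm

variable (hT : T ≠ 0) (K : Type*) [Field K] (A : Type*) [AddCommGroup A] [Module K A]
variable (T₁ T₂ : ℕ) [NeZero T₁]

/-- the class of a good prime modulo `T₁` -/
def goodUnit (hTT : T₁ * T₂ = T) (ℓ : GoodPrime (N₁ * T * T) S) : (ZMod T₁)ˣ :=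
  ZMod.unitOfCoprime ℓ.1 ((Nat.Prime.coprime_iff_not_dvd ℓ.2.1).mpr fun h =>
    ℓ.2.2.1 (Dvd.dvd.mul_left (h.trans (Dvd.intro _ hTT)) _))

theorem coe_goodUnit (hTT : T₁ * T₂ = T) (ℓ : GoodPrime (N₁ * T * T) S) :
    ((goodUnit T₁ T₂ hTT ℓ : (ZMod T₁)ˣ) : ZMod T₁) = (ℓ.1 : ZMod T₁) :=
  ZMod.coe_unitOfCoprime _ _

/-- the twisted operators `ξ(ℓ)⁻¹ T_ℓ` -/
def heckeTwOp (hTT : T₁ * T₂ = T) (ξ : (ZMod T₁)ˣ →* Kˣ) (ℓ : GoodPrime (N₁ * T * T) S) :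
    Module.End ℤ (H (GammaSS N₁ T) A) :=
  haveI : Fact ℓ.1.Prime := ⟨ℓ.2.1⟩
  ((((ξ (goodUnit T₁ T₂ hTT ℓ))⁻¹ : Kˣ) : K) • heckeSSL K A ℓ.2.2.1).toAddMonoidHom.toIntLinearMap

theorem heckeTwOp_apply (hTT : T₁ * T₂ = T) (ξ : (ZMod T₁)ˣ →* Kˣ) (ℓ : GoodPrime (N₁ * T * T) S)
    (φ : H (GammaSS N₁ T) A) :
    heckeTwOp K A T₁ T₂ hTT ξ ℓ φ = (haveI : Fact ℓ.1.Prime := ⟨ℓ.2.1⟩;
      (((ξ (goodUnit T₁ T₂ hTT ℓ))⁻¹ : Kˣ) : K) • heckeSS ℓ.2.2.1 A φ) := rfl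

/-- evaluation at the twisted operators -/
def evalTw (hTT : T₁ * T₂ = T) (ξ : (ZMod T₁)ˣ →* Kˣ) :
    FreeAlgebra ℤ (GoodPrime (N₁ * T * T) S) →ₐ[ℤ] Module.End ℤ (H (GammaSS N₁ T) A) :=
  FreeAlgebra.lift ℤ (heckeTwOp K A T₁ T₂ hTT ξ)

/-- `R_ξ ∘ P(ξ(ℓ)⁻¹ T_ℓ) = P(T_ℓ) ∘ R_ξ` -/
theorem twR_evalTw (hTT : T₁ * T₂ = T) (ξ : (ZMod T₁)ˣ →* Kˣ)
    (P : FreeAlgebra ℤ (GoodPrime (N₁ * T * T) S)) (φ : H (GammaSS N₁ T) A) :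
    twR hT K A T₁ T₂ ξ (evalTw K A T₁ T₂ hTT ξ P φ) = evalSS A P (twR hT K A T₁ T₂ ξ φ) := by
  refine lift_intertwine (heckeTwOp K A T₁ T₂ hTT ξ) (heckeSSOp A)
    (twR hT K A T₁ T₂ ξ).toAddMonoidHom ?_ P φ
  intro ℓ v
  have : Fact ℓ.1.Prime := ⟨ℓ.2.1⟩
  show twR hT K A T₁ T₂ ξ (heckeTwOp K A T₁ T₂ hTT ξ ℓ v) = heckeSSOp A ℓ (twR hT K A T₁ T₂ ξ v)
  rw [heckeTwOp_apply, heckeSSOp_apply, map_smul,
    twR_heckeSS hT K A T₁ T₂ hTT ξ ℓ.2.2.1 (goodUnit T₁ T₂ hTT ℓ) (coe_goodUnit T₁ T₂ hTT ℓ),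
    smul_smul, Units.inv_mul, one_smul]

/-! ### Core-A -/

/-- the twist of an eigenvector extends to `Γ₀(N₁ T²)` -/
theorem exists_extension_twR [CharZero K] [NeZero (N₁ * T * T)] (hTT : T₁ * T₂ = T)
    (ψ₁ ξ : (ZMod T₁)ˣ →* Kˣ) (hξ : ∀ u, ξ u * ξ u = ψ₁ u)
    (φ : H (GammaSS N₁ T) A) (hφ : IsEigen K A T₁ (dvd_of_mul_eq T₁ T₂ hTT) ψ₁ φ) :
    ∃ Φ : H (Gamma0 (N₁ * T * T)) A,
      resOp (GammaSS_le_Gamma0 (N₁ := N₁) (T := T)) A Φ = twR hT K A T₁ T₂ ξ φ :=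
  exists_extension_of_conj_invariant (K := K) (GammaSS_le_Gamma0 (N₁ := N₁) (T := T))
    (fun g => gamma0_isNorm (Subgroup.inclusion gamma0_sq_le g)) _
    (fun g => cjB_twR hT K A T₁ T₂ hTT ψ₁ ξ hξ φ hφ g)

/-- **Core-A** -/
theorem coreA [CharZero K] [IsAddTorsionFree A] [NeZero (N₁ * T * T)] (hTT : T₁ * T₂ = T)
    (ψ₁ ξ : (ZMod T₁)ˣ →* Kˣ) (hξ : ∀ u, ξ u * ξ u = ψ₁ u)
    (φ : H (GammaSS N₁ T) A) (hφ : IsEigen K A T₁ (dvd_of_mul_eq T₁ T₂ hTT) ψ₁ φ)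
    (P : FreeAlgebra ℤ (GoodPrime (N₁ * T * T) S))
    (hP : (evalForms P : ↥(CuspForm.heckeAlgebra (N₁ * T * T) 2 S)) = 0)
    {ℓ₀ : ℕ} [Fact ℓ₀.Prime] (hℓ₀ : ¬ ℓ₀ ∣ N₁ * T * T) (h1 : ((N₁ * T * T : ℕ) : ℤ) ∣ (ℓ₀ : ℤ) - 1)
    (hEis : ∀ Φ : H (Gamma0 (N₁ * T * T)) A,
      IsParabolicHom (Gamma0 (N₁ * T * T)) (heckeT hℓ₀ A Φ - (1 + ℓ₀) • Φ)) :
    twR hT K A T₁ T₂ ξ (evalTw K A T₁ T₂ hTT ξ P (heckeSS hℓ₀ A φ - (1 + ℓ₀) • φ)) = 0 := by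
  rw [twR_evalTw]
  obtain ⟨Φ, hΦ⟩ := exists_extension_twR hT K A T₁ T₂ hTT ψ₁ ξ hξ φ hφ
  -- `ℓ₀ ≡ 1` modulo `T₁`
  have hone : ((1 : (ZMod T₁)ˣ) : ZMod T₁) = (ℓ₀ : ZMod T₁) := by
    have h2 : (T₁ : ℤ) ∣ (ℓ₀ : ℤ) - 1 := by
      refine Dvd.dvd.trans ?_ h1
      refine ⟨(N₁ : ℤ) * T₂ * T, ?_⟩
      have hTc : (T : ℤ) = (T₁ : ℤ) * T₂ := by
        rw [← hTT]
        push_cast
        ring
      push_cast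
      rw [hTc]
      ring
    rw [Units.val_one]
    have h3 := (ZMod.intCast_zmod_eq_zero_iff_dvd _ _).mpr h2
    push_cast at h3
    exact (sub_eq_zero.mp h3).symm
  have h2 : twR hT K A T₁ T₂ ξ (heckeSS hℓ₀ A φ - (1 + ℓ₀) • φ) =
      resOp (GammaSS_le_Gamma0 (N₁ := N₁) (T := T)) A (heckeT hℓ₀ A Φ - (1 + ℓ₀) • Φ) := by
    rw [map_sub, map_nsmul, twR_heckeSS hT K A T₁ T₂ hTT ξ hℓ₀ 1 hone, map_one, Units.val_one,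
      one_smul, ← hΦ, map_sub, map_nsmul]
    congr 1
    exact heckeD_resOp_gamma0 hℓ₀ hℓ₀ (dvd_refl _) (unitsOne N₁ T)
      (GammaSS_le_Gamma0 (N₁ := N₁) (T := T)) Φ
  rw [h2, ← resOp_evalCoh, evalCoh_eq_zero P hP (hEis Φ), map_zero]

end Fermat.Agent.S43lib.B2.Bridge
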