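/-
S43lib / B2 / Bridge / TestPair (helper5).

The arithmetic input of the injectivity of the twist: for `w` prime to a prime `t₁ ∣ T₁` (and
divisible by `T₂`, `T = T₁ T₂`) and a unit `x` modulo `T₁` which is `≡ 1` modulo `T₁ / t₁`, there are
`s, s' ∈ Γ₀(N₁ T)` with `α_w s = s' α_w`, `d(s) ≡ x`, `d(s') ≡ x⁻¹` modulo `T₁`.
-/
import Mathlib
import Fermat.Agent.S43lib.B2.Bridge.Inv

set_option autoImplicit false
set_option linter.unusedSectionVars false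

noncomputable section

namespace Fermat.Agent.S43lib.B2.Bridge

open CongruenceSubgroup Matrix.SpecialLinearGroup ModularForm ModularCurve.Period
open Fermat.Agent.S41lib.HC Fermat.Agent.S16lib.LH Fermat.Agent.S29lib.H
open P2MW.S_ModularForm_heckeT_slash_eq_self_of_mem_Gamma0.ModularForm.HeckeSlashInvariance
open scoped MatrixGroups

theorem one_sub_mul_dvd {t A B C : ℤ} (hA : t ∣ 1 - A) (hB : t ∣ 1 - B) (hC : t ∣ 1 - C) :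
    t ∣ 1 - A * B * C := by
  have : 1 - A * B * C = (1 - A) * (B * C) + (1 - B) * C + (1 - C) := by ring
  rw [this]
  exact dvd_add (dvd_add (Dvd.dvd.mul_right hA _) (Dvd.dvd.mul_right hB _)) hC

theorem exists_testPair {N₁ T T₁ T₂ : ℕ} (hT : T ≠ 0) (hTT : T₁ * T₂ = T) [NeZero T₁]
    [NeZero (N₁ * T * T)] (hcop : Nat.Coprime N₁ T₁) (w : ℤ) (hwT₂ : (T₂ : ℤ) ∣ w)
    (t₁ : ℕ) (ht₁T : t₁ ∣ T₁) (hw : IsCoprime w (t₁ : ℤ))
    (x : (ZMod T₁)ˣ) (hx : ZMod.unitsMap (Nat.div_dvd_of_dvd ht₁T) x = 1) :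
    ∃ s s' : ↥(Gamma0 (N₁ * T)),
      alphaGL T w * (mapGL ℝ (s : SL(2, ℤ)) : GL (Fin 2) ℝ) =
        (mapGL ℝ (s' : SL(2, ℤ)) : GL (Fin 2) ℝ) * alphaGL T w ∧
      dT₁ (dvd_of_mul_eq T₁ T₂ hTT) s = x ∧ dT₁ (dvd_of_mul_eq T₁ T₂ hTT) s' = x⁻¹ := by
  classical
  have hTc : (T : ℤ) = (T₁ : ℤ) * T₂ := by
    rw [← hTT]
    push_cast
    ring
  have hT₁N' : T₁ ∣ N₁ * T * T := ⟨N₁ * T₂ * T, by rw [← hTT]; ring⟩
  obtain ⟨x', hx'⟩ := ZMod.unitsMap_surjective hT₁N' x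
  set d₀ : ℤ := (((x' : ZMod (N₁ * T * T)).val : ℕ) : ℤ) with hd₀
  have hd₀x : ((d₀ : ℤ) : ZMod T₁) = (x : ZMod T₁) := by
    rw [← hx', ZMod.unitsMap_val, hd₀, Int.cast_natCast, ZMod.natCast_val]
  have hcopd : IsCoprime d₀ ((N₁ * T * T : ℕ) : ℤ) := by
    rw [hd₀]
    exact Nat.isCoprime_iff_coprime.mpr (ZMod.val_coe_unit_coprime x')
  obtain ⟨a₀, b₀, hab⟩ := hcopd
  -- the quotient `q = T₁ / t₁`
  set q : ℕ := T₁ / t₁ with hq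
  have hqt : (T₁ : ℤ) = (q : ℤ) * t₁ := by
    rw [← Nat.cast_mul, hq, Nat.div_mul_cancel ht₁T]
  have hqd : (q : ℤ) ∣ d₀ - 1 := by
    have h1 := congrArg Units.val hx
    rw [ZMod.unitsMap_val, Units.val_one, ← hd₀x,
      ZMod.cast_intCast (Nat.div_dvd_of_dvd ht₁T)] at h1
    have h2 : ((d₀ : ℤ) : ZMod q) = ((1 : ℤ) : ZMod q) := by
      rw [h1, Int.cast_one]
    have h3 := (ZMod.intCast_eq_intCast_iff_dvd_sub _ _ _).mp h2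
    have h4 := h3.neg_right
    rwa [neg_sub] at h4
  have hT₁N : (T₁ : ℤ) ∣ ((N₁ * T * T : ℕ) : ℤ) := Int.natCast_dvd_natCast.mpr hT₁N'
  have hT₁T : (T₁ : ℤ) ∣ (T : ℤ) := ⟨T₂, hTc⟩
  have hqT₁ : (q : ℤ) ∣ (T₁ : ℤ) := ⟨t₁, hqt⟩
  have ht₁T₁ : (t₁ : ℤ) ∣ (T₁ : ℤ) := ⟨q, by rw [hqt]; ring⟩
  obtain ⟨w', r, hwr⟩ := hw
  obtain ⟨n', r', hnr⟩ := (Nat.isCoprime_iff_coprime.mpr hcop : IsCoprime (N₁ : ℤ) (T₁ : ℤ))
  set cL : ℤ := N₁ * n' * a₀ * (d₀ - a₀) * w' with hcL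
  set c₁ : ℤ := N₁ * T + d₀ * cL with hc₁
  let D : SL(2, ℤ) := ⟨!![a₀, -b₀; ((N₁ * T * T : ℕ) : ℤ), d₀], by
    rw [Matrix.det_fin_two_of]
    linarith⟩
  let L : SL(2, ℤ) := ⟨!![1, 0; (T : ℤ) * cL, 1], by simp [Matrix.det_fin_two_of]⟩
  set s : SL(2, ℤ) := D * L with hs
  have hs00 : s 0 0 = a₀ - b₀ * (T * cL) := by
    rw [hs, Matrix.SpecialLinearGroup.coe_mul]
    simp [D, L, Matrix.mul_apply, Fin.sum_univ_two]
    ring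
  have hs10 : s 1 0 = (T : ℤ) * c₁ := by
    rw [hs, Matrix.SpecialLinearGroup.coe_mul]
    simp [D, L, Matrix.mul_apply, Fin.sum_univ_two]
    rw [hc₁]
    ring
  have hs11 : s 1 1 = d₀ := by
    rw [hs, Matrix.SpecialLinearGroup.coe_mul]
    simp [D, L, Matrix.mul_apply, Fin.sum_univ_two]
  -- the bracket
  have hB : (T₁ : ℤ) ∣ (s 1 1 - s 0 0) - c₁ * w := by
    have h1 : (s 1 1 - s 0 0) - c₁ * w =
        (d₀ - a₀) * (1 - (a₀ * d₀) * (n' * N₁) * (w' * w)) + (T : ℤ) * (b₀ * cL - N₁ * w) := by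
      rw [hs00, hs11, hc₁, hcL]
      ring
    rw [h1]
    refine dvd_add ?_ (Dvd.dvd.mul_right hT₁T _)
    rw [hqt]
    refine mul_dvd_mul ?_ ?_
    · have h2 : d₀ - a₀ = (d₀ - 1) * (1 + a₀) - (a₀ * d₀ - 1) := by ring
      rw [h2]
      refine dvd_sub (Dvd.dvd.mul_right hqd _) ?_
      have h3 : a₀ * d₀ - 1 = -b₀ * ((N₁ * T * T : ℕ) : ℤ) := by linarith
      rw [h3]
      exact Dvd.dvd.mul_left (hqT₁.trans hT₁N) _
    · refine one_sub_mul_dvd ?_ ?_ ?_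
      · have h3 : 1 - a₀ * d₀ = b₀ * ((N₁ * T * T : ℕ) : ℤ) := by linarith
        rw [h3]
        exact Dvd.dvd.mul_left (ht₁T₁.trans hT₁N) _
      · have h3 : 1 - n' * (N₁ : ℤ) = r' * (T₁ : ℤ) := by linarith
        rw [h3]
        exact Dvd.dvd.mul_left ht₁T₁ _
      · have h3 : 1 - w' * w = r * (t₁ : ℤ) := by linarith
        rw [h3]
        exact Dvd.dvd.mul_left (dvd_refl _) _
  have hdiv : (T : ℤ) ∣ s 1 1 * w - s 0 0 * w - c₁ * w * w := by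
    obtain ⟨e, he⟩ := hB
    obtain ⟨w₁, hw₁⟩ := hwT₂
    refine ⟨w₁ * e, ?_⟩
    have : s 1 1 * w - s 0 0 * w - c₁ * w * w = w * ((s 1 1 - s 0 0) - c₁ * w) := by ring
    rw [this, he, hw₁, hTc]
    ring
  obtain ⟨κ, hrel, hκ10, hκ00, hκ11, -⟩ := alpha_mul_eq' T hT s w w c₁ hs10 hdiv
  have hNT : ((N₁ * T : ℕ) : ℤ) ∣ (T : ℤ) * c₁ := by
    refine ⟨T + d₀ * n' * a₀ * (d₀ - a₀) * w', ?_⟩
    rw [hc₁, hcL]
    push_cast
    ring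
  have hsmem : s ∈ Gamma0 (N₁ * T) := by
    rw [mem_Gamma0_iff_dvd, hs10]
    exact hNT
  have hκmem : κ ∈ Gamma0 (N₁ * T) := by
    rw [mem_Gamma0_iff_dvd, hκ10, hs10]
    exact hNT
  refine ⟨⟨s, hsmem⟩, ⟨κ, hκmem⟩, hrel, ?_, ?_⟩
  · apply Units.ext
    rw [coe_dT₁]
    show ((s 1 1 : ℤ) : ZMod T₁) = x
    rw [hs11, hd₀x]
  · apply eq_inv_of_mul_eq_one_left
    apply Units.ext
    rw [Units.val_mul, coe_dT₁, Units.val_one, ← hd₀x]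
    show ((κ 1 1 : ℤ) : ZMod T₁) * ((d₀ : ℤ) : ZMod T₁) = 1
    have h5 : (((κ 1 1 * d₀ : ℤ)) : ZMod T₁) = ((1 : ℤ) : ZMod T₁) := by
      rw [ZMod.intCast_eq_intCast_iff_dvd_sub]
      obtain ⟨e, he⟩ := hB
      have h1 : 1 - κ 1 1 * d₀ =
          -(((s 1 1 - s 0 0) - c₁ * w) * d₀) + b₀ * ((N₁ * T * T : ℕ) : ℤ) +
            (T : ℤ) * (b₀ * cL * d₀) := by
        rw [hκ11, hs00, hs11]
        linear_combination (-1 : ℤ) * hab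
      rw [h1]
      refine dvd_add (dvd_add ?_ (Dvd.dvd.mul_left hT₁N _)) (Dvd.dvd.mul_right hT₁T _)
      rw [he]
      exact ⟨-(e * d₀), by ring⟩
    rw [← Int.cast_mul, h5, Int.cast_one]

end Fermat.Agent.S43lib.B2.Bridge
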