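/-
S43lib / B2 / Bridge / Inj (helper5).

**Core-B.**  The twist `R_ξ` is injective on the eigenvectors of the conjugation action of `Γ₀(N₁ T)`
on `W = Hom(Γ**, A)` whose character `ψ₁` is primitive at every prime of `T₁` (and of odd order there:
`ψ₁(x)² ≠ 1`), `T = T₁ T₂` squarefree and prime to `N₁`.
-/
import Mathlib
import Fermat.Agent.S43lib.B2.Bridge.TestPair
import Fermat.Agent.S43lib.B2.Bridge.CoreA

set_option autoImplicit false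
set_option linter.unusedSectionVars false

noncomputable section

namespace Fermat.Agent.S43lib.B2.Bridge

open CongruenceSubgroup Matrix.SpecialLinearGroup ModularForm ModularCurve.Period
open Fermat.Agent.S41lib.HC Fermat.Agent.S16lib.LH Fermat.Agent.S29lib.H
open P2MW.S_ModularForm_heckeT_slash_eq_self_of_mem_Gamma0.ModularForm.HeckeSlashInvariance
open scoped MatrixGroups

variable {N₁ T : ℕ}

/-! ### The representation of `Γ₀(N₁ T)` on `W` -/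

theorem GammaSS_le_Gamma0' : GammaSS N₁ T ≤ Gamma0 (N₁ * T) :=
  (GammaSS_le_Gamma0 (N₁ := N₁) (T := T)).trans gamma0_sq_le

/-- `Γ**` as a subgroup of `Γ₀(N₁ T)` -/
def ssSub (N₁ T : ℕ) : Subgroup ↥(Gamma0 (N₁ * T)) := (GammaSS N₁ T).subgroupOf (Gamma0 (N₁ * T))

theorem mem_ssSub {b : ↥(Gamma0 (N₁ * T))} : b ∈ ssSub N₁ T ↔ (b : SL(2, ℤ)) ∈ GammaSS N₁ T :=
  Subgroup.mem_subgroupOf

instance ssSub_normal : (ssSub N₁ T).Normal := by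
  refine ⟨fun k hk g => ?_⟩
  rw [mem_ssSub] at hk ⊢
  have h1 := conjHom_mapGL (g : SL(2, ℤ)) (gamma0_isNorm g) ⟨(k : SL(2, ℤ)), hk⟩
  have h2 : ((g * k * g⁻¹ : ↥(Gamma0 (N₁ * T))) : SL(2, ℤ)) = (g : SL(2, ℤ)) * (k : SL(2, ℤ)) *
      (g : SL(2, ℤ))⁻¹ := by
    rw [Subgroup.coe_mul, Subgroup.coe_mul, Subgroup.coe_inv]
  rw [h2, ← h1]
  exact (conjHom _ (gamma0_isNorm g) ⟨(k : SL(2, ℤ)), hk⟩).2

instance ssSub_finiteIndex [NeZero (N₁ * T * T)] : (ssSub N₁ T).FiniteIndex :=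
  Subgroup.instFiniteIndex_subgroupOf _ _

theorem cjB_mul (b₁ b₂ : ↥(Gamma0 (N₁ * T))) {A : Type*} [AddCommGroup A]
    (φ : H (GammaSS N₁ T) A) : cjB (b₂ * b₁) A φ = cjB b₁ A (cjB b₂ A φ) := by
  unfold cjB
  rw [← conjOp_mul (mapGL ℝ (b₁ : SL(2, ℤ)) : GL (Fin 2) ℝ) (mapGL ℝ (b₂ : SL(2, ℤ)) : GL (Fin 2) ℝ)
    (gamma0_isNorm b₁) (gamma0_isNorm b₂) (conj_exists_mul _ _ (gamma0_isNorm b₁)
      (gamma0_isNorm b₂))]
  refine congrFun (congrArg DFunLike.coe (conjOp_congr _ _ ?_ _ _ A)) φ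
  rw [Subgroup.coe_mul, map_mul]

theorem cjB_of_mem (b : ↥(Gamma0 (N₁ * T))) (hb : (b : SL(2, ℤ)) ∈ GammaSS N₁ T)
    {A : Type*} [AddCommGroup A] (φ : H (GammaSS N₁ T) A) : cjB b A φ = φ :=
  conjOp_inner (⟨(b : SL(2, ℤ)), hb⟩ : ↥(GammaSS N₁ T)) (gamma0_isNorm b) φ

variable (K : Type*) [Field K] (A : Type*) [AddCommGroup A] [Module K A]

/-- `cjB b` as a linear map -/
def cjBL (b : ↥(Gamma0 (N₁ * T))) : Module.End K (H (GammaSS N₁ T) A) :=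
  (CosetData.ofHom (conjHom (mapGL ℝ (b : SL(2, ℤ)) : GL (Fin 2) ℝ) (gamma0_isNorm b))).opₗ K A

@[simp] theorem cjBL_apply (b : ↥(Gamma0 (N₁ * T))) (φ : H (GammaSS N₁ T) A) :
    cjBL K A b φ = cjB b A φ := rfl

/-- the representation `b ↦ (φ ↦ φ ∘ (b⁻¹ · b))` -/
def rhoB : ↥(Gamma0 (N₁ * T)) →* Module.End K (H (GammaSS N₁ T) A) where
  toFun b := cjBL K A b⁻¹
  map_one' := by
    refine LinearMap.ext fun φ => ?_
    rw [cjBL_apply, Module.End.one_apply]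
    exact cjB_of_mem _ (by rw [inv_one]; exact (GammaSS N₁ T).one_mem) φ
  map_mul' b₁ b₂ := by
    refine LinearMap.ext fun φ => ?_
    rw [Module.End.mul_apply, cjBL_apply, cjBL_apply, cjBL_apply, mul_inv_rev]
    exact cjB_mul b₁⁻¹ b₂⁻¹ φ

theorem rhoB_apply (b : ↥(Gamma0 (N₁ * T))) (φ : H (GammaSS N₁ T) A) :
    rhoB K A b φ = cjB b⁻¹ A φ := rfl

theorem dT₁_of_mem_GammaSS {T₁ : ℕ} (h : T₁ ∣ N₁ * T) (hT₁T : T₁ ∣ T) (b : ↥(Gamma0 (N₁ * T)))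
    (hb : (b : SL(2, ℤ)) ∈ GammaSS N₁ T) : dT₁ h b = 1 := by
  apply Units.ext
  rw [coe_dT₁, Units.val_one]
  obtain ⟨-, h2⟩ := mem_GammaSS.mp hb
  have h3 : (T₁ : ℤ) ∣ (b : SL(2, ℤ)) 1 1 - 1 := (Int.natCast_dvd_natCast.mpr hT₁T).trans h2
  have h4 := (ZMod.intCast_zmod_eq_zero_iff_dvd _ _).mpr h3
  push_cast at h4
  exact sub_eq_zero.mp h4

/-! ### Squarefree moduli -/

theorem exists_prime_not_dvd_of_squarefree {T₁ : ℕ} (hsq : Squarefree T₁) (n : ℤ)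
    (hn : ¬ (T₁ : ℤ) ∣ n) : ∃ t : ℕ, t.Prime ∧ t ∣ T₁ ∧ ¬ (t : ℤ) ∣ n := by
  by_contra hcon
  push Not at hcon
  apply hn
  rw [Int.natCast_dvd, ← Nat.prod_primeFactors_of_squarefree hsq]
  refine Finset.prod_primes_dvd _ ?_ ?_
  · intro p hp
    exact (Nat.prime_of_mem_primeFactors hp).prime
  · intro p hp
    have := hcon p (Nat.prime_of_mem_primeFactors hp) (Nat.dvd_of_mem_primeFactors hp)
    rwa [Int.natCast_dvd] at this

/-! ### Core-B -/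

variable (hT : T ≠ 0) (T₁ T₂ : ℕ) [NeZero T₁]

/-- **Core-B** -/
theorem coreB [CharZero K] [NeZero (N₁ * T * T)] (hTT : T₁ * T₂ = T) (hsq : Squarefree T)
    (hcop : Nat.Coprime N₁ T₁) (ψ₁ ξ : (ZMod T₁)ˣ →* Kˣ)
    (hprim : ∀ (t : ℕ) (ht : t ∣ T₁), t.Prime →
      ∃ x : (ZMod T₁)ˣ, ZMod.unitsMap (Nat.div_dvd_of_dvd ht) x = 1 ∧ ψ₁ x * ψ₁ x ≠ 1)
    (φ : H (GammaSS N₁ T) A) (hφ : IsEigen K A T₁ (dvd_of_mul_eq T₁ T₂ hTT) ψ₁ φ)
    (h0 : twR hT K A T₁ T₂ ξ φ = 0) : φ = 0 := by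
  classical
  have hdv := dvd_of_mul_eq (N₁ := N₁) T₁ T₂ hTT
  have hT₁T : T₁ ∣ T := Dvd.intro _ hTT
  obtain ⟨hcopT, hsq₁, -⟩ := Nat.squarefree_mul_iff.mp (hTT ▸ hsq : Squarefree (T₁ * T₂))
  letI : Fintype (↥(Gamma0 (N₁ * T)) ⧸ ssSub N₁ T) := Subgroup.fintypeQuotientOfFiniteIndex
  -- the character
  set Ψ : ↥(Gamma0 (N₁ * T)) →* Kˣ := (ψ₁.comp (dT₁ hdv))⁻¹ with hΨ
  have hΨ_apply : ∀ b, Ψ b = (ψ₁ (dT₁ hdv b))⁻¹ := fun b => rfl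
  -- the test pairs
  have hpairs : ∀ u : (ZMod T₁)ˣ, u ≠ 1 → ∃ s s' : ↥(Gamma0 (N₁ * T)),
      alphaGL T ((T₂ : ℤ) * (uLift u - uLift (1 : (ZMod T₁)ˣ))) *
          (mapGL ℝ (s : SL(2, ℤ)) : GL (Fin 2) ℝ) =
        (mapGL ℝ (s' : SL(2, ℤ)) : GL (Fin 2) ℝ) *
          alphaGL T ((T₂ : ℤ) * (uLift u - uLift (1 : (ZMod T₁)ˣ))) ∧
      ψ₁ (dT₁ hdv s) ≠ ψ₁ (dT₁ hdv s') := by
    intro u hu
    have hnd : ¬ (T₁ : ℤ) ∣ uLift u - uLift (1 : (ZMod T₁)ˣ) := by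
      intro h
      apply hu
      apply Units.ext
      have h2 := (ZMod.intCast_zmod_eq_zero_iff_dvd _ _).mpr h
      push_cast at h2
      rw [uLift_cast, uLift_cast] at h2
      exact sub_eq_zero.mp h2
    obtain ⟨t₁, ht₁, ht₁T, ht₁n⟩ := exists_prime_not_dvd_of_squarefree hsq₁ _ hnd
    have ht₁T₂ : ¬ (t₁ : ℤ) ∣ (T₂ : ℤ) := by
      intro h
      have h2 : t₁ ∣ T₂ := Int.natCast_dvd_natCast.mp h
      have h3 : t₁ ∣ Nat.gcd T₁ T₂ := Nat.dvd_gcd ht₁T h2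
      rw [hcopT] at h3
      exact ht₁.one_lt.ne' (Nat.dvd_one.mp h3)
    have hw : IsCoprime ((T₂ : ℤ) * (uLift u - uLift (1 : (ZMod T₁)ˣ))) (t₁ : ℤ) := by
      have hp : Prime (t₁ : ℤ) := Nat.prime_iff_prime_int.mp ht₁
      refine ((Prime.coprime_iff_not_dvd hp).mpr ?_).symm
      intro h
      rcases hp.dvd_or_dvd h with h | h
      · exact ht₁T₂ h
      · exact ht₁n h
    obtain ⟨x, hx1, hx2⟩ := hprim t₁ ht₁T ht₁
    obtain ⟨s, s', hrel, hs, hs'⟩ := exists_testPair (N₁ := N₁) hT hTT hcop _ (Dvd.intro _ rfl)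
      t₁ ht₁T hw x hx1
    refine ⟨s, s', hrel, ?_⟩
    rw [hs, hs', map_inv]
    intro h
    apply hx2
    rw [mul_eq_one_iff_eq_inv]
    exact h
  choose! sf sf' hsf using hpairs
  -- the relation
  have hrel : (1 : K) • φ + ∑ u ∈ (Finset.univ : Finset (ZMod T₁)ˣ).erase 1,
      ((ξ u : Kˣ) : K) • twAL hT K A ((T₂ : ℤ) * (uLift u - uLift (1 : (ZMod T₁)ˣ))) φ = 0 := by
    have h1 := congrArg (twA hT (-((T₂ : ℤ) * uLift (1 : (ZMod T₁)ˣ))) A) h0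
    rw [twR_apply, map_sum, map_zero] at h1
    have h2 : ∀ u : (ZMod T₁)ˣ, twA hT (-((T₂ : ℤ) * uLift (1 : (ZMod T₁)ˣ))) A
        (((ξ u : Kˣ) : K) • twA hT (T₂ * uLift u) A φ) =
        ((ξ u : Kˣ) : K) • twAL hT K A ((T₂ : ℤ) * (uLift u - uLift (1 : (ZMod T₁)ˣ))) φ := by
      intro u
      rw [twA_smul hT K A, twAL_apply, ← twA_add]
      congr 2
      ring
    rw [Finset.sum_congr rfl fun u _ => h2 u,
      ← Finset.add_sum_erase Finset.univ _ (Finset.mem_univ (1 : (ZMod T₁)ˣ))] at h1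
    rw [map_one, Units.val_one, sub_self, mul_zero, twAL_apply, twA_zero] at h1
    exact h1
  refine eq_zero_of_eigen_relation (ssSub N₁ T) (rhoB K A) ?_ Ψ ?_ ?_ φ ?_
    ((Finset.univ : Finset (ZMod T₁)ˣ).erase 1)
    (fun u => twAL hT K A ((T₂ : ℤ) * (uLift u - uLift (1 : (ZMod T₁)ˣ))))
    (fun u => (sf u)⁻¹) (fun u => (sf' u)⁻¹) ?_ ?_ 1 one_ne_zero
    (fun u => ((ξ u : Kˣ) : K)) hrel
  · -- trivial on `Γ**`
    intro b hb
    refine LinearMap.ext fun v => ?_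
    rw [rhoB_apply, Module.End.one_apply]
    exact cjB_of_mem _ (by
      rw [Subgroup.coe_inv]
      exact (GammaSS N₁ T).inv_mem (mem_ssSub.mp hb)) v
  · intro b hb
    rw [hΨ_apply, dT₁_of_mem_GammaSS hdv hT₁T b (mem_ssSub.mp hb), map_one, inv_one]
  · exact Nat.cast_ne_zero.mpr Fintype.card_ne_zero
  · -- eigenvector
    intro b
    rw [rhoB_apply, hφ b⁻¹, hΨ_apply, map_inv, map_inv]
  · -- the commutation with the test pairs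
    intro u hu
    have hu1 : u ≠ 1 := Finset.ne_of_mem_erase hu
    rw [rhoB_apply, rhoB_apply, inv_inv, inv_inv, twAL_apply]
    exact cjB_twA hT (sf u) (sf' u) _ _ (hsf u hu1).1 φ
  · intro u hu
    have hu1 : u ≠ 1 := Finset.ne_of_mem_erase hu
    rw [hΨ_apply, hΨ_apply, map_inv, map_inv, map_inv, map_inv, inv_inv, inv_inv]
    exact (hsf u hu1).2

end Fermat.Agent.S43lib.B2.Bridge
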