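/-
S43lib / B2 / Bridge / Main (helper5).

**BRIDGE, core form.**  `T = T₁ T₂` squarefree, `N₁` prime to `T₁`, `K` a field of characteristic zero,
`ψ₁` a character of `(ℤ/T₁)ˣ` primitive at every prime of `T₁` with `ψ₁(x)² ≠ 1` there, `ξ² = ψ₁`.
Let `φ ∈ W = Hom(Γ₀(N₁ T²) ∩ Γ₁(T), A)` be an eigenvector of the conjugation action of `Γ₀(N₁ T)`
(`φ(b γ b⁻¹) = ψ₁(d_b) φ(γ)`), `ℓ₀ ≡ 1` modulo `N₁ T²` a prime and `P` a relation between the Hecke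
operators `T_ℓ` (`ℓ ∤ N₁ T`, `ℓ ∉ S`) of the weight two cusp forms of level `N₁ T²`.  If
`φ₂ = P(ξ(ℓ)⁻¹ T_ℓ) (T_{ℓ₀} - 1 - ℓ₀) φ` is again an eigenvector, then `φ₂ = 0`.
-/
import Mathlib
import Fermat.Agent.S43lib.B2.Bridge.Inj
import Fermat.Agent.S43lib.B2.Bridge.Eis

set_option autoImplicit false
set_option linter.unusedSectionVars false

noncomputable section

namespace Fermat.Agent.S43lib.B2.Bridge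

open CongruenceSubgroup Matrix.SpecialLinearGroup ModularForm ModularCurve.Period
open Fermat.Agent.S41lib.HC Fermat.Agent.S16lib.LH Fermat.Agent.S29lib.H
open scoped MatrixGroups

variable {N₁ T : ℕ} {S : Set ℕ} (hT : T ≠ 0)
variable (K : Type*) [Field K] [CharZero K] (A : Type*) [AddCommGroup A] [Module K A]
  [IsAddTorsionFree A]
variable (T₁ T₂ : ℕ) [NeZero T₁] [NeZero (N₁ * T * T)]

include hT in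
/-- **BRIDGE (core form)** -/
theorem bridge_core (hTT : T₁ * T₂ = T) (hsq : Squarefree T) (hcop : Nat.Coprime N₁ T₁)
    (ψ₁ ξ : (ZMod T₁)ˣ →* Kˣ) (hξ : ∀ u, ξ u * ξ u = ψ₁ u)
    (hprim : ∀ (t : ℕ) (ht : t ∣ T₁), t.Prime →
      ∃ x : (ZMod T₁)ˣ, ZMod.unitsMap (Nat.div_dvd_of_dvd ht) x = 1 ∧ ψ₁ x * ψ₁ x ≠ 1)
    (P : FreeAlgebra ℤ (GoodPrime (N₁ * T * T) S))
    (hP : (evalForms P : ↥(CuspForm.heckeAlgebra (N₁ * T * T) 2 S)) = 0)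
    {ℓ₀ : ℕ} [Fact ℓ₀.Prime] (hℓ₀ : ¬ ℓ₀ ∣ N₁ * T * T) (h1 : ((N₁ * T * T : ℕ) : ℤ) ∣ (ℓ₀ : ℤ) - 1)
    (φ : H (GammaSS N₁ T) A) (hφ : IsEigen K A T₁ (dvd_of_mul_eq T₁ T₂ hTT) ψ₁ φ)
    (hφ₂ : IsEigen K A T₁ (dvd_of_mul_eq T₁ T₂ hTT) ψ₁
      (evalTw K A T₁ T₂ hTT ξ P (heckeSS hℓ₀ A φ - (1 + ℓ₀) • φ))) :
    evalTw K A T₁ T₂ hTT ξ P (heckeSS hℓ₀ A φ - (1 + ℓ₀) • φ) = 0 :=
  coreB K A hT T₁ T₂ hTT hsq hcop ψ₁ ξ hprim _ hφ₂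
    (coreA hT K A T₁ T₂ hTT ψ₁ ξ hξ φ hφ P hP hℓ₀ h1
      (fun Φ => heckeT_sub_isParabolicHom hℓ₀ h1 Φ))

end Fermat.Agent.S43lib.B2.Bridge
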