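/-
S43lib / B2 / Bridge / ToB1 (helper5).

**BRIDGE in the language of `S43lib/B1`.**  `M = N₁ T`, `T = T₁ T₂` squarefree, `π = levelPi χ`,
`W` a vector space over a field `K` of characteristic zero on which `G` acts through a character
`ψ₁` of `(ℤ/T₁)ˣ` (primitive at every prime of `T₁`, `ψ₁(x)² ≠ 1` there), `ξ² = ψ₁`.  Then for every class
`x ∈ H¹(Γ₀(M), W)` (crossed homomorphisms for `π`), every prime `ℓ₀ ≡ 1` modulo `N₁ T²` and every relation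
`P` of the Hecke algebra of weight two cusp forms of level `N₁ T²`:
`P(ξ(ℓ)⁻¹ T_ℓ) (T_{ℓ₀} - 1 - ℓ₀) x = 0`.
-/
import Mathlib
import Fermat.Agent.S43lib.B1.Level
import Fermat.Agent.S43lib.B2.Bridge.Main
import Fermat.Agent.S43lib.B2.Bridge.CocRes

set_option autoImplicit false
set_option linter.unusedSectionVars false

noncomputable section

namespace Fermat.Agent.S43lib.B2.Bridge

open CongruenceSubgroup Matrix.SpecialLinearGroup ModularForm ModularCurve.Period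
open Fermat.Agent.S41lib.HC Fermat.Agent.S16lib.LH Fermat.Agent.S29lib.H
open scoped MatrixGroups

/-! ### Generalities on crossed homomorphisms -/

section Crossed

variable {Γ G : Type*} [Group Γ] [Group G] {π : Γ →* G}
variable {R : Type*} [CommRing R] {W : Type*} [AddCommGroup W] [Module R W] [DistribMulAction G W]
  [SMulCommClass G R W]

theorem Z1_conj {f : Γ → W} (hf : f ∈ B1.Z1 π R W) (b g : Γ) (hg : ∀ w : W, π g • w = w) :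
    f (b * g * b⁻¹) = π b • f g := by
  rw [hf, hf, B1.Z1_inv hf, map_mul, mul_smul, hg, smul_neg, smul_inv_smul]
  abel

theorem Z1_conj_triple {f : Γ → W} (hf : f ∈ B1.Z1 π R W) (d c d' : Γ) (hd : π d = 1)
    (hd' : π d' = 1) (hc : ∀ w : W, π c • w = w) :
    f (d * c * d'⁻¹) = f d + f c - f d' := by
  rw [hf, hf, B1.Z1_inv hf, map_mul, mul_smul, hc, hd, hd', one_smul, inv_one, one_smul, one_smul]
  abel

end Crossed

variable {N₁ T : ℕ} [NeZero (N₁ * T)] {S : Set ℕ}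
variable {G : Type*} [Group G] (χ : (ZMod (N₁ * T))ˣ →* G)
variable (K : Type*) [Field K] (W : Type*) [AddCommGroup W] [Module K W] [DistribMulAction G W]
  [SMulCommClass G K W]
variable (T₁ T₂ : ℕ) [NeZero T₁]

theorem unitHom_eq_dUnit (b : ↥(Gamma0 (N₁ * T))) : B1.unitHom (N₁ * T) b = dUnit (N₁ * T) b :=
  Units.ext rfl

/-- the action of `G` on `W` is through the character `ψ₁ ∘ (mod T₁)` of `(ℤ/M)ˣ` -/
def ActsThrough (hdv : T₁ ∣ N₁ * T) (ψ₁ : (ZMod T₁)ˣ →* Kˣ) : Prop :=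
  ∀ (u : (ZMod (N₁ * T))ˣ) (w : W), χ u • w = ((ψ₁ (ZMod.unitsMap hdv u) : Kˣ) : K) • w

variable {χ K W T₁}

theorem levelPi_smul {hdv : T₁ ∣ N₁ * T} {ψ₁ : (ZMod T₁)ˣ →* Kˣ}
    (hW : ActsThrough χ K W T₁ hdv ψ₁) (b : ↥(Gamma0 (N₁ * T))) (w : W) :
    B1.levelPi χ b • w = ((ψ₁ (dT₁ hdv b) : Kˣ) : K) • w := by
  rw [B1.levelPi_apply, hW, unitHom_eq_dUnit]
  rfl

theorem levelPi_smul_of_mem {hdv : T₁ ∣ N₁ * T} {ψ₁ : (ZMod T₁)ˣ →* Kˣ}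
    (hW : ActsThrough χ K W T₁ hdv ψ₁) (hT₁T : T₁ ∣ T) (γ : ↥(GammaSS N₁ T)) (w : W) :
    B1.levelPi χ (Subgroup.inclusion GammaSS_le_Gamma0' γ) • w = w := by
  rw [levelPi_smul hW, dT₁_of_mem_GammaSS hdv hT₁T _ γ.2, map_one, Units.val_one, one_smul]

/-! ### Restriction of crossed homomorphisms to `Γ**` -/

/-- `f ↦ f|Γ**`, a homomorphism since `Γ**` acts trivially on `W` -/
def resSS {hdv : T₁ ∣ N₁ * T} {ψ₁ : (ZMod T₁)ˣ →* Kˣ} (hW : ActsThrough χ K W T₁ hdv ψ₁)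
    (hT₁T : T₁ ∣ T) : ↥(B1.Z1 (B1.levelPi χ) K W) →ₗ[K] H (GammaSS N₁ T) W where
  toFun f := AddMonoidHom.mk'
    (fun a => (f : ↥(Gamma0 (N₁ * T)) → W)
      (Subgroup.inclusion GammaSS_le_Gamma0' (Additive.toMul a))) (by
    intro a b
    show (f : ↥(Gamma0 (N₁ * T)) → W) (Subgroup.inclusion GammaSS_le_Gamma0'
      (Additive.toMul a * Additive.toMul b)) = _
    rw [map_mul, f.2, levelPi_smul_of_mem hW hT₁T])
  map_add' f f' := by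
    refine AddMonoidHom.ext fun a => ?_
    rfl
  map_smul' c f := by
    refine AddMonoidHom.ext fun a => ?_
    rfl

theorem resSS_apply {hdv : T₁ ∣ N₁ * T} {ψ₁ : (ZMod T₁)ˣ →* Kˣ}
    (hW : ActsThrough χ K W T₁ hdv ψ₁) (hT₁T : T₁ ∣ T) (f : ↥(B1.Z1 (B1.levelPi χ) K W))
    (γ : ↥(GammaSS N₁ T)) :
    resSS hW hT₁T f (Additive.ofMul γ) =
      (f : ↥(Gamma0 (N₁ * T)) → W) (Subgroup.inclusion GammaSS_le_Gamma0' γ) := rfl

/-- **(a)** the restriction is an eigenvector -/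
theorem resSS_isEigen (hTT : T₁ * T₂ = T) {ψ₁ : (ZMod T₁)ˣ →* Kˣ}
    (hW : ActsThrough χ K W T₁ (dvd_of_mul_eq T₁ T₂ hTT) ψ₁)
    (f : ↥(B1.Z1 (B1.levelPi χ) K W)) :
    IsEigen K W T₁ (dvd_of_mul_eq T₁ T₂ hTT) ψ₁ (resSS hW (Dvd.intro _ hTT) f) := by
  intro b
  refine AddMonoidHom.ext fun a => ?_
  obtain ⟨γ, rfl⟩ : ∃ γ : ↥(GammaSS N₁ T), Additive.ofMul γ = a := ⟨Additive.toMul a, rfl⟩
  unfold cjB
  rw [conjOp_apply, resSS_apply, AddMonoidHom.smul_apply, resSS_apply]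
  have h1 : Subgroup.inclusion GammaSS_le_Gamma0'
      (conjHom (mapGL ℝ (b : SL(2, ℤ)) : GL (Fin 2) ℝ) (gamma0_isNorm b) γ) =
      b * Subgroup.inclusion GammaSS_le_Gamma0' γ * b⁻¹ := by
    apply Subtype.ext
    rw [Subgroup.coe_mul, Subgroup.coe_mul, Subgroup.coe_inv]
    exact conjHom_mapGL (b : SL(2, ℤ)) (gamma0_isNorm b) γ
  rw [h1, Z1_conj f.2 b _ (levelPi_smul_of_mem hW (Dvd.intro _ hTT) γ), levelPi_smul hW]

/-! ### Compatibility with the Hecke operators -/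

section Hecke

variable {ℓ : ℕ} [Fact ℓ.Prime] (hℓ : ¬ ℓ ∣ N₁ * T * T)

include hℓ in
theorem not_dvd_lvl : ¬ ℓ ∣ N₁ * T := fun h => hℓ (Dvd.dvd.mul_right h T)

/-- the equivariance of helper3's normalised datum of `T_ℓ` -/
theorem nData_equi : B1.CosetData.IsEquivariant (B1.levelPi χ) (B1.nData (not_dvd_lvl hℓ)) :=
  B1.isEquivariant_levelPi χ (B1.nData_equivariant (not_dvd_lvl hℓ))

/-- the correcting elements `δ_y = σ_ℓ^{(N')} (σ_ℓ^{(M)})⁻¹` (`y = ∞`), `1` (`y` finite) -/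
def corrDelta (y : OnePoint (ZMod ℓ)) : ↥(Gamma0 (N₁ * T)) :=
  Subgroup.inclusion gamma0_sq_le (sN hℓ y) * (B1.nDelta (not_dvd_lvl hℓ) y)⁻¹

theorem levelPi_corrDelta (y : OnePoint (ZMod ℓ)) : B1.levelPi χ (corrDelta hℓ y) = 1 := by
  have h0 : B1.unitHom (N₁ * T) (corrDelta hℓ y) = 1 := by
    unfold corrDelta
    rw [map_mul, map_inv, mul_inv_eq_one]
    induction y using OnePoint.rec with
    | infty =>
      rw [sN_infty, B1.nDelta_infty, B1.unitHom_apply, B1.unitHom_apply,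
        Fermat.Agent.S48lib.W1.gamma0Unit_unitRep]
      apply Units.ext
      rw [Fermat.Agent.S48lib.W1.coe_gamma0Unit, B1.coe_ellUnit]
      have h2 : Gamma0Map (N₁ * T * T) (sigmaL hℓ) = (((ℓ : ℕ) : ℤ) : ZMod (N₁ * T * T)) := by
        rw [Int.cast_natCast]
        exact gamma0Map_sigmaL hℓ
      have h3 := gamma0Map_inclusion_of_dvd (Dvd.intro T rfl : N₁ * T ∣ N₁ * T * T) (sigmaL hℓ) _ h2
      rw [Int.cast_natCast] at h3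
      exact h3
    | coe j =>
      rw [sN_coe, B1.nDelta_coe, map_one]
  rw [B1.levelPi_apply, h0, map_one]

/-- the two cocycles differ by the correcting elements -/
theorem incl_tDataD_c (γ : ↥(GammaSS N₁ T)) (y : OnePoint (ZMod ℓ)) :
    Subgroup.inclusion GammaSS_le_Gamma0' ((tDataD hℓ (unitsOne N₁ T)).c γ y) =
      corrDelta hℓ y *
        (B1.nData (not_dvd_lvl hℓ)).c (Subgroup.inclusion GammaSS_le_Gamma0' γ) y *
        (corrDelta hℓ (tPerm ℓ (Subgroup.inclusion GammaSS_le_Gamma0' γ) y))⁻¹ := by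
  set g : ↥(Gamma0 (N₁ * T)) := Subgroup.inclusion GammaSS_le_Gamma0' γ with hg
  set g' : ↥(Gamma0 (N₁ * T * T)) := toGamma0 (unitsOne N₁ T) γ with hg'
  have hperm : tPerm ℓ g' y = tPerm ℓ g y := rfl
  -- the unnormalised cocycles agree
  have htc : Subgroup.inclusion gamma0_sq_le (tCoc hℓ g' y) = tCoc (not_dvd_lvl hℓ) g y := by
    apply Subtype.ext
    have h1 := tCoc_rel hℓ g' y
    exact (tCoc_unique (not_dvd_lvl hℓ) g y (tPerm ℓ g' y) _ h1).2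
  have h1 : Subgroup.inclusion GammaSS_le_Gamma0' ((tDataD hℓ (unitsOne N₁ T)).c γ y) =
      Subgroup.inclusion gamma0_sq_le ((tDataN hℓ).c g' y) := Subtype.ext rfl
  rw [h1, tDataN_c, map_mul, map_mul, map_inv, htc, hperm]
  show _ = corrDelta hℓ y * (B1.nDelta (not_dvd_lvl hℓ) y * tCoc (not_dvd_lvl hℓ) g y *
    (B1.nDelta (not_dvd_lvl hℓ) (tPerm ℓ g y))⁻¹) * (corrDelta hℓ (tPerm ℓ g y))⁻¹
  unfold corrDelta
  group

theorem heckeSS_apply {A : Type*} [AddCommGroup A] (φ : H (GammaSS N₁ T) A) (γ : ↥(GammaSS N₁ T)) :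
    heckeSS hℓ A φ (Additive.ofMul γ) =
      ∑ y, φ (Additive.ofMul ((tDataD hℓ (unitsOne N₁ T)).c γ y)) := rfl

/-- **(b)** restriction commutes with `T_ℓ` -/
theorem resSS_heckeZ {hdv : T₁ ∣ N₁ * T} {ψ₁ : (ZMod T₁)ˣ →* Kˣ}
    (hW : ActsThrough χ K W T₁ hdv ψ₁) (hT₁T : T₁ ∣ T) (f : ↥(B1.Z1 (B1.levelPi χ) K W)) :
    resSS hW hT₁T (B1.heckeZ K W (nData_equi (χ := χ) hℓ) f) =
      heckeSS hℓ W (resSS hW hT₁T f) := by
  refine AddMonoidHom.ext fun a => ?_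
  obtain ⟨γ, rfl⟩ : ∃ γ : ↥(GammaSS N₁ T), Additive.ofMul γ = a := ⟨Additive.toMul a, rfl⟩
  rw [resSS_apply, B1.heckeZ_coe, B1.heckeFun_apply]
  rw [heckeSS_apply]
  set g : ↥(Gamma0 (N₁ * T)) := Subgroup.inclusion GammaSS_le_Gamma0' γ with hg
  have key : ∀ y : OnePoint (ZMod ℓ),
      resSS hW hT₁T f (Additive.ofMul ((tDataD hℓ (unitsOne N₁ T)).c γ y)) =
        (f : ↥(Gamma0 (N₁ * T)) → W) (corrDelta hℓ y) +
          (f : ↥(Gamma0 (N₁ * T)) → W) ((B1.nData (not_dvd_lvl hℓ)).c g y) -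
          (f : ↥(Gamma0 (N₁ * T)) → W) (corrDelta hℓ (tPerm ℓ g y)) := by
    intro y
    rw [resSS_apply, incl_tDataD_c]
    refine Z1_conj_triple f.2 _ _ _ (levelPi_corrDelta hℓ y) (levelPi_corrDelta hℓ _) ?_
    intro w
    rw [nData_equi (χ := χ) hℓ g y]
    exact levelPi_smul_of_mem hW hT₁T γ w
  rw [Finset.sum_congr rfl fun y _ => key y, Finset.sum_sub_distrib, Finset.sum_add_distrib]
  have hperm : ∑ y : OnePoint (ZMod ℓ),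
      (f : ↥(Gamma0 (N₁ * T)) → W) (corrDelta hℓ (tPerm ℓ g y)) =
      ∑ y : OnePoint (ZMod ℓ), (f : ↥(Gamma0 (N₁ * T)) → W) (corrDelta hℓ y) :=
    Equiv.sum_comp (tPerm ℓ g) (fun y => (f : ↥(Gamma0 (N₁ * T)) → W) (corrDelta hℓ y))
  rw [hperm]
  abel

end Hecke

/-! ### (c) injectivity of the restriction on `H¹` -/

theorem mk_eq_zero_of_resSS_eq_zero [CharZero K] [NeZero (N₁ * T * T)] {hdv : T₁ ∣ N₁ * T}
    {ψ₁ : (ZMod T₁)ˣ →* Kˣ} (hW : ActsThrough χ K W T₁ hdv ψ₁) (hT₁T : T₁ ∣ T)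
    (f : ↥(B1.Z1 (B1.levelPi χ) K W)) (h0 : resSS hW hT₁T f = 0) :
    B1.H1.mk (B1.levelPi χ) K W f = 0 := by
  rw [B1.H1.mk_eq_zero_iff]
  refine exists_coboundary_of_restrict_eq_zero (B1.levelPi χ) (ssSub N₁ T) _ f.2 ?_
  intro γ hγ
  have h1 := congrFun (congrArg DFunLike.coe h0) (Additive.ofMul (⟨(γ : SL(2, ℤ)), mem_ssSub.mp hγ⟩ :
    ↥(GammaSS N₁ T)))
  rw [resSS_apply] at h1
  exact h1

/-! ### The evaluations on crossed homomorphisms and on `H¹` -/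

section Eval

variable (χ K W T₁)
variable (hTT : T₁ * T₂ = T) (ξ : (ZMod T₁)ˣ →* Kˣ)

/-- `ξ(ℓ)⁻¹ T_ℓ` on crossed homomorphisms -/
def heckeZOp (ℓ : GoodPrime (N₁ * T * T) S) : Module.End ℤ ↥(B1.Z1 (B1.levelPi χ) K W) :=
  haveI : Fact ℓ.1.Prime := ⟨ℓ.2.1⟩
  ((((ξ (goodUnit T₁ T₂ hTT ℓ))⁻¹ : Kˣ) : K) •
    B1.heckeZ K W (nData_equi (χ := χ) ℓ.2.2.1)).toAddMonoidHom.toIntLinearMap

theorem heckeZOp_apply (ℓ : GoodPrime (N₁ * T * T) S) (f : ↥(B1.Z1 (B1.levelPi χ) K W)) :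
    heckeZOp χ K W T₁ T₂ hTT ξ ℓ f = (haveI : Fact ℓ.1.Prime := ⟨ℓ.2.1⟩;
      (((ξ (goodUnit T₁ T₂ hTT ℓ))⁻¹ : Kˣ) : K) •
        B1.heckeZ K W (nData_equi (χ := χ) ℓ.2.2.1) f) := rfl

/-- `ξ(ℓ)⁻¹ T_ℓ` on `H¹` -/
def heckeHOp (ℓ : GoodPrime (N₁ * T * T) S) : Module.End ℤ (B1.H1 (B1.levelPi χ) K W) :=
  haveI : Fact ℓ.1.Prime := ⟨ℓ.2.1⟩
  ((((ξ (goodUnit T₁ T₂ hTT ℓ))⁻¹ : Kˣ) : K) •
    B1.heckeH K W (nData_equi (χ := χ) ℓ.2.2.1)).toAddMonoidHom.toIntLinearMap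

theorem heckeHOp_apply (ℓ : GoodPrime (N₁ * T * T) S) (x : B1.H1 (B1.levelPi χ) K W) :
    heckeHOp χ K W T₁ T₂ hTT ξ ℓ x = (haveI : Fact ℓ.1.Prime := ⟨ℓ.2.1⟩;
      (((ξ (goodUnit T₁ T₂ hTT ℓ))⁻¹ : Kˣ) : K) •
        B1.heckeH K W (nData_equi (χ := χ) ℓ.2.2.1) x) := rfl

/-- evaluation at the twisted operators on crossed homomorphisms -/
def evalZ : FreeAlgebra ℤ (GoodPrime (N₁ * T * T) S) →ₐ[ℤ]
    Module.End ℤ ↥(B1.Z1 (B1.levelPi χ) K W) :=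
  FreeAlgebra.lift ℤ (heckeZOp χ K W T₁ T₂ hTT ξ)

/-- evaluation at the twisted operators on `H¹` -/
def evalH : FreeAlgebra ℤ (GoodPrime (N₁ * T * T) S) →ₐ[ℤ]
    Module.End ℤ (B1.H1 (B1.levelPi χ) K W) :=
  FreeAlgebra.lift ℤ (heckeHOp χ K W T₁ T₂ hTT ξ)

theorem mk_evalZ (P : FreeAlgebra ℤ (GoodPrime (N₁ * T * T) S))
    (f : ↥(B1.Z1 (B1.levelPi χ) K W)) :
    B1.H1.mk (B1.levelPi χ) K W (evalZ χ K W T₁ T₂ hTT ξ P f) =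
      evalH χ K W T₁ T₂ hTT ξ P (B1.H1.mk (B1.levelPi χ) K W f) := by
  refine lift_intertwine (heckeZOp χ K W T₁ T₂ hTT ξ) (heckeHOp χ K W T₁ T₂ hTT ξ)
    (B1.H1.mk (B1.levelPi χ) K W).toAddMonoidHom ?_ P f
  intro ℓ v
  have : Fact ℓ.1.Prime := ⟨ℓ.2.1⟩
  show B1.H1.mk (B1.levelPi χ) K W (heckeZOp χ K W T₁ T₂ hTT ξ ℓ v) =
    heckeHOp χ K W T₁ T₂ hTT ξ ℓ (B1.H1.mk (B1.levelPi χ) K W v)
  rw [heckeZOp_apply, heckeHOp_apply, map_smul, B1.heckeH_mk]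

variable {χ K W T₁}

theorem resSS_evalZ {ψ₁' : (ZMod T₁)ˣ →* Kˣ}
    (hW : ActsThrough χ K W T₁ (dvd_of_mul_eq T₁ T₂ hTT) ψ₁')
    (P : FreeAlgebra ℤ (GoodPrime (N₁ * T * T) S)) (f : ↥(B1.Z1 (B1.levelPi χ) K W)) :
    resSS hW (Dvd.intro _ hTT) (evalZ χ K W T₁ T₂ hTT ξ P f) =
      evalTw K W T₁ T₂ hTT ξ P (resSS hW (Dvd.intro _ hTT) f) := by
  refine lift_intertwine (heckeZOp χ K W T₁ T₂ hTT ξ) (heckeTwOp K W T₁ T₂ hTT ξ)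
    (resSS hW (Dvd.intro _ hTT)).toAddMonoidHom ?_ P f
  intro ℓ v
  have : Fact ℓ.1.Prime := ⟨ℓ.2.1⟩
  show resSS hW (Dvd.intro _ hTT) (heckeZOp χ K W T₁ T₂ hTT ξ ℓ v) =
    heckeTwOp K W T₁ T₂ hTT ξ ℓ (resSS hW (Dvd.intro _ hTT) v)
  rw [heckeZOp_apply, heckeTwOp_apply, map_smul, resSS_heckeZ]

end Eval

/-! ### BRIDGE on `H¹` -/

/-- **BRIDGE on `H¹(Γ₀(N₁ T), W)`** -/
theorem bridge_H1 [CharZero K] [IsAddTorsionFree W] [NeZero (N₁ * T * T)] (hTT : T₁ * T₂ = T)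
    (hsq : Squarefree T) (hcop : Nat.Coprime N₁ T₁) (ψ₁ ξ : (ZMod T₁)ˣ →* Kˣ)
    (hξ : ∀ u, ξ u * ξ u = ψ₁ u)
    (hprim : ∀ (t : ℕ) (ht : t ∣ T₁), t.Prime →
      ∃ x : (ZMod T₁)ˣ, ZMod.unitsMap (Nat.div_dvd_of_dvd ht) x = 1 ∧ ψ₁ x * ψ₁ x ≠ 1)
    (hW : ActsThrough χ K W T₁ (dvd_of_mul_eq T₁ T₂ hTT) ψ₁)
    (P : FreeAlgebra ℤ (GoodPrime (N₁ * T * T) S))
    (hP : (evalForms P : ↥(CuspForm.heckeAlgebra (N₁ * T * T) 2 S)) = 0)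
    {ℓ₀ : ℕ} [Fact ℓ₀.Prime] (hℓ₀ : ¬ ℓ₀ ∣ N₁ * T * T) (h1 : ((N₁ * T * T : ℕ) : ℤ) ∣ (ℓ₀ : ℤ) - 1)
    (x : B1.H1 (B1.levelPi χ) K W) :
    evalH χ K W T₁ T₂ hTT ξ P
      (B1.heckeH K W (nData_equi (χ := χ) hℓ₀) x - (1 + ℓ₀) • x) = 0 := by
  have hT : T ≠ 0 := fun h => NeZero.ne (N₁ * T) (by rw [h, mul_zero])
  obtain ⟨f, rfl⟩ := B1.H1.mk_surjective (B1.levelPi χ) K W x
  set f₁ : ↥(B1.Z1 (B1.levelPi χ) K W) :=
    B1.heckeZ K W (nData_equi (χ := χ) hℓ₀) f - (1 + ℓ₀) • f with hf₁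
  have e1 : B1.heckeH K W (nData_equi (χ := χ) hℓ₀) (B1.H1.mk (B1.levelPi χ) K W f) -
      (1 + ℓ₀) • B1.H1.mk (B1.levelPi χ) K W f = B1.H1.mk (B1.levelPi χ) K W f₁ := by
    rw [hf₁, map_sub, map_nsmul, B1.heckeH_mk]
  rw [e1, ← mk_evalZ]
  apply mk_eq_zero_of_resSS_eq_zero hW (Dvd.intro _ hTT)
  have e2 : resSS hW (Dvd.intro _ hTT) f₁ =
      heckeSS hℓ₀ W (resSS hW (Dvd.intro _ hTT) f) -
        (1 + ℓ₀) • resSS hW (Dvd.intro _ hTT) f := by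
    rw [hf₁, map_sub, map_nsmul, resSS_heckeZ]
  rw [resSS_evalZ, e2]
  refine bridge_core hT K W T₁ T₂ hTT hsq hcop ψ₁ ξ hξ hprim P hP hℓ₀ h1 _
    (resSS_isEigen T₂ hTT hW f) ?_
  rw [← e2, ← resSS_evalZ]
  exact resSS_isEigen T₂ hTT hW _

end Fermat.Agent.S43lib.B2.Bridge
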