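/-
S43lib / B2 / Bridge / Glue (helper5).

**BRIDGE with coefficients in the regular module `Reg G 𝒪`** (`G` finite commutative of odd order, `𝒪` a
domain of characteristic zero): every relation `P` among the `T_ℓ` on weight two cusp forms of level
`N₁ T²` holds, up to the Eisenstein factor `T_{ℓ₀} - 1 - ℓ₀` on both sides, for the operators
`⟨ℓ⟩^{-1/2} T_ℓ` on `H¹(Γ₀(N₁ T), Reg G 𝒪)`.  Proof: specialise along all characters `ψ` of `G` with values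
in an algebraic closure `K'` of the fraction field, apply `bridge_H1` to `H¹(Γ₀(N₁ T), K'(ψ))` with the
conductor decomposition of `ψ ∘ χ`, and use that the specialisations are jointly injective on
coefficients, so that a crossed homomorphism all of whose specialisations are principal is killed by
`T_i - deg T_i` for every equivariant coset datum.
-/
import Mathlib
import Fermat.Agent.S43lib.B1.Level
import Fermat.Agent.S43lib.B2.Bridge.ToB1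
import Fermat.Agent.S43lib.B2.Bridge.Cond

set_option autoImplicit false
set_option linter.unusedSectionVars false
set_option linter.style.haveILetI false

noncomputable section

namespace Fermat.Agent.S43lib.B2.Bridge

open CongruenceSubgroup Matrix.SpecialLinearGroup
open Fermat.Agent.S41lib.HC Fermat.Agent.S16lib.LH Fermat.Agent.S29lib.H
open scoped MatrixGroups

/-! ### The field `K` with `G` acting through a character -/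

section CharMod

variable {G : Type*} [Group G] {K : Type*} [Field K]

/-- the field `K` with `G` acting through the character `ψ` -/
def CharMod (_ψ : G →* Kˣ) : Type _ := K

variable (ψ : G →* Kˣ)

instance : AddCommGroup (CharMod ψ) := inferInstanceAs (AddCommGroup K)
instance : Module K (CharMod ψ) := inferInstanceAs (Module K K)

/-- the identification with `K` -/
def CharMod.toK : CharMod ψ ≃ₗ[K] K := LinearEquiv.refl K K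

instance : DistribMulAction G (CharMod ψ) where
  smul g w := ((ψ g : Kˣ) : K) • w
  one_smul w := by
    show ((ψ 1 : Kˣ) : K) • w = w
    rw [map_one, Units.val_one, one_smul]
  mul_smul g h w := by
    show ((ψ (g * h) : Kˣ) : K) • w = ((ψ g : Kˣ) : K) • ((ψ h : Kˣ) : K) • w
    rw [map_mul, Units.val_mul, mul_smul]
  smul_zero g := smul_zero (((ψ g : Kˣ) : K))
  smul_add g w w' := smul_add (((ψ g : Kˣ) : K)) w w'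

theorem CharMod.smul_def (g : G) (w : CharMod ψ) : g • w = ((ψ g : Kˣ) : K) • w := rfl

instance : SMulCommClass G K (CharMod ψ) :=
  ⟨fun g a w => by rw [CharMod.smul_def, CharMod.smul_def, smul_comm]⟩

instance [CharZero K] : IsAddTorsionFree (CharMod ψ) := inferInstanceAs (IsAddTorsionFree K)

end CharMod

/-! ### Specialisation of the regular module along a character -/

section Spec

variable {G : Type*} [Group G] [Fintype G] {𝒪 : Type*} [CommRing 𝒪] {K : Type*} [Field K]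
  [Algebra 𝒪 K] (ψ : G →* Kˣ)

/-- `f ↦ ∑ x, ψ x * f x` -/
def spec : B1.Reg G 𝒪 →+ CharMod ψ where
  toFun f := (∑ x, ((ψ x : Kˣ) : K) * algebraMap 𝒪 K (f x) : K)
  map_zero' := by
    show (∑ x, ((ψ x : Kˣ) : K) * algebraMap 𝒪 K ((0 : B1.Reg G 𝒪) x) : K) = 0
    simp
  map_add' f f' := by
    show (∑ x, ((ψ x : Kˣ) : K) * algebraMap 𝒪 K ((f + f') x) : K) =
      (∑ x, ((ψ x : Kˣ) : K) * algebraMap 𝒪 K (f x) : K) +
        (∑ x, ((ψ x : Kˣ) : K) * algebraMap 𝒪 K (f' x) : K)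
    simp only [B1.Reg.add_apply, map_add, mul_add, Finset.sum_add_distrib]

theorem spec_apply (f : B1.Reg G 𝒪) :
    CharMod.toK ψ (spec ψ f) = ∑ x, ((ψ x : Kˣ) : K) * algebraMap 𝒪 K (f x) := rfl

theorem spec_smul (g : G) (f : B1.Reg G 𝒪) : spec ψ (g • f) = g • spec ψ f := by
  show (∑ x, ((ψ x : Kˣ) : K) * algebraMap 𝒪 K ((g • f) x) : K) =
    ((ψ g : Kˣ) : K) * (∑ x, ((ψ x : Kˣ) : K) * algebraMap 𝒪 K (f x) : K)
  rw [Finset.mul_sum, ← Equiv.sum_comp (Equiv.mulLeft g)]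
  refine Finset.sum_congr rfl fun x _ => ?_
  rw [Equiv.coe_mulLeft, B1.Reg.smul_apply, inv_mul_cancel_left, map_mul, Units.val_mul, mul_assoc]

/-- the specialisations are jointly injective -/
theorem eq_zero_of_spec_eq_zero [IsDomain 𝒪] [FaithfulSMul 𝒪 K] {G : Type*} [CommGroup G]
    [Fintype G] [HasEnoughRootsOfUnity K (Monoid.exponent G)] (f : B1.Reg G 𝒪)
    (h : ∀ ψ : G →* Kˣ, spec ψ f = 0) : f = 0 := by
  have h1 : (fun x => algebraMap 𝒪 K (f x)) = 0 := by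
    apply eq_zero_of_forall_char_sum_eq_zero
    intro ψ
    have := congrArg (CharMod.toK ψ) (h ψ)
    rw [spec_apply, map_zero] at this
    rw [← this]
    exact Finset.sum_congr rfl fun x _ => mul_comm _ _
  ext x
  have h2 := congrFun h1 x
  exact (FaithfulSMul.algebraMap_injective 𝒪 K) (by simpa using h2)

end Spec

/-! ### Specialisation of crossed homomorphisms -/

section ZSpec

variable {Γ : Type*} [Group Γ] {G : Type*} [CommGroup G] [Fintype G] (π : Γ →* G)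
  {𝒪 : Type*} [CommRing 𝒪] {K : Type*} [Field K] [Algebra 𝒪 K] (ψ : G →* Kˣ)

/-- specialisation of crossed homomorphisms along `ψ` -/
def zspec : ↥(B1.Z1 π 𝒪 (B1.Reg G 𝒪)) →+ ↥(B1.Z1 π K (CharMod ψ)) where
  toFun f := ⟨fun γ => spec ψ ((f : Γ → B1.Reg G 𝒪) γ), fun γ γ' => by
    show spec ψ ((f : Γ → B1.Reg G 𝒪) (γ * γ')) = _
    rw [f.2 γ γ', map_add, spec_smul]⟩
  map_zero' := by
    apply Subtype.ext
    funext γ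
    exact map_zero (spec ψ)
  map_add' f f' := by
    apply Subtype.ext
    funext γ
    exact map_add (spec ψ) _ _

@[simp] theorem zspec_apply (f : ↥(B1.Z1 π 𝒪 (B1.Reg G 𝒪))) (γ : Γ) :
    ((zspec π ψ f : ↥(B1.Z1 π K (CharMod ψ))) : Γ → CharMod ψ) γ =
      spec ψ ((f : Γ → B1.Reg G 𝒪) γ) := rfl

theorem zspec_heckeZ {ι : Type*} [Fintype ι] {D : CosetData Γ Γ ι}
    (hD : B1.CosetData.IsEquivariant π D) (f : ↥(B1.Z1 π 𝒪 (B1.Reg G 𝒪))) :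
    zspec π ψ (B1.heckeZ 𝒪 (B1.Reg G 𝒪) hD f) = B1.heckeZ K (CharMod ψ) hD (zspec π ψ f) := by
  apply Subtype.ext
  funext γ
  show spec ψ (∑ x, (f : Γ → B1.Reg G 𝒪) (D.c γ x)) =
    ∑ x, spec ψ ((f : Γ → B1.Reg G 𝒪) (D.c γ x))
  rw [map_sum]

/-- the action of `g : G` on the coefficients, on crossed homomorphisms -/
def actZ (g : G) : ↥(B1.Z1 π 𝒪 (B1.Reg G 𝒪)) →ₗ[𝒪] ↥(B1.Z1 π 𝒪 (B1.Reg G 𝒪)) :=
  B1.Z1.map π (B1.QuotG.actLin (G := G) 𝒪 (B1.Reg G 𝒪) g) (B1.isEquivar_actLin g)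

theorem zspec_actZ (g : G) (f : ↥(B1.Z1 π 𝒪 (B1.Reg G 𝒪))) :
    zspec π ψ (actZ π g f) = ((ψ g : Kˣ) : K) • zspec π ψ f := by
  apply Subtype.ext
  funext γ
  show spec ψ (g • (f : Γ → B1.Reg G 𝒪) γ) = ((ψ g : Kˣ) : K) • spec ψ ((f : Γ → B1.Reg G 𝒪) γ)
  rw [spec_smul, CharMod.smul_def]

/-- A crossed homomorphism all of whose specialisations are principal is an eigenvector of every
equivariant coset datum, with eigenvalue the degree. -/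
theorem heckeZ_eq_card_smul_of_spec_principal [IsDomain 𝒪] [FaithfulSMul 𝒪 K]
    [HasEnoughRootsOfUnity K (Monoid.exponent G)] {ι : Type*} [Fintype ι] {D : CosetData Γ Γ ι}
    (hD : B1.CosetData.IsEquivariant π D) (f : ↥(B1.Z1 π 𝒪 (B1.Reg G 𝒪)))
    (h : ∀ ψ : G →* Kˣ, ∃ w : CharMod ψ, ∀ γ,
      ((zspec π ψ f : ↥(B1.Z1 π K (CharMod ψ))) : Γ → CharMod ψ) γ = π γ • w - w) :
    B1.heckeZ 𝒪 (B1.Reg G 𝒪) hD f = Fintype.card ι • f := by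
  apply Subtype.ext
  funext γ
  rw [← sub_eq_zero]
  apply eq_zero_of_spec_eq_zero (K := K)
  intro ψ
  obtain ⟨w, hw⟩ := h ψ
  show spec ψ ((∑ x, (f : Γ → B1.Reg G 𝒪) (D.c γ x)) -
    (Fintype.card ι • (f : Γ → B1.Reg G 𝒪)) γ) = 0
  have hw' : ∀ γ, spec ψ ((f : Γ → B1.Reg G 𝒪) γ) = π γ • w - w := hw
  rw [map_sub, map_sum, Pi.smul_apply, map_nsmul]
  simp_rw [hw', hD γ]
  rw [Finset.sum_const, Finset.card_univ, sub_self]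

end ZSpec

/-! ### The twisted operators with coefficients in the regular module -/

section Reg

variable {N₁ T : ℕ} [NeZero (N₁ * T)] {S : Set ℕ}
variable {G : Type*} [CommGroup G] [Fintype G] (χ : (ZMod (N₁ * T))ˣ →* G)
variable (𝒪 : Type*) [CommRing 𝒪]

/-- a good prime as a unit modulo `N₁ T` -/
def lvlUnit (ℓ : GoodPrime (N₁ * T * T) S) : (ZMod (N₁ * T))ˣ :=
  haveI : Fact ℓ.1.Prime := ⟨ℓ.2.1⟩
  B1.ellUnit (not_dvd_lvl ℓ.2.2.1)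

theorem coe_lvlUnit (ℓ : GoodPrime (N₁ * T * T) S) :
    ((lvlUnit ℓ : (ZMod (N₁ * T))ˣ) : ZMod (N₁ * T)) = (ℓ.1 : ZMod (N₁ * T)) := rfl

variable (d : GoodPrime (N₁ * T * T) S → G)

/-- `⟨ℓ⟩^{-1/2} T_ℓ` on crossed homomorphisms (`d ℓ = ⟨ℓ⟩^{-1/2}`) -/
def regZOp (ℓ : GoodPrime (N₁ * T * T) S) :
    Module.End ℤ ↥(B1.Z1 (B1.levelPi χ) 𝒪 (B1.Reg G 𝒪)) :=
  haveI : Fact ℓ.1.Prime := ⟨ℓ.2.1⟩
  ((actZ (B1.levelPi χ) (d ℓ)).comp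
    (B1.heckeZ 𝒪 (B1.Reg G 𝒪) (nData_equi (χ := χ) ℓ.2.2.1))).toAddMonoidHom.toIntLinearMap

theorem regZOp_apply (ℓ : GoodPrime (N₁ * T * T) S)
    (f : ↥(B1.Z1 (B1.levelPi χ) 𝒪 (B1.Reg G 𝒪))) :
    regZOp χ 𝒪 d ℓ f = (haveI : Fact ℓ.1.Prime := ⟨ℓ.2.1⟩;
      actZ (B1.levelPi χ) (d ℓ)
        (B1.heckeZ 𝒪 (B1.Reg G 𝒪) (nData_equi (χ := χ) ℓ.2.2.1) f)) := rfl

/-- the action of `g : G` on the coefficients, on `H¹` -/
def actH (g : G) : B1.H1 (B1.levelPi χ) 𝒪 (B1.Reg G 𝒪) →ₗ[𝒪] B1.H1 (B1.levelPi χ) 𝒪 (B1.Reg G 𝒪) :=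
  B1.H1.map (B1.levelPi χ) (B1.QuotG.actLin (G := G) 𝒪 (B1.Reg G 𝒪) g) (B1.isEquivar_actLin g)

theorem actH_mk (g : G) (f : ↥(B1.Z1 (B1.levelPi χ) 𝒪 (B1.Reg G 𝒪))) :
    actH χ 𝒪 g (B1.H1.mk (B1.levelPi χ) 𝒪 (B1.Reg G 𝒪) f) =
      B1.H1.mk (B1.levelPi χ) 𝒪 (B1.Reg G 𝒪) (actZ (B1.levelPi χ) g f) := rfl

/-- `⟨ℓ⟩^{-1/2} T_ℓ` on `H¹` -/
def regHOp (ℓ : GoodPrime (N₁ * T * T) S) :
    Module.End ℤ (B1.H1 (B1.levelPi χ) 𝒪 (B1.Reg G 𝒪)) :=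
  haveI : Fact ℓ.1.Prime := ⟨ℓ.2.1⟩
  ((actH χ 𝒪 (d ℓ)).comp
    (B1.heckeH 𝒪 (B1.Reg G 𝒪) (nData_equi (χ := χ) ℓ.2.2.1))).toAddMonoidHom.toIntLinearMap

theorem regHOp_apply (ℓ : GoodPrime (N₁ * T * T) S)
    (x : B1.H1 (B1.levelPi χ) 𝒪 (B1.Reg G 𝒪)) :
    regHOp χ 𝒪 d ℓ x = (haveI : Fact ℓ.1.Prime := ⟨ℓ.2.1⟩;
      actH χ 𝒪 (d ℓ) (B1.heckeH 𝒪 (B1.Reg G 𝒪) (nData_equi (χ := χ) ℓ.2.2.1) x)) := rfl

/-- evaluation at the operators `⟨ℓ⟩^{-1/2} T_ℓ` on crossed homomorphisms -/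
def evalZR : FreeAlgebra ℤ (GoodPrime (N₁ * T * T) S) →ₐ[ℤ]
    Module.End ℤ ↥(B1.Z1 (B1.levelPi χ) 𝒪 (B1.Reg G 𝒪)) :=
  FreeAlgebra.lift ℤ (regZOp χ 𝒪 d)

/-- evaluation at the operators `⟨ℓ⟩^{-1/2} T_ℓ` on `H¹` -/
def evalHR : FreeAlgebra ℤ (GoodPrime (N₁ * T * T) S) →ₐ[ℤ]
    Module.End ℤ (B1.H1 (B1.levelPi χ) 𝒪 (B1.Reg G 𝒪)) :=
  FreeAlgebra.lift ℤ (regHOp χ 𝒪 d)

theorem mk_evalZR (P : FreeAlgebra ℤ (GoodPrime (N₁ * T * T) S))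
    (f : ↥(B1.Z1 (B1.levelPi χ) 𝒪 (B1.Reg G 𝒪))) :
    B1.H1.mk (B1.levelPi χ) 𝒪 (B1.Reg G 𝒪) (evalZR χ 𝒪 d P f) =
      evalHR χ 𝒪 d P (B1.H1.mk (B1.levelPi χ) 𝒪 (B1.Reg G 𝒪) f) := by
  refine lift_intertwine (regZOp χ 𝒪 d) (regHOp χ 𝒪 d)
    (B1.H1.mk (B1.levelPi χ) 𝒪 (B1.Reg G 𝒪)).toAddMonoidHom ?_ P f
  intro ℓ v
  have : Fact ℓ.1.Prime := ⟨ℓ.2.1⟩
  show B1.H1.mk (B1.levelPi χ) 𝒪 (B1.Reg G 𝒪) (regZOp χ 𝒪 d ℓ v) =
    regHOp χ 𝒪 d ℓ (B1.H1.mk (B1.levelPi χ) 𝒪 (B1.Reg G 𝒪) v)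
  rw [regZOp_apply, regHOp_apply, B1.heckeH_mk, actH_mk]

variable {K : Type*} [Field K] [Algebra 𝒪 K]

/-- specialisation intertwines the two evaluations -/
theorem zspec_evalZR (ψ : G →* Kˣ) (T₁ T₂ : ℕ) [NeZero T₁] (hTT : T₁ * T₂ = T) (ξ : (ZMod T₁)ˣ →* Kˣ)
    (hd : ∀ ℓ : GoodPrime (N₁ * T * T) S, ψ (d ℓ) = (ξ (goodUnit T₁ T₂ hTT ℓ))⁻¹)
    (P : FreeAlgebra ℤ (GoodPrime (N₁ * T * T) S))
    (f : ↥(B1.Z1 (B1.levelPi χ) 𝒪 (B1.Reg G 𝒪))) :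
    zspec (B1.levelPi χ) ψ (evalZR χ 𝒪 d P f) =
      evalZ χ K (CharMod ψ) T₁ T₂ hTT ξ P (zspec (B1.levelPi χ) ψ f) := by
  refine lift_intertwine (regZOp χ 𝒪 d) (heckeZOp χ K (CharMod ψ) T₁ T₂ hTT ξ)
    (zspec (B1.levelPi χ) ψ) ?_ P f
  intro ℓ v
  have : Fact ℓ.1.Prime := ⟨ℓ.2.1⟩
  rw [regZOp_apply, heckeZOp_apply, zspec_actZ, zspec_heckeZ, hd]

end Reg

/-! ### The conductor data of a character of `G` -/

section Data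

variable {N₁ T : ℕ} [NeZero (N₁ * T)] {S : Set ℕ}
variable {G : Type*} [CommGroup G] [Fintype G] (χ : (ZMod (N₁ * T))ˣ →* G)
variable {K : Type*} [Field K]

theorem eq_of_sq_eq_of_odd_pow {H : Type*} [CommGroup H] {a b : H} {n : ℕ} (hn : Odd n)
    (h2 : a * a = b * b) (ha : a ^ n = 1) (hb : b ^ n = 1) : a = b := by
  have h : a * b⁻¹ = 1 := by
    refine eq_one_of_sq_of_odd_pow hn ?_ ?_
    · rw [mul_mul_mul_comm, h2, ← mul_inv, mul_inv_cancel]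
    · rw [mul_pow, inv_pow, ha, hb, inv_one, mul_one]
  exact mul_inv_eq_one.mp h

theorem unitsMap_lvlUnit {T₁ T₂ : ℕ} [NeZero T₁] (hTT : T₁ * T₂ = T)
    (ℓ : GoodPrime (N₁ * T * T) S) :
    ZMod.unitsMap (dvd_of_mul_eq (N₁ := N₁) T₁ T₂ hTT) (lvlUnit ℓ) = goodUnit T₁ T₂ hTT ℓ := by
  apply Units.ext
  rw [ZMod.unitsMap_val, coe_lvlUnit, coe_goodUnit, ZMod.cast_natCast (dvd_of_mul_eq T₁ T₂ hTT)]

/-- for every character `ψ` of `G` the hypotheses of `bridge_H1` hold for `K(ψ)` -/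
theorem exists_bridge_data (hcop : Nat.Coprime N₁ T)
    (hχ : ∀ u, ZMod.unitsMap (Dvd.intro_left N₁ rfl : T ∣ N₁ * T) u = 1 → χ u = 1)
    (hodd : Odd (Fintype.card G)) (d : GoodPrime (N₁ * T * T) S → G)
    (hd : ∀ ℓ, d ℓ * d ℓ * χ (lvlUnit ℓ) = 1) (ψ : G →* Kˣ) :
    ∃ (T₁ T₂ : ℕ) (_ : NeZero T₁) (hTT : T₁ * T₂ = T) (ψ₁ ξ : (ZMod T₁)ˣ →* Kˣ),
      Nat.Coprime N₁ T₁ ∧ (∀ u, ξ u * ξ u = ψ₁ u) ∧
      (∀ (t : ℕ) (ht : t ∣ T₁), t.Prime →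
        ∃ x : (ZMod T₁)ˣ, ZMod.unitsMap (Nat.div_dvd_of_dvd ht) x = 1 ∧ ψ₁ x * ψ₁ x ≠ 1) ∧
      ActsThrough χ K (CharMod ψ) T₁ (dvd_of_mul_eq T₁ T₂ hTT) ψ₁ ∧
      ∀ ℓ, ψ (d ℓ) = (ξ (goodUnit T₁ T₂ hTT ℓ))⁻¹ := by
  have hTM : T ∣ N₁ * T := Dvd.intro_left N₁ rfl
  set n := Fintype.card G with hn
  have hGpow : ∀ g : G, g ^ n = 1 := fun g => pow_card_eq_one
  have hpow : ∀ u, (ψ.comp χ) u ^ n = 1 := fun u => by
    rw [MonoidHom.comp_apply, ← map_pow, hGpow, map_one]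
  obtain ⟨T₁, hT₁, ψ₁, hφ, hprim⟩ := exists_conductor hTM (ψ.comp χ)
    (fun u hu => by rw [MonoidHom.comp_apply, hχ u hu, map_one]) hodd hpow
  have hT0 : T ≠ 0 := fun h => NeZero.ne (N₁ * T) (by rw [h, mul_zero])
  have hT₁0 : NeZero T₁ := ⟨fun h => hT0 (Nat.eq_zero_of_zero_dvd (h ▸ hT₁))⟩
  have hTT : T₁ * (T / T₁) = T := Nat.mul_div_cancel' hT₁
  have hψ₁pow : ∀ x, ψ₁ x ^ n = 1 := fun x => by
    obtain ⟨u, rfl⟩ := ZMod.unitsMap_surjective (hT₁.trans hTM) x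
    rw [← hφ]
    exact hpow u
  refine ⟨T₁, T / T₁, hT₁0, hTT, ψ₁, ψ₁ ^ ((n + 1) / 2), hcop.coprime_dvd_right hT₁,
    exists_sqrt_char ψ₁ hodd hψ₁pow, hprim, fun u w => ?_, fun ℓ => ?_⟩
  · rw [CharMod.smul_def]
    have := hφ u
    rw [MonoidHom.comp_apply] at this
    rw [this]
  · refine eq_of_sq_eq_of_odd_pow hodd ?_ ?_ ?_
    · have h1 : d ℓ * d ℓ = (χ (lvlUnit ℓ))⁻¹ := eq_inv_of_mul_eq_one_left (hd ℓ)
      have h2 := hφ (lvlUnit ℓ)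
      rw [MonoidHom.comp_apply] at h2
      rw [← map_mul, h1, map_inv, h2, ← mul_inv, exists_sqrt_char ψ₁ hodd hψ₁pow]
      congr 2
      exact unitsMap_lvlUnit hTT ℓ
    · rw [← map_pow, hGpow, map_one]
    · rw [inv_pow, MonoidHom.pow_apply, ← pow_mul, mul_comm, pow_mul, hψ₁pow, one_pow, inv_one]

end Data

/-! ### The bridge with coefficients in the regular module -/

section Main

variable {N₁ T : ℕ} [NeZero (N₁ * T)] [NeZero (N₁ * T * T)] {S : Set ℕ}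
variable {G : Type*} [CommGroup G] [Fintype G] (χ : (ZMod (N₁ * T))ˣ →* G)
variable (𝒪 : Type*) [CommRing 𝒪] [IsDomain 𝒪] [CharZero 𝒪]

/-- an algebraic closure of the fraction field of `𝒪` -/
abbrev Kbar : Type _ := AlgebraicClosure (FractionRing 𝒪)

instance : FaithfulSMul 𝒪 (Kbar 𝒪) := by
  rw [faithfulSMul_iff_algebraMap_injective,
    IsScalarTower.algebraMap_eq 𝒪 (FractionRing 𝒪) (Kbar 𝒪)]
  exact (algebraMap (FractionRing 𝒪) (Kbar 𝒪)).injective.comp (IsFractionRing.injective 𝒪 _)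

theorem hasEnoughRootsOfUnity_Kbar :
    HasEnoughRootsOfUnity (Kbar 𝒪) (Monoid.exponent G) := by
  haveI : NeZero ((Monoid.exponent G : ℕ) : Kbar 𝒪) := ⟨by
    rw [Nat.cast_ne_zero]
    exact Monoid.exponent_ne_zero_of_finite⟩
  infer_instance

variable {χ 𝒪} in
/-- **BRIDGE on crossed homomorphisms with values in `Reg G 𝒪`**: the crossed homomorphism
`y = P(⟨ℓ⟩^{-1/2} T_ℓ) (T_{ℓ₀} - 1 - ℓ₀) f` satisfies `T_{ℓ₀} y = (ℓ₀ + 1) y`. -/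
theorem bridge_reg_Z (hsq : Squarefree T) (hcop : Nat.Coprime N₁ T)
    (hχ : ∀ u, ZMod.unitsMap (Dvd.intro_left N₁ rfl : T ∣ N₁ * T) u = 1 → χ u = 1)
    (hodd : Odd (Fintype.card G)) (d : GoodPrime (N₁ * T * T) S → G)
    (hd : ∀ ℓ, d ℓ * d ℓ * χ (lvlUnit ℓ) = 1)
    (P : FreeAlgebra ℤ (GoodPrime (N₁ * T * T) S))
    (hP : (evalForms P : ↥(CuspForm.heckeAlgebra (N₁ * T * T) 2 S)) = 0)
    {ℓ₀ : ℕ} [Fact ℓ₀.Prime] (hℓ₀ : ¬ ℓ₀ ∣ N₁ * T * T) (h1 : ((N₁ * T * T : ℕ) : ℤ) ∣ (ℓ₀ : ℤ) - 1)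
    (f : ↥(B1.Z1 (B1.levelPi χ) 𝒪 (B1.Reg G 𝒪))) :
    B1.heckeZ 𝒪 (B1.Reg G 𝒪) (nData_equi (χ := χ) hℓ₀)
        (evalZR χ 𝒪 d P (B1.heckeZ 𝒪 (B1.Reg G 𝒪) (nData_equi (χ := χ) hℓ₀) f - (1 + ℓ₀) • f)) =
      (ℓ₀ + 1) • evalZR χ 𝒪 d P
        (B1.heckeZ 𝒪 (B1.Reg G 𝒪) (nData_equi (χ := χ) hℓ₀) f - (1 + ℓ₀) • f) := by
  haveI := hasEnoughRootsOfUnity_Kbar (G := G) 𝒪
  have hcard : Fintype.card (OnePoint (ZMod ℓ₀)) = ℓ₀ + 1 := by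
    haveI : NeZero ℓ₀ := ⟨(Fact.out : ℓ₀.Prime).ne_zero⟩
    rw [← Nat.card_eq_fintype_card]
    have : Nat.card (OnePoint (ZMod ℓ₀)) = Nat.card (Option (ZMod ℓ₀)) := rfl
    rw [this, Nat.card_eq_fintype_card, Fintype.card_option, ZMod.card]
  rw [← hcard]
  refine heckeZ_eq_card_smul_of_spec_principal (K := Kbar 𝒪) (B1.levelPi χ) _ _ fun ψ => ?_
  obtain ⟨T₁, T₂, hT₁0, hTT, ψ₁, ξ, hcop₁, hξ, hprim, hW, hdψ⟩ :=
    exists_bridge_data (K := Kbar 𝒪) χ hcop hχ hodd d hd ψ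
  rw [← B1.H1.mk_eq_zero_iff, zspec_evalZR χ 𝒪 d ψ T₁ T₂ hTT ξ hdψ, map_sub, map_nsmul,
    zspec_heckeZ, mk_evalZ]
  have hb := bridge_H1 (χ := χ) (K := Kbar 𝒪) (W := CharMod ψ) T₂ hTT hsq hcop₁ ψ₁ ξ hξ hprim hW P
    hP hℓ₀ h1 (B1.H1.mk (B1.levelPi χ) (Kbar 𝒪) (CharMod ψ) (zspec (B1.levelPi χ) ψ f))
  rw [B1.heckeH_mk, ← map_nsmul, ← map_sub] at hb
  exact hb

variable {χ 𝒪} in
/-- **BRIDGE on `H¹(Γ₀(N₁ T), Reg G 𝒪)`**: for every class `x` the class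
`y = P(⟨ℓ⟩^{-1/2} T_ℓ) (T_{ℓ₀} - 1 - ℓ₀) x` satisfies `T_{ℓ₀} y = (ℓ₀ + 1) y`. -/
theorem bridge_reg (hsq : Squarefree T) (hcop : Nat.Coprime N₁ T)
    (hχ : ∀ u, ZMod.unitsMap (Dvd.intro_left N₁ rfl : T ∣ N₁ * T) u = 1 → χ u = 1)
    (hodd : Odd (Fintype.card G)) (d : GoodPrime (N₁ * T * T) S → G)
    (hd : ∀ ℓ, d ℓ * d ℓ * χ (lvlUnit ℓ) = 1)
    (P : FreeAlgebra ℤ (GoodPrime (N₁ * T * T) S))
    (hP : (evalForms P : ↥(CuspForm.heckeAlgebra (N₁ * T * T) 2 S)) = 0)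
    {ℓ₀ : ℕ} [Fact ℓ₀.Prime] (hℓ₀ : ¬ ℓ₀ ∣ N₁ * T * T) (h1 : ((N₁ * T * T : ℕ) : ℤ) ∣ (ℓ₀ : ℤ) - 1)
    (x : B1.H1 (B1.levelPi χ) 𝒪 (B1.Reg G 𝒪)) :
    B1.heckeH 𝒪 (B1.Reg G 𝒪) (nData_equi (χ := χ) hℓ₀)
        (evalHR χ 𝒪 d P (B1.heckeH 𝒪 (B1.Reg G 𝒪) (nData_equi (χ := χ) hℓ₀) x - (1 + ℓ₀) • x)) =
      (ℓ₀ + 1) • evalHR χ 𝒪 d P
        (B1.heckeH 𝒪 (B1.Reg G 𝒪) (nData_equi (χ := χ) hℓ₀) x - (1 + ℓ₀) • x) := by
  obtain ⟨f, rfl⟩ := B1.H1.mk_surjective (B1.levelPi χ) 𝒪 (B1.Reg G 𝒪) x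
  rw [B1.heckeH_mk, ← map_nsmul, ← map_sub, ← mk_evalZR, B1.heckeH_mk, ← map_nsmul,
    bridge_reg_Z hsq hcop hχ hodd d hd P hP hℓ₀ h1 f]

end Main

end Fermat.Agent.S43lib.B2.Bridge
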