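/-
S43lib / B2 / Bridge / GlueSys (helper5).

The BRIDGE in the vocabulary of helper3's level systems `B1.lvlSys χ f hcomm`: for the polynomial
`pP = P(X_{⟨ℓ⟩^{-1/2}} X_{T_ℓ}) ∈ 𝒪[X_I]` attached to a relation `P` among the `T_ℓ` on weight two cusp forms
of level `N₁ T²`,
* `(X_{ℓ₀} - (1 + ℓ₀)) • pP • (X_{ℓ₀} - (1 + ℓ₀)) • x = 0` for every `x ∈ H¹(Γ₀(N₁ T), Reg G 𝒪)`;
* `pP • y = 0` for every `y` in the localisation at a prime `𝔪` not containing `X_{ℓ₀} - (1 + ℓ₀)`.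
-/
import Mathlib
import Fermat.Agent.S43lib.B2.Bridge.Glue

set_option autoImplicit false
set_option linter.unusedSectionVars false
set_option linter.style.haveILetI false

noncomputable section

namespace Fermat.Agent.S43lib.B2.Bridge

open CongruenceSubgroup Matrix.SpecialLinearGroup MvPolynomial
open Fermat.Agent.S41lib.HC Fermat.Agent.S16lib.LH Fermat.Agent.S29lib.H Fermat.Agent.S48lib.W1
open scoped MatrixGroups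

/-- evaluation of a non-commutative polynomial at elements of a commutative ring acting on a module -/
theorem lift_smul_eq {X A M : Type*} [CommRing A] [AddCommGroup M] [Module A M] (m : X → A)
    (b : X → Module.End ℤ M) (h : ∀ x v, m x • v = b x v) (P : FreeAlgebra ℤ X) (v : M) :
    (FreeAlgebra.lift ℤ m P) • v = FreeAlgebra.lift ℤ b P v := by
  induction P using FreeAlgebra.induction generalizing v with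
  | grade0 r =>
    rw [AlgHom.commutes, AlgHom.commutes, Module.algebraMap_end_apply, algebraMap_smul]
  | grade1 x => rw [FreeAlgebra.lift_ι_apply, FreeAlgebra.lift_ι_apply, h]
  | mul p q hp hq => rw [map_mul, map_mul, Module.End.mul_apply, mul_smul, hq, hp]
  | add p q hp hq => rw [map_add, map_add, LinearMap.add_apply, add_smul, hp, hq]

section Sys

variable {N₁ T : ℕ} [NeZero (N₁ * T)] [NeZero (N₁ * T * T)] {S : Set ℕ}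
variable {G : Type} [CommGroup G] [Fintype G] (χ : (ZMod (N₁ * T))ˣ →* G)
variable {I : Type} (f : I → B1.LvlIdx (N₁ * T)) (hcomm : B1.CommStmt (N₁ * T))
variable (𝒪 : Type) [CommRing 𝒪]

/-- the index of `T_ℓ` in helper3's index type of level `N₁ T` -/
def goodIdx (ℓ : GoodPrime (N₁ * T * T) S) : B1.LvlIdx (N₁ * T) :=
  Sum.inl (Sum.inl ⟨ℓ.1, ℓ.2.1, fun h => ℓ.2.2.1 (Dvd.dvd.mul_right h T)⟩)

variable {W : Type} [AddCommGroup W] [Module 𝒪 W] [DistribMulAction G W] [SMulCommClass G 𝒪 W]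

theorem lvlSys_T_eq (i : I) (j : B1.LvlIdx (N₁ * T)) (h : f i = j) :
    (B1.lvlSys χ f hcomm).T 𝒪 W i =
      B1.heckeH 𝒪 W (B1.isEquivariant_levelPi χ (B1.lvlD_equivariant (N₁ * T) j)) := by
  subst h
  rfl

/-- `X i` acts as `T_ℓ` when `f i` is the index of `T_ℓ` -/
theorem lvlSys_T_prime (i : I) {ℓ : ℕ} [Fact ℓ.Prime] (hℓ : ¬ ℓ ∣ N₁ * T * T)
    (h : f i = Sum.inl (Sum.inl ⟨ℓ, Fact.out, not_dvd_lvl hℓ⟩))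
    (x : (B1.lvlSys χ f hcomm).Coh 𝒪 W) :
    (B1.lvlSys χ f hcomm).T 𝒪 W i x = B1.heckeH 𝒪 W (nData_equi (χ := χ) hℓ) x := by
  rw [lvlSys_T_eq χ f hcomm 𝒪 i _ h]
  show B1.heckeH 𝒪 W _ x = B1.heckeH 𝒪 W (nData_equi (χ := χ) hℓ) x
  congr!

theorem lvlSys_T_good (i : I) (ℓ : GoodPrime (N₁ * T * T) S) (h : f i = goodIdx ℓ)
    (x : (B1.lvlSys χ f hcomm).Coh 𝒪 W) :
    (B1.lvlSys χ f hcomm).T 𝒪 W i x = (haveI : Fact ℓ.1.Prime := ⟨ℓ.2.1⟩;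
      B1.heckeH 𝒪 W (nData_equi (χ := χ) ℓ.2.2.1) x) := by
  haveI : Fact ℓ.1.Prime := ⟨ℓ.2.1⟩
  exact lvlSys_T_prime χ f hcomm 𝒪 i ℓ.2.2.1 h x

theorem H1_map_actLin_congr {Γ : Type*} [Group Γ] (π : Γ →* G) {g g' : G} (h : g = g')
    (x : B1.H1 π 𝒪 W) :
    B1.H1.map π (B1.QuotG.actLin (G := G) 𝒪 W g) (B1.isEquivar_actLin g) x =
      B1.H1.map π (B1.QuotG.actLin (G := G) 𝒪 W g') (B1.isEquivar_actLin g') x := by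
  subst h
  rfl

/-- `X i` acts as the coefficient action of `χ u` when `f i` is the index of the diamond `⟨u⟩` -/
theorem lvlSys_T_diam (i : I) (u : (ZMod (N₁ * T))ˣ) (h : f i = Sum.inr u)
    (x : (B1.lvlSys χ f hcomm).Coh 𝒪 W) :
    (B1.lvlSys χ f hcomm).T 𝒪 W i x =
      B1.H1.map (B1.levelPi χ) (B1.QuotG.actLin (G := G) 𝒪 W (χ u)) (B1.isEquivar_actLin (χ u)) x := by
  rw [lvlSys_T_eq χ f hcomm 𝒪 i _ h]
  have h1 : B1.levelPi χ (unitRep u) = χ u := by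
    rw [B1.levelPi_apply, B1.unitHom_apply, gamma0Unit_unitRep]
  have h2 := B1.heckeH_diamData (B1.levelPi χ) 𝒪 W (unitRep u) x
  rw [H1_map_actLin_congr 𝒪 (B1.levelPi χ) h1] at h2
  exact h2

end Sys

/-! ### The bridge for level systems -/

section SysMain

variable {N₁ T : ℕ} [NeZero (N₁ * T)] [NeZero (N₁ * T * T)] {S : Set ℕ}
variable {G : Type} [CommGroup G] [Fintype G] (χ : (ZMod (N₁ * T))ˣ →* G)
variable {I : Type} (f : I → B1.LvlIdx (N₁ * T)) (hcomm : B1.CommStmt (N₁ * T))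
variable (𝒪 : Type) [CommRing 𝒪]
variable (iT iD : GoodPrime (N₁ * T * T) S → I)

/-- the identity, from the cohomology of the level system to `H¹` -/
def cohToH1 (W : Type) [AddCommGroup W] [Module 𝒪 W] [DistribMulAction G W] [SMulCommClass G 𝒪 W] :
    (B1.lvlSys χ f hcomm).Coh 𝒪 W →+ B1.H1 (B1.levelPi χ) 𝒪 W where
  toFun x := x
  map_zero' := rfl
  map_add' _ _ := rfl

theorem cohToH1_injective (W : Type) [AddCommGroup W] [Module 𝒪 W] [DistribMulAction G W]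
    [SMulCommClass G 𝒪 W] : Function.Injective (cohToH1 χ f hcomm 𝒪 W) := fun _ _ h => h

theorem cohToH1_T_prime {W : Type} [AddCommGroup W] [Module 𝒪 W] [DistribMulAction G W]
    [SMulCommClass G 𝒪 W] (i : I) {ℓ : ℕ} [Fact ℓ.Prime] (hℓ : ¬ ℓ ∣ N₁ * T * T)
    (h : f i = Sum.inl (Sum.inl ⟨ℓ, Fact.out, not_dvd_lvl hℓ⟩))
    (x : (B1.lvlSys χ f hcomm).Coh 𝒪 W) :
    cohToH1 χ f hcomm 𝒪 W ((X i : MvPolynomial I 𝒪) • x) =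
      B1.heckeH 𝒪 W (nData_equi (χ := χ) hℓ) (cohToH1 χ f hcomm 𝒪 W x) := by
  rw [B1.HeckeSys.X_smul]
  exact lvlSys_T_prime χ f hcomm 𝒪 i hℓ h x

theorem cohToH1_T_diam {W : Type} [AddCommGroup W] [Module 𝒪 W] [DistribMulAction G W]
    [SMulCommClass G 𝒪 W] (i : I) (u : (ZMod (N₁ * T))ˣ) (h : f i = Sum.inr u)
    (x : (B1.lvlSys χ f hcomm).Coh 𝒪 W) :
    cohToH1 χ f hcomm 𝒪 W ((X i : MvPolynomial I 𝒪) • x) =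
      B1.H1.map (B1.levelPi χ) (B1.QuotG.actLin (G := G) 𝒪 W (χ u)) (B1.isEquivar_actLin (χ u))
        (cohToH1 χ f hcomm 𝒪 W x) := by
  rw [B1.HeckeSys.X_smul]
  exact lvlSys_T_diam χ f hcomm 𝒪 i u h x

theorem cohToH1_C_smul {W : Type} [AddCommGroup W] [Module 𝒪 W] [DistribMulAction G W]
    [SMulCommClass G 𝒪 W] (n : ℕ) (x : (B1.lvlSys χ f hcomm).Coh 𝒪 W) :
    cohToH1 χ f hcomm 𝒪 W ((C ((n : ℕ) : 𝒪) : MvPolynomial I 𝒪) • x) =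
      n • cohToH1 χ f hcomm 𝒪 W x := by
  rw [B1.HeckeSys.C_smul, Nat.cast_smul_eq_nsmul, map_nsmul]

/-- the polynomial `P(X_{⟨ℓ⟩^{-1/2}} X_{T_ℓ})` of `𝒪[X_I]` -/
def polyOf (P : FreeAlgebra ℤ (GoodPrime (N₁ * T * T) S)) : MvPolynomial I 𝒪 :=
  FreeAlgebra.lift ℤ (fun ℓ => (X (iD ℓ) * X (iT ℓ) : MvPolynomial I 𝒪)) P

variable {iT iD}

theorem polyOf_smul (hiT : ∀ ℓ, f (iT ℓ) = goodIdx ℓ) (u : GoodPrime (N₁ * T * T) S → (ZMod (N₁ * T))ˣ)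
    (hiD : ∀ ℓ, f (iD ℓ) = Sum.inr (u ℓ)) (P : FreeAlgebra ℤ (GoodPrime (N₁ * T * T) S))
    (x : (B1.lvlSys χ f hcomm).Coh 𝒪 (B1.Reg G 𝒪)) :
    cohToH1 χ f hcomm 𝒪 (B1.Reg G 𝒪) (polyOf 𝒪 iT iD P • x) =
      evalHR χ 𝒪 (fun ℓ => χ (u ℓ)) P (cohToH1 χ f hcomm 𝒪 (B1.Reg G 𝒪) x) := by
  let a : GoodPrime (N₁ * T * T) S → Module.End ℤ ((B1.lvlSys χ f hcomm).Coh 𝒪 (B1.Reg G 𝒪)) :=
    fun ℓ => (DistribSMul.toAddMonoidHom _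
      (X (iD ℓ) * X (iT ℓ) : MvPolynomial I 𝒪)).toIntLinearMap
  have h1 : polyOf 𝒪 iT iD P • x = FreeAlgebra.lift ℤ a P x :=
    lift_smul_eq _ a (fun ℓ v => rfl) P x
  rw [h1]
  refine lift_intertwine a (regHOp χ 𝒪 fun ℓ => χ (u ℓ)) (cohToH1 χ f hcomm 𝒪 (B1.Reg G 𝒪)) ?_ P x
  intro ℓ v
  have : Fact ℓ.1.Prime := ⟨ℓ.2.1⟩
  show cohToH1 χ f hcomm 𝒪 (B1.Reg G 𝒪) ((X (iD ℓ) * X (iT ℓ) : MvPolynomial I 𝒪) • v) = _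
  rw [mul_smul, cohToH1_T_diam χ f hcomm 𝒪 _ _ (hiD ℓ),
    cohToH1_T_prime χ f hcomm 𝒪 _ ℓ.2.2.1 (hiT ℓ), regHOp_apply]
  rfl

variable [IsDomain 𝒪] [CharZero 𝒪]

/-- **BRIDGE for the level system of `Γ₀(N₁ T)` with coefficients in `Reg G 𝒪`.** -/
theorem bridge_sys (hsq : Squarefree T) (hcop : Nat.Coprime N₁ T)
    (hχ : ∀ u, ZMod.unitsMap (Dvd.intro_left N₁ rfl : T ∣ N₁ * T) u = 1 → χ u = 1)
    (hodd : Odd (Fintype.card G)) (hiT : ∀ ℓ, f (iT ℓ) = goodIdx ℓ)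
    (u : GoodPrime (N₁ * T * T) S → (ZMod (N₁ * T))ˣ) (hiD : ∀ ℓ, f (iD ℓ) = Sum.inr (u ℓ))
    (hu : ∀ ℓ, χ (u ℓ) * χ (u ℓ) * χ (lvlUnit ℓ) = 1)
    (P : FreeAlgebra ℤ (GoodPrime (N₁ * T * T) S))
    (hP : (evalForms P : ↥(CuspForm.heckeAlgebra (N₁ * T * T) 2 S)) = 0)
    {ℓ₀ : ℕ} [Fact ℓ₀.Prime] (hℓ₀ : ¬ ℓ₀ ∣ N₁ * T * T) (h1 : ((N₁ * T * T : ℕ) : ℤ) ∣ (ℓ₀ : ℤ) - 1)
    (i₀ : I) (hi₀ : f i₀ = Sum.inl (Sum.inl ⟨ℓ₀, Fact.out, not_dvd_lvl hℓ₀⟩))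
    (x : (B1.lvlSys χ f hcomm).Coh 𝒪 (B1.Reg G 𝒪)) :
    (X i₀ - C ((1 + ℓ₀ : ℕ) : 𝒪) : MvPolynomial I 𝒪) • polyOf 𝒪 iT iD P •
      (X i₀ - C ((1 + ℓ₀ : ℕ) : 𝒪) : MvPolynomial I 𝒪) • x = 0 := by
  have key : ∀ z : (B1.lvlSys χ f hcomm).Coh 𝒪 (B1.Reg G 𝒪),
      cohToH1 χ f hcomm 𝒪 (B1.Reg G 𝒪)
          ((X i₀ - C ((1 + ℓ₀ : ℕ) : 𝒪) : MvPolynomial I 𝒪) • z) =
        B1.heckeH 𝒪 (B1.Reg G 𝒪) (nData_equi (χ := χ) hℓ₀) (cohToH1 χ f hcomm 𝒪 (B1.Reg G 𝒪) z) -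
          (1 + ℓ₀) • cohToH1 χ f hcomm 𝒪 (B1.Reg G 𝒪) z := by
    intro z
    rw [sub_smul, map_sub, cohToH1_T_prime χ f hcomm 𝒪 i₀ hℓ₀ hi₀, cohToH1_C_smul]
  apply cohToH1_injective χ f hcomm 𝒪 (B1.Reg G 𝒪)
  rw [key, polyOf_smul χ f hcomm 𝒪 hiT u hiD, key, map_zero, sub_eq_zero, add_comm 1 ℓ₀]
  have := bridge_reg (χ := χ) (𝒪 := 𝒪) hsq hcop hχ hodd (fun ℓ => χ (u ℓ)) hu P hP hℓ₀ h1
    (cohToH1 χ f hcomm 𝒪 (B1.Reg G 𝒪) x)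
  rw [add_comm 1 ℓ₀] at this
  exact this

/-- **BRIDGE after localisation**: `P(⟨ℓ⟩^{-1/2} T_ℓ)` vanishes on the localisation of
`H¹(Γ₀(N₁ T), Reg G 𝒪)` at a prime not containing `T_{ℓ₀} - 1 - ℓ₀`. -/
theorem bridge_sys_loc (hsq : Squarefree T) (hcop : Nat.Coprime N₁ T)
    (hχ : ∀ u, ZMod.unitsMap (Dvd.intro_left N₁ rfl : T ∣ N₁ * T) u = 1 → χ u = 1)
    (hodd : Odd (Fintype.card G)) (hiT : ∀ ℓ, f (iT ℓ) = goodIdx ℓ)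
    (u : GoodPrime (N₁ * T * T) S → (ZMod (N₁ * T))ˣ) (hiD : ∀ ℓ, f (iD ℓ) = Sum.inr (u ℓ))
    (hu : ∀ ℓ, χ (u ℓ) * χ (u ℓ) * χ (lvlUnit ℓ) = 1)
    (P : FreeAlgebra ℤ (GoodPrime (N₁ * T * T) S))
    (hP : (evalForms P : ↥(CuspForm.heckeAlgebra (N₁ * T * T) 2 S)) = 0)
    {ℓ₀ : ℕ} [Fact ℓ₀.Prime] (hℓ₀ : ¬ ℓ₀ ∣ N₁ * T * T) (h1 : ((N₁ * T * T : ℕ) : ℤ) ∣ (ℓ₀ : ℤ) - 1)
    (i₀ : I) (hi₀ : f i₀ = Sum.inl (Sum.inl ⟨ℓ₀, Fact.out, not_dvd_lvl hℓ₀⟩))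
    (𝔪 : Ideal (MvPolynomial I 𝒪)) [𝔪.IsPrime]
    (h𝔪 : (X i₀ - C ((1 + ℓ₀ : ℕ) : 𝒪) : MvPolynomial I 𝒪) ∉ 𝔪)
    (y : (B1.lvlSys χ f hcomm).F 𝒪 (B1.Reg G 𝒪) 𝔪) :
    polyOf 𝒪 iT iD P • y = 0 := by
  induction y using LocalizedModule.induction_on with
  | h x t =>
    rw [LocalizedModule.smul'_mk, ← LocalizedModule.zero_mk t, LocalizedModule.mk_eq]
    set s : MvPolynomial I 𝒪 := X i₀ - C ((1 + ℓ₀ : ℕ) : 𝒪) with hs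
    have hs𝔪 : s * s ∈ 𝔪.primeCompl := 𝔪.primeCompl.mul_mem h𝔪 h𝔪
    refine ⟨⟨s * s, hs𝔪⟩, ?_⟩
    have h0 := bridge_sys χ f hcomm 𝒪 hsq hcop hχ hodd hiT u hiD hu P hP hℓ₀ h1 i₀ hi₀ x
    rw [← hs, ← mul_smul, ← mul_smul] at h0
    have h2 : s * polyOf 𝒪 iT iD P * s = s * s * polyOf 𝒪 iT iD P := by ring
    rw [h2, mul_smul] at h0
    rw [smul_zero, smul_zero, smul_comm]
    show t • (s * s) • polyOf 𝒪 iT iD P • x = 0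
    rw [h0, smul_zero]

end SysMain

end Fermat.Agent.S43lib.B2.Bridge
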