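/-
S43lib / B2 / Bridge / Asm (helper5).

**BRIDGE-ASM.**  The map `β : heckeLocal N S 𝒪 θ → H.hecke J'` from the localised Hecke algebra of the
weight two cusp forms of level `N` to the Hecke algebra of an abstract Hecke datum (helper1's
`Loc.AbsHecke`), with `π(T_ℓ) ↦ t_{⟨ℓ⟩^{-1/2}} · t_{T_ℓ}`:

* `exists_beta_absHecke` : the abstract form, from the relations `(R)` on `H.Mod` and the values of the
  point `H.ev`;
* `bridge_levelSys_loc` : `(R)` for `H.Mod = (B1.levelSys χ f).F 𝒪 (Reg G 𝒪) 𝔪`, for a general level `M` with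
  an equation `M = N₁ * T` (wrapper of `bridge_sys_loc`);
* `chi_eq_one_of_two` : for `N₁ = 2` every character of `(ℤ/M)ˣ` factors through `(ℤ/T)ˣ`.
-/
import Mathlib
import Fermat.Agent.S43lib.Loc.HeckeAlg
import Fermat.Agent.S43lib.B1.Comm
import Fermat.Agent.S43lib.B2.Bridge.Lift
import Fermat.Agent.S43lib.B2.Bridge.GlueSys

set_option autoImplicit false
set_option linter.unusedSectionVars false
set_option linter.style.haveILetI false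

noncomputable section

namespace Fermat.Agent.S43lib.B2.Bridge

open IsLocalRing MvPolynomial CuspForm ModularCurve
open Fermat.Agent.S43lib

/-! ### The abstract form -/

section Abstract

variable (N : ℕ) [NeZero N] (S : Set ℕ)
variable (𝒪 : Type) [CommRing 𝒪] [IsDomain 𝒪] [IsDiscreteValuationRing 𝒪]
  [IsAdicComplete (maximalIdeal 𝒪) 𝒪]
  (θ : heckeAlgebra N 2 S →+* ResidueField 𝒪) [hint : Fact (HasIntegralStructure N 2)]
variable {G : Type} [CommGroup G] {J : Type} (H : Loc.AbsHecke 𝒪 G J) {p : ℕ} (hH : H.Good p)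
  (J' : Set J) (iT iD : GoodPrime N S → J) (hiT : ∀ ℓ, iT ℓ ∈ J') (hiD : ∀ ℓ, iD ℓ ∈ J')

include hH in
set_option synthInstance.maxHeartbeats 400000 in
set_option maxHeartbeats 1000000 in
/-- **BRIDGE-ASM, abstract form.** -/
theorem exists_beta_absHecke (hS : ∀ q : ℕ, q.Prime → q ∣ N → q ∈ S)
    (hR : ∀ P : FreeAlgebra ℤ (GoodPrime N S), (evalForms P : ↥(heckeAlgebra N 2 S)) = 0 →
      ∀ m : H.Mod,
        (FreeAlgebra.lift ℤ (fun ℓ => (X (iD ℓ) * X (iT ℓ) : MvPolynomial J 𝒪)) P) • m = 0)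
    (hevT : ∀ ℓ : GoodPrime N S,
      H.ev (X (iT ℓ)) = θ (heckeAlgebra.T ℓ.2.1 ℓ.2.2.1 ℓ.2.2.2))
    (hevD : ∀ ℓ, H.ev (X (iD ℓ)) = 1) :
    ∃ β : heckeLocal N S 𝒪 θ →ₐ[𝒪] H.hecke J', ∀ ℓ : GoodPrime N S,
      β (heckeLocal.π N S 𝒪 θ (heckeAlgebra.T ℓ.2.1 ℓ.2.2.1 ℓ.2.2.2)) =
        H.tX J' (iD ℓ) (hiD ℓ) * H.tX J' (iT ℓ) (hiT ℓ) := by
  haveI := H.isLocalRing_hecke J' hH
  haveI := H.isLocalHom_algebraMap_hecke J' hH
  refine exists_heckeLocal_pushforward N S 𝒪 θ hS (H.hecke J')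
    (fun ℓ => H.tX J' (iD ℓ) (hiD ℓ) * H.tX J' (iT ℓ) (hiT ℓ)) ?_ ?_
  · intro P hP
    apply H.hecke_ext J'
    intro m
    rw [zero_smul]
    let b : GoodPrime N S → Module.End ℤ H.Mod := fun ℓ =>
      (DistribSMul.toAddMonoidHom H.Mod
        (X (iD ℓ) * X (iT ℓ) : MvPolynomial J 𝒪)).toIntLinearMap
    have h1 := lift_smul_eq (fun ℓ => H.tX J' (iD ℓ) (hiD ℓ) * H.tX J' (iT ℓ) (hiT ℓ)) b
      (fun ℓ v => by
        show (H.tX J' (iD ℓ) (hiD ℓ) * H.tX J' (iT ℓ) (hiT ℓ)) • v =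
          (X (iD ℓ) * X (iT ℓ) : MvPolynomial J 𝒪) • v
        rw [mul_smul, mul_smul, Loc.AbsHecke.tX_smul, Loc.AbsHecke.tX_smul]) P m
    have h2 := lift_smul_eq (fun ℓ => (X (iD ℓ) * X (iT ℓ) : MvPolynomial J 𝒪)) b
      (fun ℓ v => rfl) P m
    rw [h1, ← h2]
    exact hR P hP m
  · intro ℓ
    obtain ⟨a, ha⟩ := residue_surjective (θ (heckeAlgebra.T ℓ.2.1 ℓ.2.2.1 ℓ.2.2.2))
    have h1 := H.tX_sub_mem J' hH (hiT ℓ) (a := a) (ha.trans (hevT ℓ).symm)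
    have h2 := H.tX_sub_mem J' hH (hiD ℓ) (a := 1) (by rw [map_one, hevD])
    have e1 : residue (H.hecke J') (H.tX J' (iT ℓ) (hiT ℓ)) =
        residue (H.hecke J') (algebraMap 𝒪 (H.hecke J') a) := by
      rw [← sub_eq_zero, ← map_sub, residue_eq_zero_iff]
      exact h1
    have e2 : residue (H.hecke J') (H.tX J' (iD ℓ) (hiD ℓ)) = 1 := by
      rw [← map_one (residue (H.hecke J')), ← map_one (algebraMap 𝒪 (H.hecke J')),
        ← sub_eq_zero, ← map_sub, residue_eq_zero_iff]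
      exact h2
    rw [map_mul, e1, e2, one_mul, ← ha, ResidueField.map_residue]

end Abstract

/-! ### The relations for the level systems, at a general level -/

section Level

variable {M N₁ T : ℕ} [NeZero M] [NeZero (N₁ * T * T)] {S : Set ℕ}
variable {G : Type} [CommGroup G] [Fintype G] (χ : (ZMod M)ˣ →* G)
variable {I : Type} (f : I → B1.LvlIdx M)
variable (𝒪 : Type) [CommRing 𝒪] [IsDomain 𝒪] [CharZero 𝒪]
variable (iT iD : GoodPrime (N₁ * T * T) S → I)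

/-- **(R) for the level systems**: wrapper of `bridge_sys_loc` for a level `M` with an equation
`M = N₁ * T`, in terms of helper3's `B1.levelSys`. -/
theorem bridge_levelSys_loc (hM : M = N₁ * T) (hsq : Squarefree T) (hcop : Nat.Coprime N₁ T)
    (hTM : T ∣ M) (hχ : ∀ u, ZMod.unitsMap hTM u = 1 → χ u = 1)
    (hodd : Odd (Fintype.card G))
    (hiT : ∀ ℓ, ∃ h : ¬ ℓ.1 ∣ M, f (iT ℓ) = Sum.inl (Sum.inl ⟨ℓ.1, ℓ.2.1, h⟩))
    (u : GoodPrime (N₁ * T * T) S → (ZMod M)ˣ) (hiD : ∀ ℓ, f (iD ℓ) = Sum.inr (u ℓ))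
    (hu : ∀ (ℓ : GoodPrime (N₁ * T * T) S) (v : (ZMod M)ˣ), (v : ZMod M) = (ℓ.1 : ZMod M) →
      χ (u ℓ) * χ (u ℓ) * χ v = 1)
    (P : FreeAlgebra ℤ (GoodPrime (N₁ * T * T) S))
    (hP : (evalForms P : ↥(CuspForm.heckeAlgebra (N₁ * T * T) 2 S)) = 0)
    {ℓ₀ : ℕ} [Fact ℓ₀.Prime] (hℓ₀ : ¬ ℓ₀ ∣ N₁ * T * T)
    (h1 : ((N₁ * T * T : ℕ) : ℤ) ∣ (ℓ₀ : ℤ) - 1)
    (i₀ : I) (hi₀ : ∃ h : ¬ ℓ₀ ∣ M, f i₀ = Sum.inl (Sum.inl ⟨ℓ₀, Fact.out, h⟩))
    (𝔪 : Ideal (MvPolynomial I 𝒪)) [𝔪.IsPrime]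
    (h𝔪 : (X i₀ - C ((1 + ℓ₀ : ℕ) : 𝒪) : MvPolynomial I 𝒪) ∉ 𝔪)
    (y : (B1.levelSys χ f).F 𝒪 (B1.Reg G 𝒪) 𝔪) :
    (FreeAlgebra.lift ℤ (fun ℓ => (X (iD ℓ) * X (iT ℓ) : MvPolynomial I 𝒪)) P) • y = 0 := by
  subst hM
  exact bridge_sys_loc χ f (B1.commStmt (N₁ * T)) 𝒪 hsq hcop hχ hodd
    (fun ℓ => (hiT ℓ).choose_spec) u hiD (fun ℓ => hu ℓ (lvlUnit ℓ) (coe_lvlUnit ℓ)) P hP hℓ₀ h1
    i₀ hi₀.choose_spec 𝔪 h𝔪 y

end Level

/-! ### `N₁ = 2` -/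

/-- for `M = 2 T` with `T` odd, a unit of `ℤ/M` which is `≡ 1` modulo `T` is `1` -/
theorem unit_eq_one_of_two {M T : ℕ} [NeZero M] (hM : M = 2 * T) (hT : Odd T) (hTM : T ∣ M)
    (u : (ZMod M)ˣ) (hu : ZMod.unitsMap hTM u = 1) : u = 1 := by
  subst hM
  haveI : NeZero T := ⟨by rintro rfl; exact (NeZero.ne (2 * 0)) (by simp)⟩
  have hcop : Nat.Coprime 2 T := Nat.Coprime.symm (Nat.Coprime.symm hT.coprime_two_left)
  have hinj : Function.Injective (ZMod.unitsMap hTM) := by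
    have hcard : Nat.card (ZMod (2 * T))ˣ = Nat.card (ZMod T)ˣ := by
      rw [Nat.card_eq_fintype_card, Nat.card_eq_fintype_card, ZMod.card_units_eq_totient,
        ZMod.card_units_eq_totient, Nat.totient_mul hcop, Nat.totient_two, one_mul]
    have hsurj := ZMod.unitsMap_surjective hTM
    exact ((Nat.bijective_iff_surjective_and_card _).mpr ⟨hsurj, hcard⟩).1
  exact hinj (hu.trans (map_one _).symm)

end Fermat.Agent.S43lib.B2.Bridge
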