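/-
S43lib / B2 / Bridge / AsmC (helper5).

**BRIDGE-ASM (c).**  Compatibility of the maps `β_Q : heckeLocal → 𝕋_Q`, `β₀ : heckeLocal → 𝕋_∅` with helper7's
`e₀ : 𝕋_Q → 𝕋_∅` on the images of the `T_ℓ`:
`e₀ (t_{⟨n_Q⟩} · t_{T_ℓ}) = t_{⟨n₀⟩} · t_{T_ℓ}` whenever `χ₀(n_Q)² = χ₀(n₀)²` (both are `χ₀(ℓ)⁻¹`), `G₀` of odd order.

* `tX_inr_eq_of_chi_eq` : at the base level, `t_{⟨n⟩}` only depends on `χ₀(n)`;
* `e₀_mul_tX` : the compatibility.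
-/
import Mathlib
import Fermat.Agent.S43lib.Mod4.HeckeInst
import Fermat.Agent.S43lib.B3.DiamGact
import Fermat.Agent.S43lib.B2.Bridge.Glue

set_option autoImplicit false
set_option linter.unusedSectionVars false
set_option linter.style.haveILetI false

noncomputable section

namespace Fermat.Agent.S43lib.B2.Bridge

open IsLocalRing MvPolynomial
open Fermat.Agent.S43lib Fermat.Agent.S43lib.B1 Fermat.Agent.S43lib.Loc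
open Fermat.Agent.S43lib.Mod4 Fermat.Agent.S43lib.Mod4.HO

section Base

variable {𝒪 : Type} [CommRing 𝒪] [IsLocalRing 𝒪]
  (p : ℕ) {M₀ : ℕ} [NeZero M₀] {G₀ : Type} [CommGroup G₀]
  (χ₀ : (ZMod M₀)ˣ →* G₀) (t : ℕ → ResidueField 𝒪)

/-- at the base level the diamond operator `X_{inr n}` acts through `χ₀(n)` -/
theorem X_inr_smul_mod0 (n : {n : ℕ // n.Coprime M₀}) (y : Mod0 (𝒪 := 𝒪) p χ₀ t) :
    (X (Sum.inr n) : MvPolynomial (Idx p M₀) 𝒪) • y =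
      (abs0 (𝒪 := 𝒪) p χ₀ t).act (χ₀ (ZMod.unitOfCoprime n.1 n.2)) y :=
  B3.X_smul_eq_Gact χ₀ (B1.Reg G₀ 𝒪) (idx₀ p M₀) (Sum.inr n) (ZMod.unitOfCoprime n.1 n.2) rfl
    (RingHom.ker (evOf p M₀ (𝒪 := 𝒪) t)) y

/-- at the base level `t_{⟨n⟩}` only depends on `χ₀(n)` -/
theorem tX_inr_eq_of_chi_eq (J' : Set (Idx p M₀)) (n n' : {n : ℕ // n.Coprime M₀})
    (hn : Sum.inr n ∈ J') (hn' : Sum.inr n' ∈ J')
    (h : χ₀ (ZMod.unitOfCoprime n.1 n.2) = χ₀ (ZMod.unitOfCoprime n'.1 n'.2)) :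
    (abs0 (𝒪 := 𝒪) p χ₀ t).tX J' (Sum.inr n) hn = (abs0 (𝒪 := 𝒪) p χ₀ t).tX J' (Sum.inr n') hn' := by
  apply (abs0 (𝒪 := 𝒪) p χ₀ t).hecke_ext J'
  intro y
  rw [AbsHecke.tX_smul, AbsHecke.tX_smul]
  exact (X_inr_smul_mod0 p χ₀ t n y).trans ((congrArg (fun g => (abs0 (𝒪 := 𝒪) p χ₀ t).act g y) h).trans
    (X_inr_smul_mod0 p χ₀ t n' y).symm)

/-- `t_{⟨n⟩} = t_G(χ₀ n)` at the base level -/
theorem tX_inr_eq_tG (J' : Set (Idx p M₀)) (n : {n : ℕ // n.Coprime M₀}) (hn : Sum.inr n ∈ J') :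
    (abs0 (𝒪 := 𝒪) p χ₀ t).tX J' (Sum.inr n) hn =
      (abs0 (𝒪 := 𝒪) p χ₀ t).tG J' (χ₀ (ZMod.unitOfCoprime n.1 n.2)) := by
  apply (abs0 (𝒪 := 𝒪) p χ₀ t).hecke_ext J'
  intro y
  rw [AbsHecke.tX_smul, AbsHecke.tG_smul]
  exact X_inr_smul_mod0 p χ₀ t n y

end Base

section Compat

variable {𝒪 : Type} [CommRing 𝒪] [IsDomain 𝒪] [IsLocalRing 𝒪] [IsNoetherianRing 𝒪]
  [IsAdicComplete (maximalIdeal 𝒪) 𝒪] [Finite (ResidueField 𝒪)]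
  [Invertible (2 : 𝒪)] [Invertible (3 : 𝒪)]
  {p : ℕ} [hp : Fact p.Prime] {M₀ : ℕ} [NeZero M₀]
  {G₀ : Type} [CommGroup G₀] [Fintype G₀] {m : ℕ} {a : Fin m → ℕ}
  {χ₀ : (ZMod M₀)ˣ →* G₀} {Q : List ℕ} [NeZero (M₀ * Q.prod)] {hcop : M₀.Coprime Q.prod}
  {κ : (ZMod Q.prod)ˣ →* DeltaGrp p a} {t α : ℕ → ResidueField 𝒪}
  (D : TWData p χ₀ Q hcop κ t α)

/-- **BRIDGE-ASM (c)** -/
theorem e₀_mul_tX (hodd : Odd (Fintype.card G₀)) (iT : Idx p M₀) (hiT : iT ∈ JQ p M₀ Q)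
    (nQ n₀ : {n : ℕ // n.Coprime M₀}) (hnQ : Sum.inr nQ ∈ JQ p M₀ Q)
    (hsq : χ₀ (ZMod.unitOfCoprime nQ.1 nQ.2) * χ₀ (ZMod.unitOfCoprime nQ.1 nQ.2) =
      χ₀ (ZMod.unitOfCoprime n₀.1 n₀.2) * χ₀ (ZMod.unitOfCoprime n₀.1 n₀.2)) :
    D.e₀ ((absQ p χ₀ Q hcop κ t α).tX (JQ p M₀ Q) (Sum.inr nQ) hnQ *
        (absQ p χ₀ Q hcop κ t α).tX (JQ p M₀ Q) iT hiT) =
      (abs0 (𝒪 := 𝒪) p χ₀ t).tX Set.univ (Sum.inr n₀) (Set.mem_univ _) *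
        (abs0 (𝒪 := 𝒪) p χ₀ t).tX Set.univ iT (Set.mem_univ _) := by
  rw [map_mul, D.e₀_tX, D.e₀_tX]
  congr 1
  refine tX_inr_eq_of_chi_eq p χ₀ t Set.univ nQ n₀ _ _ ?_
  refine eq_of_sq_eq_of_odd_pow hodd hsq ?_ ?_
  · exact pow_card_eq_one
  · exact pow_card_eq_one

end Compat

end Fermat.Agent.S43lib.B2.Bridge
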