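/-
S43lib / B2 / Bridge / AsmQ (helper5).

**BRIDGE-ASM, concrete form** for helper7's Hecke objects (`Mod4/HeckeObj`, `Mod4/HeckeInst`): the maps
`β_Q : heckeLocal (2 T²) S 𝒪 θ → 𝕋_Q = BQ`, `M₀ · ∏Q = 2 T`, and `β₀ : heckeLocal (2 T₀²) S 𝒪 θ → 𝕋_∅ = T0`,
`M₀ = 2 T₀`, with
`β(π T_ℓ) = t_{⟨ℓ^k⟩} · t_{T_ℓ}`, `k = (|G| − 1) / 2` (so that `χ(ℓ^k)² χ(ℓ) = 1`).
-/
import Mathlib
import Fermat.Agent.S43lib.Mod4.HeckeInst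
import Fermat.Agent.S43lib.B2.Bridge.Asm
import Fermat.Agent.S43lib.B2.Bridge.AsmC

set_option autoImplicit false
set_option linter.unusedSectionVars false
set_option linter.style.haveILetI false

noncomputable section

namespace Fermat.Agent.S43lib.B2.Bridge

open IsLocalRing MvPolynomial CuspForm ModularCurve
open Fermat.Agent.S43lib Fermat.Agent.S43lib.B1 Fermat.Agent.S43lib.Loc
open Fermat.Agent.S43lib.Mod4 Fermat.Agent.S43lib.Mod4.HO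

/-! ### Units -/

section Units

/-- every unit modulo `m n` is the Chinese remainder of its reductions -/
theorem crtU_unitsMap {m n : ℕ} (h : m.Coprime n) (w : (ZMod (m * n))ˣ) :
    crtU h (ZMod.unitsMap (dvd_mul_right m n) w, ZMod.unitsMap (dvd_mul_left n m) w) = w := by
  obtain ⟨⟨a, b⟩, rfl⟩ := (crtU h).surjective w
  rw [unitsMap_crtU_fst, unitsMap_crtU_snd]

theorem coe_unitOfCoprime_eq {M : ℕ} (n : ℕ) (hn : n.Coprime M) (w : (ZMod M)ˣ)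
    (hw : ((w : (ZMod M)ˣ) : ZMod M) = (n : ZMod M)) : ZMod.unitOfCoprime n hn = w := by
  apply Units.ext
  rw [ZMod.coe_unitOfCoprime, hw]

theorem unitsMap_eq_unitOfCoprime {M M' : ℕ} (hdvd : M' ∣ M) (n : ℕ) (hn : n.Coprime M')
    (w : (ZMod M)ˣ) (hw : ((w : (ZMod M)ˣ) : ZMod M) = (n : ZMod M)) :
    ZMod.unitsMap hdvd w = ZMod.unitOfCoprime n hn := by
  apply Units.ext
  rw [ZMod.unitsMap_val, ZMod.coe_unitOfCoprime, hw, ZMod.cast_natCast hdvd]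

/-- for an odd multiple `c` of the order of the group, `g^((c-1)/2)` is a square root of `g⁻¹` -/
theorem pow_half_sq_mul' {G : Type*} [Group G] [Fintype G] {c : ℕ} (hodd : Odd c)
    (hdvd : Fintype.card G ∣ c) (g : G) : g ^ ((c - 1) / 2) * g ^ ((c - 1) / 2) * g = 1 := by
  obtain ⟨k, hk⟩ := hodd
  have h1 : (c - 1) / 2 = k := by omega
  rw [h1, ← pow_add, ← pow_succ]
  have h2 : k + k + 1 = c := by omega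
  obtain ⟨e, he⟩ := hdvd
  rw [h2, he, pow_mul, pow_card_eq_one, one_pow]

/-- in a group of odd order `c`, `g^((c-1)/2)` is a square root of `g⁻¹` -/
theorem pow_half_sq_mul {G : Type*} [Group G] [Fintype G] (hodd : Odd (Fintype.card G)) (g : G) :
    g ^ ((Fintype.card G - 1) / 2) * g ^ ((Fintype.card G - 1) / 2) * g = 1 :=
  pow_half_sq_mul' hodd (dvd_refl _) g

end Units

/-! ### The index maps -/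

section Index

variable (p : ℕ) {M₀ : ℕ} [NeZero M₀] {N : ℕ} {S : Set ℕ}

theorem not_dvd_of_good (hM₀N : M₀ ∣ N) (ℓ : GoodPrime N S) : ¬ ℓ.1 ∣ M₀ :=
  fun h => ℓ.2.2.1 (h.trans hM₀N)

theorem coprime_pow_of_good (hM₀N : M₀ ∣ N) (ℓ : GoodPrime N S) (k : ℕ) :
    (ℓ.1 ^ k).Coprime M₀ :=
  Nat.Coprime.pow_left k ((Nat.Prime.coprime_iff_not_dvd ℓ.2.1).mpr (not_dvd_of_good hM₀N ℓ))

/-- the index of `T_ℓ` -/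
def idxT (hM₀N : M₀ ∣ N) (hpS : p ∈ S) (ℓ : GoodPrime N S) : Idx p M₀ :=
  Sum.inl ⟨ℓ.1, ℓ.2.1, not_dvd_of_good hM₀N ℓ, fun h => ℓ.2.2.2 (by rw [h]; exact hpS)⟩

/-- the index of the diamond operator `⟨ℓ^k⟩` -/
def idxD (hM₀N : M₀ ∣ N) (k : ℕ) (ℓ : GoodPrime N S) : Idx p M₀ :=
  Sum.inr ⟨ℓ.1 ^ k, coprime_pow_of_good hM₀N ℓ k⟩

end Index

/-! ### Level `Q` -/

section LevelQ

variable {𝒪 : Type} [CommRing 𝒪] [IsDomain 𝒪] [IsDiscreteValuationRing 𝒪]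
  [IsAdicComplete (maximalIdeal 𝒪) 𝒪] [CharZero 𝒪]
  (p : ℕ) {M₀ : ℕ} [NeZero M₀]
  {G₀ Δ : Type} [CommGroup G₀] [CommGroup Δ] [Fintype G₀] [Fintype Δ]
  (χ₀ : (ZMod M₀)ˣ →* G₀) (Q : List ℕ) [NeZero (M₀ * Q.prod)] (hcop : M₀.Coprime Q.prod)
  (κ : (ZMod Q.prod)ˣ →* Δ) (t α : ℕ → ResidueField 𝒪)

theorem dvd_sq_of_eq {M₀ Qp T : ℕ} (hM : M₀ * Qp = 2 * T) : M₀ ∣ 2 * T * T :=
  (Dvd.intro Qp rfl : M₀ ∣ M₀ * Qp).trans (hM ▸ Dvd.intro T rfl)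

theorem lvl_dvd_sq_of_eq {M₀ Qp T : ℕ} (hM : M₀ * Qp = 2 * T) : M₀ * Qp ∣ 2 * T * T :=
  hM ▸ Dvd.intro T rfl

variable {T : ℕ} [NeZero (2 * T * T)] {S : Set ℕ}

theorem not_dvd_lvlQ (hM : M₀ * Q.prod = 2 * T) (ℓ : GoodPrime (2 * T * T) S) :
    ¬ ℓ.1 ∣ M₀ * Q.prod :=
  fun h => ℓ.2.2.1 (h.trans (lvl_dvd_sq_of_eq hM))

theorem not_mem_Q_of_good (hM : M₀ * Q.prod = 2 * T) (ℓ : GoodPrime (2 * T * T) S) :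
    ℓ.1 ∉ Q := fun h =>
  not_dvd_lvlQ Q hM ℓ (Dvd.dvd.mul_left (List.dvd_prod h) M₀)

variable (hM : M₀ * Q.prod = 2 * T) (hpS : p ∈ S)

theorem idxT_mem_JQ (hQp : ∀ q ∈ Q, q.Prime ∧ ¬ q ∣ M₀ ∧ q ≠ p) (ℓ : GoodPrime (2 * T * T) S) :
    idxT p (dvd_sq_of_eq hM) hpS ℓ ∈ JQ p M₀ Q := by
  intro q hq h
  have h1 : oIdx p M₀ q = Sum.inl ⟨q, hQp q hq⟩ := by
    unfold oIdx
    rw [dif_pos (hQp q hq)]
  rw [h1] at h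
  have h2 : ℓ.1 = q := congrArg (fun i : {ℓ : ℕ // ℓ.Prime ∧ ¬ ℓ ∣ M₀ ∧ ℓ ≠ p} => i.1)
    (Sum.inl_injective h)
  exact not_mem_Q_of_good Q hM ℓ (h2 ▸ hq)

theorem idxD_mem_JQ (hQp : ∀ q ∈ Q, q.Prime ∧ ¬ q ∣ M₀ ∧ q ≠ p) (k : ℕ)
    (ℓ : GoodPrime (2 * T * T) S) : idxD p (dvd_sq_of_eq hM) k ℓ ∈ JQ p M₀ Q := by
  intro q hq h
  have h1 : oIdx p M₀ q = Sum.inl ⟨q, hQp q hq⟩ := by
    unfold oIdx
    rw [dif_pos (hQp q hq)]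
  rw [h1] at h
  exact Sum.inr_ne_inl h

/-- the unit of level `M₀ ∏Q` of the diamond index `⟨ℓ^k⟩` is the class of `ℓ^k` -/
theorem idxQ_idxD (k : ℕ) (ℓ : GoodPrime (2 * T * T) S) (v : (ZMod (M₀ * Q.prod))ˣ)
    (hv : ((v : (ZMod (M₀ * Q.prod))ˣ) : ZMod (M₀ * Q.prod)) = (ℓ.1 : ZMod (M₀ * Q.prod))) :
    idxQ p hcop (idxD p (dvd_sq_of_eq hM) k ℓ) = Sum.inr (v ^ k) := by
  unfold idxD
  rw [idxQ_inr]
  congr 1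
  have hvk : (((v ^ k : (ZMod (M₀ * Q.prod))ˣ) : (ZMod (M₀ * Q.prod))ˣ) : ZMod (M₀ * Q.prod)) =
      ((ℓ.1 ^ k : ℕ) : ZMod (M₀ * Q.prod)) := by
    rw [Units.val_pow_eq_pow_val, hv, Nat.cast_pow]
  have hcopQ : (ℓ.1 ^ k).Coprime Q.prod := by
    refine Nat.Coprime.pow_left k ((Nat.Prime.coprime_iff_not_dvd ℓ.2.1).mpr fun h => ?_)
    exact not_dvd_lvlQ Q hM ℓ (Dvd.dvd.mul_left h M₀)
  have h2 : unitQ Q.prod (ℓ.1 ^ k) = ZMod.unitOfCoprime (ℓ.1 ^ k) hcopQ := by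
    unfold unitQ
    rw [dif_pos hcopQ]
  rw [h2, ← unitsMap_eq_unitOfCoprime (dvd_mul_right M₀ Q.prod) (ℓ.1 ^ k) _ (v ^ k) hvk,
    ← unitsMap_eq_unitOfCoprime (dvd_mul_left Q.prod M₀) (ℓ.1 ^ k) hcopQ (v ^ k) hvk]
  exact crtU_unitsMap hcop (v ^ k)

set_option synthInstance.maxHeartbeats 400000 in
set_option maxHeartbeats 2000000 in
/-- **BRIDGE-ASM at level `Q`** -/
theorem exists_betaQ (hsq : Squarefree T) (hT : Odd T)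
    (hS : ∀ q : ℕ, q.Prime → q ∣ 2 * T * T → q ∈ S)
    (θ : heckeAlgebra (2 * T * T) 2 S →+* ResidueField 𝒪)
    [hint : Fact (HasIntegralStructure (2 * T * T) 2)]
    {p' : ℕ} (hH : (absQ p χ₀ Q hcop κ t α).Good p')
    (hodd : Odd (Fintype.card (G₀ × Δ)))
    (hQp : ∀ q ∈ Q, q.Prime ∧ ¬ q ∣ M₀ ∧ q ≠ p)
    (hθ : ∀ ℓ : GoodPrime (2 * T * T) S, θ (heckeAlgebra.T ℓ.2.1 ℓ.2.2.1 ℓ.2.2.2) = t ℓ.1)
    {ℓ₀ : ℕ} [Fact ℓ₀.Prime] (hℓ₀ : ¬ ℓ₀ ∣ 2 * T * T) (hℓ₀p : ℓ₀ ≠ p)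
    (h1 : ((2 * T * T : ℕ) : ℤ) ∣ (ℓ₀ : ℤ) - 1)
    (hne : t ℓ₀ ≠ ((1 + ℓ₀ : ℕ) : ResidueField 𝒪)) :
    ∃ β : heckeLocal (2 * T * T) S 𝒪 θ →ₐ[𝒪] BQ p χ₀ Q hcop κ t α,
      ∀ ℓ : GoodPrime (2 * T * T) S,
        β (heckeLocal.π (2 * T * T) S 𝒪 θ (heckeAlgebra.T ℓ.2.1 ℓ.2.2.1 ℓ.2.2.2)) =
          (absQ p χ₀ Q hcop κ t α).tX (JQ p M₀ Q)
            (idxD p (dvd_sq_of_eq hM) ((Fintype.card (G₀ × Δ) - 1) / 2) ℓ)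
            (idxD_mem_JQ p Q hM hQp _ ℓ) *
          (absQ p χ₀ Q hcop κ t α).tX (JQ p M₀ Q) (idxT p (dvd_sq_of_eq hM) hpS ℓ)
            (idxT_mem_JQ p Q hM hpS hQp ℓ) := by
  classical
  set k := (Fintype.card (G₀ × Δ) - 1) / 2 with hk
  have hTM : T ∣ M₀ * Q.prod := hM ▸ Dvd.intro_left 2 rfl
  have hcop2 : Nat.Coprime 2 T := Nat.Coprime.symm hT.coprime_two_right
  -- the units of level `M₀ ∏Q` of the good primes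
  have hunit : ∀ ℓ : GoodPrime (2 * T * T) S, ∃ v : (ZMod (M₀ * Q.prod))ˣ,
      ((v : (ZMod (M₀ * Q.prod))ˣ) : ZMod (M₀ * Q.prod)) = (ℓ.1 : ZMod (M₀ * Q.prod)) := by
    intro ℓ
    have hc : ℓ.1.Coprime (M₀ * Q.prod) :=
      (Nat.Prime.coprime_iff_not_dvd ℓ.2.1).mpr (not_dvd_lvlQ Q hM ℓ)
    exact ⟨ZMod.unitOfCoprime ℓ.1 hc, ZMod.coe_unitOfCoprime ℓ.1 hc⟩
  choose vv hvv using hunit
  have hℓ₀M₀ : ¬ ℓ₀ ∣ M₀ := fun h => hℓ₀ (h.trans (dvd_sq_of_eq hM))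
  have hℓ₀M : ¬ ℓ₀ ∣ M₀ * Q.prod := fun h => hℓ₀ (h.trans (lvl_dvd_sq_of_eq hM))
  have hℓ₀Q : ℓ₀ ∉ Q := fun h => hℓ₀M (Dvd.dvd.mul_left (List.dvd_prod h) M₀)
  set i₀ : Idx p M₀ := Sum.inl ⟨ℓ₀, Fact.out, hℓ₀M₀, hℓ₀p⟩ with hi₀
  refine exists_beta_absHecke (2 * T * T) S 𝒪 θ (absQ p χ₀ Q hcop κ t α) hH (JQ p M₀ Q)
    (idxT p (dvd_sq_of_eq hM) hpS) (idxD p (dvd_sq_of_eq hM) k)
    (idxT_mem_JQ p Q hM hpS hQp) (idxD_mem_JQ p Q hM hQp k) hS ?_ ?_ ?_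
  · -- the relations
    intro P hP y
    refine bridge_levelSys_loc (chiQ χ₀ κ) (idxQ p hcop) 𝒪 (idxT p (dvd_sq_of_eq hM) hpS)
      (idxD p (dvd_sq_of_eq hM) k) hM hsq hcop2 hTM ?_ hodd ?_ (fun ℓ => vv ℓ ^ k) ?_ ?_ P hP hℓ₀ h1
      i₀ ⟨hℓ₀M, idxQ_inl_of_not_dvd p hcop _ hℓ₀M⟩ (RingHom.ker (evOf p M₀ (tQ t α Q))) ?_ y
    · intro u hu
      rw [unit_eq_one_of_two hM hT hTM u hu, map_one]
    · intro ℓ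
      exact ⟨not_dvd_lvlQ Q hM ℓ, idxQ_inl_of_not_dvd p hcop _ (not_dvd_lvlQ Q hM ℓ)⟩
    · intro ℓ
      exact idxQ_idxD p Q hcop hM k ℓ (vv ℓ) (hvv ℓ)
    · intro ℓ v hv
      have h2 : v = vv ℓ := Units.ext (hv.trans (hvv ℓ).symm)
      rw [h2, map_pow]
      exact pow_half_sq_mul hodd _
    · rw [RingHom.mem_ker, map_sub, evOf_X_inl, evOf_C, map_natCast]
      have h3 : tQ t α Q ℓ₀ = t ℓ₀ := by
        unfold tQ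
        rw [if_neg hℓ₀Q]
      rw [h3]
      exact sub_ne_zero.mpr hne
  · intro ℓ
    show evOf p M₀ (tQ t α Q) (X (idxT p (dvd_sq_of_eq hM) hpS ℓ)) = _
    unfold idxT
    rw [evOf_X_inl, hθ ℓ]
    unfold tQ
    rw [if_neg (not_mem_Q_of_good Q hM ℓ)]
  · intro ℓ
    show evOf p M₀ (tQ t α Q) (X (idxD p (dvd_sq_of_eq hM) k ℓ)) = 1
    unfold idxD
    rw [evOf_X_inr]

end LevelQ

/-! ### The base level -/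

section Level0

variable {𝒪 : Type} [CommRing 𝒪] [IsDomain 𝒪] [IsDiscreteValuationRing 𝒪]
  [IsAdicComplete (maximalIdeal 𝒪) 𝒪] [CharZero 𝒪]
  (p : ℕ) {M₀ : ℕ} [NeZero M₀] {G₀ : Type} [CommGroup G₀] [Fintype G₀]
  (χ₀ : (ZMod M₀)ˣ →* G₀) (t : ℕ → ResidueField 𝒪)

theorem dvd_sq_of_eq₀ {M₀ T₀ : ℕ} (hM₀ : M₀ = 2 * T₀) : M₀ ∣ 2 * T₀ * T₀ :=
  hM₀ ▸ Dvd.intro T₀ rfl

variable {T₀ : ℕ} [NeZero (2 * T₀ * T₀)] {S : Set ℕ} (hM₀ : M₀ = 2 * T₀) (hpS : p ∈ S)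

set_option synthInstance.maxHeartbeats 400000 in
set_option maxHeartbeats 2000000 in
/-- **BRIDGE-ASM at the base level** -/
theorem exists_beta0 (hsq : Squarefree T₀) (hT : Odd T₀)
    (hS : ∀ q : ℕ, q.Prime → q ∣ 2 * T₀ * T₀ → q ∈ S)
    (θ : heckeAlgebra (2 * T₀ * T₀) 2 S →+* ResidueField 𝒪)
    [hint : Fact (HasIntegralStructure (2 * T₀ * T₀) 2)]
    {p' : ℕ} (hH : (abs0 (𝒪 := 𝒪) p χ₀ t).Good p')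
    (hodd : Odd (Fintype.card G₀))
    (hθ : ∀ ℓ : GoodPrime (2 * T₀ * T₀) S, θ (heckeAlgebra.T ℓ.2.1 ℓ.2.2.1 ℓ.2.2.2) = t ℓ.1)
    {ℓ₀ : ℕ} [Fact ℓ₀.Prime] (hℓ₀ : ¬ ℓ₀ ∣ 2 * T₀ * T₀) (hℓ₀p : ℓ₀ ≠ p)
    (h1 : ((2 * T₀ * T₀ : ℕ) : ℤ) ∣ (ℓ₀ : ℤ) - 1)
    (hne : t ℓ₀ ≠ ((1 + ℓ₀ : ℕ) : ResidueField 𝒪)) :
    ∃ β : heckeLocal (2 * T₀ * T₀) S 𝒪 θ →ₐ[𝒪] T0 (𝒪 := 𝒪) p χ₀ t,
      ∀ ℓ : GoodPrime (2 * T₀ * T₀) S,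
        β (heckeLocal.π (2 * T₀ * T₀) S 𝒪 θ (heckeAlgebra.T ℓ.2.1 ℓ.2.2.1 ℓ.2.2.2)) =
          (abs0 (𝒪 := 𝒪) p χ₀ t).tX Set.univ
            (idxD p (dvd_sq_of_eq₀ hM₀) ((Fintype.card G₀ - 1) / 2) ℓ) (Set.mem_univ _) *
          (abs0 (𝒪 := 𝒪) p χ₀ t).tX Set.univ (idxT p (dvd_sq_of_eq₀ hM₀) hpS ℓ)
            (Set.mem_univ _) := by
  classical
  set k := (Fintype.card G₀ - 1) / 2 with hk
  have hTM : T₀ ∣ M₀ := hM₀ ▸ Dvd.intro_left 2 rfl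
  have hcop2 : Nat.Coprime 2 T₀ := Nat.Coprime.symm hT.coprime_two_right
  have hℓ₀M₀ : ¬ ℓ₀ ∣ M₀ := fun h => hℓ₀ (h.trans (dvd_sq_of_eq₀ hM₀))
  set i₀ : Idx p M₀ := Sum.inl ⟨ℓ₀, Fact.out, hℓ₀M₀, hℓ₀p⟩ with hi₀
  refine exists_beta_absHecke (2 * T₀ * T₀) S 𝒪 θ (abs0 (𝒪 := 𝒪) p χ₀ t) hH Set.univ
    (idxT p (dvd_sq_of_eq₀ hM₀) hpS) (idxD p (dvd_sq_of_eq₀ hM₀) k)
    (fun _ => Set.mem_univ _) (fun _ => Set.mem_univ _) hS ?_ ?_ ?_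
  · -- the relations
    intro P hP y
    refine bridge_levelSys_loc χ₀ (idx₀ p M₀) 𝒪 (idxT p (dvd_sq_of_eq₀ hM₀) hpS)
      (idxD p (dvd_sq_of_eq₀ hM₀) k) hM₀ hsq hcop2 hTM ?_ hodd ?_
      (fun ℓ => ZMod.unitOfCoprime (ℓ.1 ^ k) (coprime_pow_of_good (dvd_sq_of_eq₀ hM₀) ℓ k))
      (fun ℓ => rfl) ?_ P hP hℓ₀ h1 i₀ ⟨hℓ₀M₀, rfl⟩ (RingHom.ker (evOf p M₀ (𝒪 := 𝒪) t)) ?_ y
    · intro u hu
      rw [unit_eq_one_of_two hM₀ hT hTM u hu, map_one]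
    · intro ℓ
      exact ⟨not_dvd_of_good (dvd_sq_of_eq₀ hM₀) ℓ, rfl⟩
    · intro ℓ v hv
      have h2 : ZMod.unitOfCoprime (ℓ.1 ^ k) (coprime_pow_of_good (dvd_sq_of_eq₀ hM₀) ℓ k) =
          v ^ k := by
        apply coe_unitOfCoprime_eq
        rw [Units.val_pow_eq_pow_val, hv, Nat.cast_pow]
      rw [h2, map_pow]
      exact pow_half_sq_mul hodd _
    · rw [RingHom.mem_ker, map_sub, evOf_X_inl, evOf_C, map_natCast]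
      exact sub_ne_zero.mpr hne
  · intro ℓ
    show evOf p M₀ t (X (idxT p (dvd_sq_of_eq₀ hM₀) hpS ℓ)) = _
    unfold idxT
    rw [evOf_X_inl, hθ ℓ]
  · intro ℓ
    show evOf p M₀ t (X (idxD p (dvd_sq_of_eq₀ hM₀) k ℓ)) = 1
    unfold idxD
    rw [evOf_X_inr]

end Level0

/-! ### Compatibility with `e₀` -/

section Compat

variable {𝒪 : Type} [CommRing 𝒪] [IsDomain 𝒪] [IsLocalRing 𝒪] [IsNoetherianRing 𝒪]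
  [IsAdicComplete (maximalIdeal 𝒪) 𝒪] [Finite (ResidueField 𝒪)]
  [Invertible (2 : 𝒪)] [Invertible (3 : 𝒪)]
  {p : ℕ} [hp : Fact p.Prime] {M₀ : ℕ} [NeZero M₀]
  {G₀ : Type} [CommGroup G₀] [Fintype G₀] {m : ℕ} {a : Fin m → ℕ}
  {χ₀ : (ZMod M₀)ˣ →* G₀} {Q : List ℕ} [NeZero (M₀ * Q.prod)] {hcop : M₀.Coprime Q.prod}
  {κ : (ZMod Q.prod)ˣ →* DeltaGrp p a} {t α : ℕ → ResidueField 𝒪}
  (D : TWData p χ₀ Q hcop κ t α)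

/-- **BRIDGE-ASM (c), concrete form**: `e₀ (t_{⟨ℓ^{k_Q}⟩} t_{T_ℓ}) = t_{⟨ℓ^{k₀}⟩} t_{T_ℓ}` -/
theorem e₀_idxD_mul_idxT {N N' : ℕ} {S S' : Set ℕ} (hM₀N : M₀ ∣ N) (hM₀N' : M₀ ∣ N')
    (hpS : p ∈ S) (hpS' : p ∈ S') (hodd : Odd (Fintype.card (G₀ × DeltaGrp p a)))
    (ℓ : GoodPrime N S) (ℓ' : GoodPrime N' S') (hℓ : ℓ.1 = ℓ'.1)
    (h1 : idxD p hM₀N ((Fintype.card (G₀ × DeltaGrp p a) - 1) / 2) ℓ ∈ JQ p M₀ Q)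
    (h2 : idxT p hM₀N hpS ℓ ∈ JQ p M₀ Q) :
    D.e₀ ((absQ p χ₀ Q hcop κ t α).tX (JQ p M₀ Q)
        (idxD p hM₀N ((Fintype.card (G₀ × DeltaGrp p a) - 1) / 2) ℓ) h1 *
        (absQ p χ₀ Q hcop κ t α).tX (JQ p M₀ Q) (idxT p hM₀N hpS ℓ) h2) =
      (abs0 (𝒪 := 𝒪) p χ₀ t).tX Set.univ
          (idxD p hM₀N' ((Fintype.card G₀ - 1) / 2) ℓ') (Set.mem_univ _) *
        (abs0 (𝒪 := 𝒪) p χ₀ t).tX Set.univ (idxT p hM₀N' hpS' ℓ') (Set.mem_univ _) := by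
  have hG₀odd : Odd (Fintype.card G₀) := by
    rw [Fintype.card_prod] at hodd
    exact (Nat.odd_mul.mp hodd).1
  have hdvd : Fintype.card G₀ ∣ Fintype.card (G₀ × DeltaGrp p a) := by
    rw [Fintype.card_prod]
    exact Dvd.intro _ rfl
  have hT : idxT p hM₀N hpS ℓ = idxT p hM₀N' hpS' ℓ' := by
    unfold idxT
    congr 1
    exact Subtype.ext hℓ
  have key := e₀_mul_tX D hG₀odd (idxT p hM₀N hpS ℓ) h2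
    ⟨ℓ.1 ^ ((Fintype.card (G₀ × DeltaGrp p a) - 1) / 2), coprime_pow_of_good hM₀N ℓ _⟩
    ⟨ℓ'.1 ^ ((Fintype.card G₀ - 1) / 2), coprime_pow_of_good hM₀N' ℓ' _⟩ h1 (by
      -- both squares are `χ₀(ℓ)⁻¹`
      have hc : ℓ.1.Coprime M₀ :=
        (Nat.Prime.coprime_iff_not_dvd ℓ.2.1).mpr (not_dvd_of_good hM₀N ℓ)
      set w : (ZMod M₀)ˣ := ZMod.unitOfCoprime ℓ.1 hc with hw
      have e1 : ZMod.unitOfCoprime (ℓ.1 ^ ((Fintype.card (G₀ × DeltaGrp p a) - 1) / 2))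
          (coprime_pow_of_good hM₀N ℓ _) = w ^ ((Fintype.card (G₀ × DeltaGrp p a) - 1) / 2) := by
        apply coe_unitOfCoprime_eq
        rw [Units.val_pow_eq_pow_val, hw, ZMod.coe_unitOfCoprime, Nat.cast_pow]
      have e2 : ZMod.unitOfCoprime (ℓ'.1 ^ ((Fintype.card G₀ - 1) / 2))
          (coprime_pow_of_good hM₀N' ℓ' _) = w ^ ((Fintype.card G₀ - 1) / 2) := by
        apply coe_unitOfCoprime_eq
        rw [Units.val_pow_eq_pow_val, hw, ZMod.coe_unitOfCoprime, Nat.cast_pow, hℓ]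
      show χ₀ (ZMod.unitOfCoprime _ _) * χ₀ (ZMod.unitOfCoprime _ _) =
        χ₀ (ZMod.unitOfCoprime _ _) * χ₀ (ZMod.unitOfCoprime _ _)
      rw [e1, e2, map_pow, map_pow]
      have e3 := pow_half_sq_mul' hodd hdvd (χ₀ w)
      have e4 := pow_half_sq_mul hG₀odd (χ₀ w)
      exact mul_right_cancel (e3.trans e4.symm))
  rw [← hT]
  exact key

end Compat

end Fermat.Agent.S43lib.B2.Bridge
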