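/-
S43lib / B2 / Bridge / AsmHub (helper5).

**BETA-INST**: helper7's hub bricks `exists_betaQ`, `exists_beta0` (`Mod4/SPEC_bricks.txt`), i.e. the maps
`β_Q : R_{S'} = heckeLocal (lvlTw p S') S' 𝒪 θ_{S'} → 𝕋_Q` and `β₀ : R_S → 𝕋_∅` of `AsmQ.lean` in the vocabulary of the
hub (`Mod4/HubDefs`), with the diamond operator `⟨ℓ^k⟩` replaced by the group element `g` with `g² χ(ℓ) = 1`.
-/
import Mathlib
import Fermat.Agent.S43lib.Mod4.HubDefs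
import Fermat.Agent.S43lib.Mod4.LGCIface
import Fermat.Agent.S43lib.B2.Bridge.Asm
import Fermat.Agent.S43lib.B2.Bridge.AsmQ

set_option autoImplicit false
set_option linter.unusedSectionVars false
set_option linter.unusedVariables false
set_option linter.style.haveILetI false

noncomputable section

namespace Fermat.Agent.S43lib.Mod4.Hub

open IsLocalRing Polynomial CuspForm Fermat.Agent.S43lib.B3 Fermat.Agent.S43lib.Loc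
  Fermat.Agent.S56lib.Main Fermat.Agent.S43lib.Mod4.HO Fermat.Agent.S56lib.TW ExtCitation
  Fermat.Agent.S43lib.BigImg WeierstrassCurve WeierstrassCurve.Affine WeierstrassCurve.Affine.Point FreyPackage

local notation "GQ" => (AlgebraicClosure ℚ ≃ₐ[ℚ] AlgebraicClosure ℚ)
local notation "Qb" => AlgebraicClosure ℚ

/-! ### arithmetic (auxiliary lemmas, in the sub-namespace `H5` to avoid clashes inside `Mod4.Hub`) -/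

namespace H5

/-- `tp p S'` is a product of distinct primes -/
theorem squarefree_tp (p : ℕ) (S' : Finset ℕ) : Squarefree (tp p S') := by
  unfold tp
  refine Finset.squarefree_prod_of_pairwise_isCoprime ?_ ?_
  · intro a ha b hb hab
    have ha' : a.Prime := (Finset.mem_filter.1 (Finset.mem_coe.1 ha)).2
    have hb' : b.Prime := (Finset.mem_filter.1 (Finset.mem_coe.1 hb)).2
    show IsRelPrime a b
    rw [← Nat.coprime_iff_isRelPrime]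
    exact (Nat.coprime_primes ha' hb').2 hab
  · intro a ha
    exact (Finset.mem_filter.1 ha).2.prime.squarefree

theorem odd_tp (p : ℕ) (S' : Finset ℕ) : Odd (tp p S') := by
  rw [← Nat.not_even_iff_odd, even_iff_two_dvd]
  exact not_two_dvd_tp p S'

/-- the order of `Δ = ∏ ℤ/p^{a_i}` is odd for `p` odd -/
theorem odd_card_deltaGrp (p : ℕ) [hp : Fact p.Prime] (hp2 : p ≠ 2) {m : ℕ} (a : Fin m → ℕ) :
    Odd (Fintype.card (DeltaGrp p a)) := by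
  obtain ⟨n, hn⟩ := (IsPGroup.iff_card.1 (isPGroup_deltaGrp p a))
  rw [← Nat.card_eq_fintype_card, hn]
  exact (hp.out.odd_of_ne_two hp2).pow

/-- a non-Eisenstein prime `ℓ₀ ≡ 1 mod m` does not divide `m` -/
theorem not_dvd_of_dvd_sub_one {m ℓ₀ : ℕ} (hℓ₀ : ℓ₀.Prime) (h : m ∣ ℓ₀ - 1) : ¬ ℓ₀ ∣ m := by
  intro h'
  have h2 : ℓ₀ ∣ ℓ₀ - 1 := h'.trans h
  have h3 := Nat.le_of_dvd (by have := hℓ₀.two_le; omega) h2
  have := hℓ₀.two_le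
  omega

theorem int_dvd_sub_one {m ℓ₀ : ℕ} (hℓ₀ : ℓ₀.Prime) (h : m ∣ ℓ₀ - 1) :
    ((m : ℕ) : ℤ) ∣ (ℓ₀ : ℤ) - 1 := by
  have h1 := Int.natCast_dvd_natCast.2 h
  rwa [Nat.cast_sub hℓ₀.one_lt.le, Nat.cast_one] at h1

end H5

open H5

variable {P : FreyPackage} {N : ℕ} (Sg : SideGal P N)

/-! ## brick BETA-INST -/

set_option synthInstance.maxHeartbeats 400000 in
set_option maxHeartbeats 4000000 in
theorem exists_betaQ (hH : HubHyp Sg) {r : ℕ} (n : ℕ) (qv : Fin r → ℕ) (hinj : Function.Injective qv)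
    (hqv : ∀ i, (qv i).Prime ∧ qv i ∉ Sg.S ∧ P.p ^ (n + 1) ∣ qv i - 1)
    [NeZero (M₀ N * (QL qv).prod)] (hcop : (M₀ N).Coprime (QL qv).prod)
    (hgood : (HQ Sg n qv hcop).Good P.p) (hS' : Sg.good (SQ P N qv)) :
    ∃ β : (Sg.F (SQ P N qv) hS').R →ₐ[Sg.𝒪] TQ Sg n qv hcop,
      ∀ (ℓ : ℕ) (hℓ : ℓ.Prime) (hℓN : ¬ ℓ ∣ lvlTw P.p (SQ P N qv))
        (hℓS : ℓ ∉ (↑(SQ P N qv) : Set ℕ)) (hi : ℓ.Prime ∧ ¬ ℓ ∣ M₀ N ∧ ℓ ≠ P.p)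
        (hJ : (Sum.inl ⟨ℓ, hi⟩ : Idx P.p (M₀ N)) ∈ JQ P.p (M₀ N) (QL qv))
        (hℓM : ℓ.Coprime (M₀ N * (QL qv).prod)) (g : G₀ P N × DelQ P r n),
        g * g * chiQ (χ₀ P N) (kapQ P n qv) (ZMod.unitOfCoprime ℓ hℓM) = 1 →
        β (heckeLocal.π _ _ _ _ (heckeAlgebra.T hℓ hℓN hℓS)) =
          (HQ Sg n qv hcop).tG (JQ P.p (M₀ N) (QL qv)) g *
            (HQ Sg n qv hcop).tX (JQ P.p (M₀ N) (QL qv)) (Sum.inl ⟨ℓ, hi⟩) hJ := by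
  classical
  have hp2 : P.p ≠ 2 := Sg.hp2
  have hqv' : ∀ i, (qv i).Prime ∧ qv i ∉ ({P.p, 2} ∪ oddPrimes N : Finset ℕ) :=
    fun i => ⟨(hqv i).1, (hqv i).2.1⟩
  have hM : M₀ N * (QL qv).prod = 2 * tp P.p (SQ P N qv) := M₀_mul_prod hH.hpN hinj hqv'
  have hpS : P.p ∈ (↑(SQ P N qv) : Set ℕ) := Finset.mem_coe.2 (goodTw_p_mem hS')
  have hodd : Odd (Fintype.card (G₀ P N × DelQ P r n)) := by
    rw [Fintype.card_prod]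
    exact (odd_card_deltaGrp P.p hp2 _).mul (odd_card_deltaGrp P.p hp2 _)
  have hQp : ∀ q ∈ QL qv, q.Prime ∧ ¬ q ∣ M₀ N ∧ q ≠ P.p := by
    intro q hq
    obtain ⟨i, rfl⟩ := (mem_QL qv).1 hq
    refine ⟨(hqv i).1, fun h => ?_, fun h => ?_⟩
    · rcases prime_dvd_M₀ (hqv i).1 h with h2 | h2
      · exact (hqv' i).2 (Finset.mem_union_left _ (by rw [h2]; simp))
      · exact (hqv' i).2 (Finset.mem_union_right _ h2)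
    · exact (hqv' i).2 (Finset.mem_union_left _ (by rw [h]; simp))
  obtain ⟨ℓ₀, hℓ₀, hℓ₀p, hℓ₀1, hℓ₀ne⟩ := hH.hne (lvlTw P.p (SQ P N qv))
    (Nat.pos_of_ne_zero (NeZero.ne _)) {P.p}
  haveI : Fact ℓ₀.Prime := ⟨hℓ₀⟩
  obtain ⟨β, hβ⟩ := Fermat.Agent.S43lib.B2.Bridge.exists_betaQ (𝒪 := Sg.𝒪) P.p (χ₀ P N) (QL qv) hcop
    (kapQ P n qv) (tS Sg) (aS Sg) (T := tp P.p (SQ P N qv)) (S := (↑(SQ P N qv) : Set ℕ)) hM hpS
    (squarefree_tp _ _) (odd_tp _ _)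
    (fun q hq h => Finset.mem_coe.2 (goodTw_primes_mem hS' q hq h))
    (Sg.D.θ (SQ P N qv) hS') hgood hodd hQp
    (fun ℓ => hH.hθ (SQ P N qv) hS' ℓ.1 ℓ.2.1 ℓ.2.2.1 ℓ.2.2.2)
    (ℓ₀ := ℓ₀) (not_dvd_of_dvd_sub_one hℓ₀ hℓ₀1)
    (fun h => hℓ₀p (by rw [h]; simp))
    (int_dvd_sub_one hℓ₀ hℓ₀1)
    (by rw [add_comm]; exact hℓ₀ne)
  refine ⟨β, ?_⟩
  intro ℓ hℓ hℓN hℓS hi hJ hℓM g hg
  set ℓ' : Fermat.Agent.S43lib.B2.Bridge.GoodPrime (2 * tp P.p (SQ P N qv) * tp P.p (SQ P N qv)) (↑(SQ P N qv) : Set ℕ) :=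
    ⟨ℓ, hℓ, hℓN, hℓS⟩ with hℓ'
  have h1 := hβ ℓ'
  set k := (Fintype.card (G₀ P N × DelQ P r n) - 1) / 2 with hk
  set v : (ZMod (M₀ N * (QL qv).prod))ˣ := ZMod.unitOfCoprime ℓ hℓM with hv
  have hvℓ : ((v : (ZMod (M₀ N * (QL qv).prod))ˣ) : ZMod (M₀ N * (QL qv).prod)) =
      (ℓ : ZMod (M₀ N * (QL qv).prod)) := ZMod.coe_unitOfCoprime ℓ hℓM
  have h2 := absLvl_tX_eq_tG (chiQ (χ₀ P N) (kapQ P n qv)) (idxQ P.p hcop)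
    (evOf P.p (M₀ N) (tQ (tS Sg) (aS Sg) (QL qv))) (evOf_C P.p (M₀ N) _)
    (JQ P.p (M₀ N) (QL qv))
    (Fermat.Agent.S43lib.B2.Bridge.idxD P.p (Fermat.Agent.S43lib.B2.Bridge.dvd_sq_of_eq hM) k ℓ')
    (Fermat.Agent.S43lib.B2.Bridge.idxD_mem_JQ P.p (QL qv) hM hQp k ℓ') (v ^ k)
    (Fermat.Agent.S43lib.B2.Bridge.idxQ_idxD P.p (QL qv) hcop hM k ℓ' v hvℓ)
  have h3 : chiQ (χ₀ P N) (kapQ P n qv) (v ^ k) = g := by
    rw [map_pow]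
    have e1 := Fermat.Agent.S43lib.B2.Bridge.pow_half_sq_mul hodd (chiQ (χ₀ P N) (kapQ P n qv) v)
    refine Fermat.Agent.S43lib.B2.Bridge.eq_of_sq_eq_of_odd_pow hodd ?_
      (by rw [pow_right_comm, pow_card_eq_one, one_pow]) pow_card_eq_one
    exact mul_right_cancel (e1.trans hg.symm)
  rw [h3] at h2
  exact h1.trans (congrArg₂ (· * ·) h2 rfl)

set_option synthInstance.maxHeartbeats 400000 in
set_option maxHeartbeats 4000000 in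
theorem exists_beta0 (hH : HubHyp Sg) (hgood : (H0 Sg).Good P.p) :
    ∃ β : (Sg.F Sg.S Sg.hgoodS).R →ₐ[Sg.𝒪] T0 Sg,
      ∀ (ℓ : ℕ) (hℓ : ℓ.Prime) (hℓN : ¬ ℓ ∣ lvlTw P.p Sg.S)
        (hℓS : ℓ ∉ (↑Sg.S : Set ℕ)) (hi : ℓ.Prime ∧ ¬ ℓ ∣ M₀ N ∧ ℓ ≠ P.p)
        (hℓM : ℓ.Coprime (M₀ N)) (g : G₀ P N),
        g * g * χ₀ P N (ZMod.unitOfCoprime ℓ hℓM) = 1 →
        β (heckeLocal.π _ _ _ _ (heckeAlgebra.T hℓ hℓN hℓS)) =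
          (H0 Sg).tG Set.univ g * (H0 Sg).tX Set.univ (Sum.inl ⟨ℓ, hi⟩) (Set.mem_univ _) := by
  classical
  have hp2 : P.p ≠ 2 := Sg.hp2
  have hS' : Sg.good Sg.S := Sg.hgoodS
  have hM : M₀ N = 2 * tp P.p Sg.S := M₀_eq hH.hpN
  have hpS : P.p ∈ (↑Sg.S : Set ℕ) := Finset.mem_coe.2 (goodTw_p_mem hS')
  have hodd : Odd (Fintype.card (G₀ P N)) := odd_card_deltaGrp P.p hp2 _
  obtain ⟨ℓ₀, hℓ₀, hℓ₀p, hℓ₀1, hℓ₀ne⟩ := hH.hne (lvlTw P.p Sg.S)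
    (Nat.pos_of_ne_zero (NeZero.ne _)) {P.p}
  haveI : Fact ℓ₀.Prime := ⟨hℓ₀⟩
  obtain ⟨β, hβ⟩ := Fermat.Agent.S43lib.B2.Bridge.exists_beta0 (𝒪 := Sg.𝒪) P.p (χ₀ P N)
    (tS Sg) (T₀ := tp P.p Sg.S) (S := (↑Sg.S : Set ℕ)) hM hpS
    (squarefree_tp _ _) (odd_tp _ _)
    (fun q hq h => Finset.mem_coe.2 (goodTw_primes_mem hS' q hq h))
    (Sg.D.θ Sg.S hS') hgood hodd
    (fun ℓ => hH.hθ Sg.S hS' ℓ.1 ℓ.2.1 ℓ.2.2.1 ℓ.2.2.2)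
    (ℓ₀ := ℓ₀) (not_dvd_of_dvd_sub_one hℓ₀ hℓ₀1)
    (fun h => hℓ₀p (by rw [h]; simp))
    (int_dvd_sub_one hℓ₀ hℓ₀1)
    (by rw [add_comm]; exact hℓ₀ne)
  refine ⟨β, ?_⟩
  intro ℓ hℓ hℓN hℓS hi hℓM g hg
  set ℓ' : Fermat.Agent.S43lib.B2.Bridge.GoodPrime (2 * tp P.p Sg.S * tp P.p Sg.S)
    (↑Sg.S : Set ℕ) := ⟨ℓ, hℓ, hℓN, hℓS⟩ with hℓ'
  have h1 := hβ ℓ'
  set k := (Fintype.card (G₀ P N) - 1) / 2 with hk
  set v : (ZMod (M₀ N))ˣ := ZMod.unitOfCoprime ℓ hℓM with hv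
  have hvℓ : ((v : (ZMod (M₀ N))ˣ) : ZMod (M₀ N)) = (ℓ : ZMod (M₀ N)) :=
    ZMod.coe_unitOfCoprime ℓ hℓM
  have hck : (ℓ ^ k).Coprime (M₀ N) := Nat.Coprime.pow_left k hℓM
  have h2 := absLvl_tX_eq_tG (χ₀ P N) (idx₀ P.p (M₀ N))
    (evOf P.p (M₀ N) (𝒪 := Sg.𝒪) (tS Sg)) (evOf_C P.p (M₀ N) _) Set.univ
    (Fermat.Agent.S43lib.B2.Bridge.idxD P.p (Fermat.Agent.S43lib.B2.Bridge.dvd_sq_of_eq₀ hM) k ℓ')
    (Set.mem_univ _) (ZMod.unitOfCoprime (ℓ ^ k) hck) rfl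
  have h3 : χ₀ P N (ZMod.unitOfCoprime (ℓ ^ k) hck) = g := by
    have e0 : ZMod.unitOfCoprime (ℓ ^ k) hck = v ^ k := by
      apply Fermat.Agent.S43lib.B2.Bridge.coe_unitOfCoprime_eq
      rw [Units.val_pow_eq_pow_val, hvℓ, Nat.cast_pow]
    rw [e0, map_pow]
    have e1 := Fermat.Agent.S43lib.B2.Bridge.pow_half_sq_mul hodd (χ₀ P N v)
    refine Fermat.Agent.S43lib.B2.Bridge.eq_of_sq_eq_of_odd_pow hodd ?_
      (by rw [pow_right_comm, pow_card_eq_one, one_pow]) pow_card_eq_one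
    exact mul_right_cancel (e1.trans hg.symm)
  rw [h3] at h2
  exact h1.trans (congrArg₂ (· * ·) h2 rfl)

end Fermat.Agent.S43lib.Mod4.Hub
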