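/-
S43lib / B2 / Bridge / CompatHub (helper5).

**COMPAT**: helper7's hub brick `compat_of` (`Mod4/SPEC_bricks2.txt`): the traces of `ρ_{S'}` pushed to `𝕋_∅` through
`β_Q` and `e₀ : 𝕋_Q → 𝕋_∅` are the traces of `ρ_S` pushed through `β₀`.  Chebotarev (`Mod4/Compat.lean : trace_compat`)
and the formulas for `β_Q`, `β₀` at the Frobenius elements.

`compat_of_aux` carries the two hypotheses `hπQ`, `hπ0` (the structure map of the chosen Hecke–Galois datum is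
`heckeLocal.π`); `compat_of` discharges them by `HeckeFam.H_π` (helper4's `B3/HeckeTr`, 1d2faed3).
-/
import Mathlib
import Fermat.Agent.S43lib.Mod4.HubDefs
import Fermat.Agent.S43lib.Mod4.LGCIface
import Fermat.Agent.S43lib.Mod4.Compat
import Fermat.Agent.S43lib.B2.Bridge.Asm
import Fermat.Agent.S43lib.B2.Bridge.AsmQ
import Fermat.Agent.S43lib.B2.Bridge.AsmHub

set_option autoImplicit false
set_option linter.unusedSectionVars false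
set_option linter.unusedVariables false
set_option linter.style.haveILetI false

noncomputable section

namespace Fermat.Agent.S43lib.Mod4.Hub

open IsLocalRing Polynomial CuspForm Fermat.Agent.S43lib.B3 Fermat.Agent.S43lib.Loc
  Fermat.Agent.S56lib.Main Fermat.Agent.S43lib.Mod4.HO Fermat.Agent.S56lib.TW ExtCitation
  Fermat.Agent.S43lib.BigImg WeierstrassCurve WeierstrassCurve.Affine WeierstrassCurve.Affine.Point FreyPackage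

local notation "GQ" => (AlgebraicClosure ℚ ≃ₐ[ℚ] AlgebraicClosure ℚ)
local notation "Qb" => AlgebraicClosure ℚ

/-! ### generalities (auxiliary lemmas, in the sub-namespace `H5` to avoid clashes inside `Mod4.Hub`) -/

namespace H5

/-- a ring homomorphism from a local ring to a local ring with finite residue field is local -/
theorem isLocalHom_of_finite_resField {R A : Type*} [CommRing R] [IsLocalRing R] [CommRing A]
    [IsLocalRing A] [Finite (ResidueField A)] (f : R →+* A) : IsLocalHom f := by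
  refine ⟨fun r hu => ?_⟩
  by_contra hr
  have hrm : r ∈ maximalIdeal R := (mem_maximalIdeal _).2 hr
  have hne : residue A (f r) ≠ 0 := by
    rw [Ne, residue_eq_zero_iff]
    exact fun h => (mem_maximalIdeal _).1 h hu
  haveI : Fintype (ResidueField A) := Fintype.ofFinite _
  have hpow : (residue A (f r)) ^ (Fintype.card (ResidueField A) - 1) = 1 :=
    FiniteField.pow_card_sub_one_eq_one _ hne
  set n := Fintype.card (ResidueField A) - 1 with hn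
  have hn0 : n ≠ 0 := by
    have := Fintype.one_lt_card (α := ResidueField A)
    omega
  have h1 : IsUnit (1 - r ^ n) := by
    have hrn : r ^ n ∈ maximalIdeal R := Ideal.pow_mem_of_mem _ hrm n (Nat.pos_of_ne_zero hn0)
    by_contra h
    have h2 : 1 - r ^ n ∈ maximalIdeal R := (mem_maximalIdeal _).2 h
    have h3 : (1 : R) ∈ maximalIdeal R := by
      have : (1 : R) = (1 - r ^ n) + r ^ n := by ring
      rw [this]
      exact Ideal.add_mem _ h2 hrn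
    exact (Ideal.ne_top_iff_one _).1 (maximalIdeal.isMaximal R).ne_top h3
  have h2 : IsUnit (f (1 - r ^ n)) := h1.map f
  have h3 : residue A (f (1 - r ^ n)) = 0 := by
    rw [map_sub, map_sub, map_one, map_one, map_pow, map_pow, hpow, sub_self]
  rw [residue_eq_zero_iff] at h3
  exact (mem_maximalIdeal _).1 h3 h2

/-- the determinant from a quadratic characteristic polynomial -/
theorem det_eq_of_charpoly {R : Type*} [CommRing R] [Nontrivial R] {V : Type*} [AddCommGroup V]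
    [Module R V] [Module.Free R V] [Module.Finite R V] (hrank : Module.finrank R V = 2)
    (f : Module.End R V) {t d : R} (hf : LinearMap.charpoly f = X ^ 2 - C t * X + C d) :
    LinearMap.det f = d := by
  have h1 := Fermat.Agent.S34lib.charpoly_eq_of_finrank_two hrank f
  rw [hf] at h1
  have h2 := congrArg (fun q : R[X] => q.coeff 0) h1
  simp only [coeff_add, coeff_sub, coeff_X_pow, coeff_C_mul, coeff_X_zero, coeff_C_zero] at h2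
  norm_num at h2
  exact h2.symm

/-- a natural number prime to the residue characteristic is a unit -/
theorem isUnit_natCast_of_coprime {𝒪 : Type*} [CommRing 𝒪] [IsLocalRing 𝒪] {p q : ℕ}
    (hp𝒪 : (p : 𝒪) ∈ maximalIdeal 𝒪) (hq : q.Coprime p) : IsUnit (q : 𝒪) := by
  by_contra hnu
  have hqm : (q : 𝒪) ∈ maximalIdeal 𝒪 := (mem_maximalIdeal _).2 hnu
  obtain ⟨a, b, hab⟩ := Nat.isCoprime_iff_coprime.2 hq
  have h1 : ((a : ℤ) : 𝒪) * (q : 𝒪) + ((b : ℤ) : 𝒪) * (p : 𝒪) = 1 := by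
    have := congrArg (fun z : ℤ => (z : 𝒪)) hab
    simpa using this
  have h2 : (1 : 𝒪) ∈ maximalIdeal 𝒪 := by
    rw [← h1]
    exact Ideal.add_mem _ (Ideal.mul_mem_left _ _ hqm) (Ideal.mul_mem_left _ _ hp𝒪)
  exact (Ideal.ne_top_iff_one _).1 (maximalIdeal.isMaximal 𝒪).ne_top h2

variable {P : FreyPackage} {N : ℕ} (Sg : SideGal P N)

/-- `2` is invertible in the coefficient ring -/
@[reducible] def invertibleTwo : Invertible (2 : Sg.𝒪) := by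
  have h : IsUnit ((2 : ℕ) : Sg.𝒪) := isUnit_natCast_of_coprime Sg.hp𝒪
    ((Nat.coprime_primes Nat.prime_two P.pp).2 (by have := P.hp5; omega))
  rw [Nat.cast_ofNat] at h
  exact h.invertible

/-- `3` is invertible in the coefficient ring -/
@[reducible] def invertibleThree : Invertible (3 : Sg.𝒪) := by
  have h : IsUnit ((3 : ℕ) : Sg.𝒪) := isUnit_natCast_of_coprime Sg.hp𝒪
    ((Nat.coprime_primes Nat.prime_three P.pp).2 (by have := P.hp5; omega))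
  rw [Nat.cast_ofNat] at h
  exact h.invertible

/-! ### the arithmetic of the hub -/

section Arith

variable {r : ℕ} (n : ℕ) (qv : Fin r → ℕ)

theorem hub_hqv (hqv : ∀ i, (qv i).Prime ∧ qv i ∉ Sg.S ∧ P.p ^ (n + 1) ∣ qv i - 1) :
    ∀ i, (qv i).Prime ∧ qv i ∉ ({P.p, 2} ∪ oddPrimes N : Finset ℕ) :=
  fun i => ⟨(hqv i).1, (hqv i).2.1⟩

theorem hub_hM (hH : HubHyp Sg) (hinj : Function.Injective qv)
    (hqv : ∀ i, (qv i).Prime ∧ qv i ∉ Sg.S ∧ P.p ^ (n + 1) ∣ qv i - 1) :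
    M₀ N * (QL qv).prod = 2 * tp P.p (SQ P N qv) :=
  M₀_mul_prod hH.hpN hinj (hub_hqv Sg n qv hqv)

theorem hub_hodd (P : FreyPackage) (N r n : ℕ) : Odd (Fintype.card (G₀ P N × DelQ P r n)) := by
  have hp2 : P.p ≠ 2 := by have := P.hp5; omega
  rw [Fintype.card_prod]
  exact (odd_card_deltaGrp P.p hp2 _).mul (odd_card_deltaGrp P.p hp2 _)

theorem hub_hQp (hqv : ∀ i, (qv i).Prime ∧ qv i ∉ Sg.S ∧ P.p ^ (n + 1) ∣ qv i - 1) :
    ∀ q ∈ QL qv, q.Prime ∧ ¬ q ∣ M₀ N ∧ q ≠ P.p := by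
  have hqv' := hub_hqv Sg n qv hqv
  intro q hq
  obtain ⟨i, rfl⟩ := (mem_QL qv).1 hq
  refine ⟨(hqv i).1, fun h => ?_, fun h => ?_⟩
  · rcases prime_dvd_M₀ (hqv i).1 h with h2 | h2
    · exact (hqv' i).2 (Finset.mem_union_left _ (by rw [h2]; simp))
    · exact (hqv' i).2 (Finset.mem_union_right _ h2)
  · exact (hqv' i).2 (Finset.mem_union_left _ (by rw [h]; simp))

end Arith

end H5

open H5

variable {P : FreyPackage} {N : ℕ} (Sg : SideGal P N)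

/-! ## brick COMPAT -/

set_option synthInstance.maxHeartbeats 400000 in
set_option maxHeartbeats 4000000 in
theorem compat_of_aux (hH : HubHyp Sg)
    {r : ℕ} (n : ℕ) (qv : Fin r → ℕ) (hinj : Function.Injective qv)
    (hqv : ∀ i, (qv i).Prime ∧ qv i ∉ Sg.S ∧ P.p ^ (n + 1) ∣ qv i - 1)
    [NeZero (M₀ N * (QL qv).prod)] (hcop : (M₀ N).Coprime (QL qv).prod)
    (hgoodQ : (HQ Sg n qv hcop).Good P.p) (hgood0 : (H0 Sg).Good P.p)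
    (hS' : Sg.good (SQ P N qv))
    (hπQ : (Sg.D.H (SQ P N qv) hS').π =
      heckeLocal.π (lvlTw P.p (SQ P N qv)) (↑(SQ P N qv) : Set ℕ) Sg.𝒪 (Sg.D.θ (SQ P N qv) hS'))
    (hπ0 : (Sg.D.H Sg.S Sg.hgoodS).π =
      heckeLocal.π (lvlTw P.p Sg.S) (↑Sg.S : Set ℕ) Sg.𝒪 (Sg.D.θ Sg.S Sg.hgoodS))
    (D : TWData P.p (χ₀ P N) (QL qv) hcop (kapQ P n qv) (tS Sg) (aS Sg))
    (β : (Sg.F (SQ P N qv) hS').R →ₐ[Sg.𝒪] TQ Sg n qv hcop)
    (hβ : ∀ (ℓ : ℕ) (hℓ : ℓ.Prime) (hℓN : ¬ ℓ ∣ lvlTw P.p (SQ P N qv))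
        (hℓS : ℓ ∉ (↑(SQ P N qv) : Set ℕ)) (hi : ℓ.Prime ∧ ¬ ℓ ∣ M₀ N ∧ ℓ ≠ P.p)
        (hJ : (Sum.inl ⟨ℓ, hi⟩ : Idx P.p (M₀ N)) ∈ JQ P.p (M₀ N) (QL qv))
        (hℓM : ℓ.Coprime (M₀ N * (QL qv).prod)) (g : G₀ P N × DelQ P r n),
        g * g * chiQ (χ₀ P N) (kapQ P n qv) (ZMod.unitOfCoprime ℓ hℓM) = 1 →
        β (heckeLocal.π _ _ _ _ (heckeAlgebra.T hℓ hℓN hℓS)) =
          (HQ Sg n qv hcop).tG (JQ P.p (M₀ N) (QL qv)) g *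
            (HQ Sg n qv hcop).tX (JQ P.p (M₀ N) (QL qv)) (Sum.inl ⟨ℓ, hi⟩) hJ)
    (β₀ : (Sg.F Sg.S Sg.hgoodS).R →ₐ[Sg.𝒪] T0 Sg)
    (hβ₀ : ∀ (ℓ : ℕ) (hℓ : ℓ.Prime) (hℓN : ¬ ℓ ∣ lvlTw P.p Sg.S)
        (hℓS : ℓ ∉ (↑Sg.S : Set ℕ)) (hi : ℓ.Prime ∧ ¬ ℓ ∣ M₀ N ∧ ℓ ≠ P.p)
        (hℓM : ℓ.Coprime (M₀ N)) (g : G₀ P N),
        g * g * χ₀ P N (ZMod.unitOfCoprime ℓ hℓM) = 1 →
        β₀ (heckeLocal.π _ _ _ _ (heckeAlgebra.T hℓ hℓN hℓS)) =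
          (H0 Sg).tG Set.univ g * (H0 Sg).tX Set.univ (Sum.inl ⟨ℓ, hi⟩) (Set.mem_univ _))
    (h : GQ) :
    D.e₀ (β ((Sg.F (SQ P N qv) hS').ρ.trace h)) = β₀ ((Sg.F Sg.S Sg.hgoodS).ρ.trace h) := by
  classical
  letI : Invertible (2 : Sg.𝒪) := invertibleTwo Sg
  letI : Invertible (3 : Sg.𝒪) := invertibleThree Sg
  haveI : IsLocalRing (T0 Sg) := (H0 Sg).isLocalRing_hecke Set.univ hgood0
  haveI : IsAdicComplete (maximalIdeal (T0 Sg)) (T0 Sg) :=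
    (H0 Sg).isAdicComplete_hecke Set.univ hgood0
  haveI : Finite (ResidueField (T0 Sg)) := (H0 Sg).finite_residueField_hecke Set.univ hgood0
  have hM := hub_hM Sg n qv hH hinj hqv
  have hodd := hub_hodd P N r n
  have hQp := hub_hQp Sg n qv hqv
  have hpS : P.p ∈ (↑(SQ P N qv) : Set ℕ) := Finset.mem_coe.2 (goodTw_p_mem hS')
  refine trace_compat (B := T0 Sg)
    ((D.e₀ : TQ Sg n qv hcop →+* T0 Sg).comp (β : (Sg.F (SQ P N qv) hS').R →+* TQ Sg n qv hcop))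
    (isLocalHom_of_finite_resField _) (β₀ : (Sg.F Sg.S Sg.hgoodS).R →+* T0 Sg)
    (isLocalHom_of_finite_resField _) (Sg.F (SQ P N qv) hS').ρ (Sg.F Sg.S Sg.hgoodS).ρ
    (SQ P N qv) ?_ h
  intro ℓ hℓ hℓS A hA φ hφ
  have hℓS' : ℓ ∉ (↑(SQ P N qv) : Set ℕ) := fun h => hℓS (Finset.mem_coe.1 h)
  have hℓS0 : ℓ ∉ (↑Sg.S : Set ℕ) := fun h => hℓS (Finset.mem_union_left _ (Finset.mem_coe.1 h))
  have hℓNQ : ¬ ℓ ∣ lvlTw P.p (SQ P N qv) := fun h => hℓS (goodTw_primes_mem hS' ℓ hℓ h)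
  have hℓN0 : ¬ ℓ ∣ lvlTw P.p Sg.S := fun h =>
    hℓS (Finset.mem_union_left _ (goodTw_primes_mem Sg.hgoodS ℓ hℓ h))
  have hi : ℓ.Prime ∧ ¬ ℓ ∣ M₀ N ∧ ℓ ≠ P.p := by
    refine ⟨hℓ, fun h => ?_, fun h => hℓS' (h ▸ hpS)⟩
    rcases prime_dvd_M₀ hℓ h with h2 | h2
    · exact hℓS (Finset.mem_union_left _ (Finset.mem_union_left _ (by rw [h2]; simp)))
    · exact hℓS (Finset.mem_union_left _ (Finset.mem_union_right _ h2))
  have hℓM : ℓ.Coprime (M₀ N * (QL qv).prod) :=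
    (Nat.Prime.coprime_iff_not_dvd hℓ).2 fun h =>
      hℓNQ (h.trans (Fermat.Agent.S43lib.B2.Bridge.lvl_dvd_sq_of_eq hM))
  have hℓM₀ : ℓ.Coprime (M₀ N) := (Nat.Prime.coprime_iff_not_dvd hℓ).2 hi.2.1
  set ℓ' : Fermat.Agent.S43lib.B2.Bridge.GoodPrime
    (2 * tp P.p (SQ P N qv) * tp P.p (SQ P N qv)) (↑(SQ P N qv) : Set ℕ) :=
    ⟨ℓ, hℓ, hℓNQ, hℓS'⟩ with hℓ'
  have hJ : (Sum.inl ⟨ℓ, hi⟩ : Idx P.p (M₀ N)) ∈ JQ P.p (M₀ N) (QL qv) :=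
    Fermat.Agent.S43lib.B2.Bridge.idxT_mem_JQ P.p (QL qv) hM hpS hQp ℓ'
  set v : (ZMod (M₀ N * (QL qv).prod))ˣ := ZMod.unitOfCoprime ℓ hℓM with hv
  have hvℓ : ((v : (ZMod (M₀ N * (QL qv).prod))ˣ) : ZMod (M₀ N * (QL qv).prod)) =
      (ℓ : ZMod (M₀ N * (QL qv).prod)) := ZMod.coe_unitOfCoprime ℓ hℓM
  set k := (Fintype.card (G₀ P N × DelQ P r n) - 1) / 2 with hk
  set g : G₀ P N × DelQ P r n := chiQ (χ₀ P N) (kapQ P n qv) v ^ k with hg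
  have hgg : g * g * chiQ (χ₀ P N) (kapQ P n qv) v = 1 :=
    Fermat.Agent.S43lib.B2.Bridge.pow_half_sq_mul hodd _
  have hgg0 : g.1 * g.1 * χ₀ P N (ZMod.unitOfCoprime ℓ hℓM₀) = 1 := by
    have h1 := congrArg Prod.fst hgg
    rw [Prod.fst_mul, Prod.fst_mul, chiQ_apply, Prod.fst_one] at h1
    rwa [Fermat.Agent.S43lib.B2.Bridge.unitsMap_eq_unitOfCoprime (dvd_mul_right _ _) ℓ hℓM₀ v
      hvℓ] at h1
  -- the traces and the determinants at the Frobenius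
  have tQ : (Sg.F (SQ P N qv) hS').ρ.trace φ =
      heckeLocal.π _ _ _ _ (heckeAlgebra.T hℓ hℓNQ hℓS') := by
    have h1 := heckeDatum_trace_frob (Sg.D.H (SQ P N qv) hS') ℓ hℓ hℓNQ hℓS' A hA φ hφ
    rw [hπQ] at h1
    exact h1
  have t0 : (Sg.F Sg.S Sg.hgoodS).ρ.trace φ =
      heckeLocal.π _ _ _ _ (heckeAlgebra.T hℓ hℓN0 hℓS0) := by
    have h1 := heckeDatum_trace_frob (Sg.D.H Sg.S Sg.hgoodS) ℓ hℓ hℓN0 hℓS0 A hA φ hφ
    rw [hπ0] at h1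
    exact h1
  have dQ : LinearMap.det ((Sg.F (SQ P N qv) hS').ρ.ρ φ) = ((ℓ : ℕ) : (Sg.F (SQ P N qv) hS').R) :=
    det_eq_of_charpoly (Sg.D.H (SQ P N qv) hS').ρ.finrank_eq _
      ((Sg.D.H (SQ P N qv) hS').charpoly_frob ℓ hℓ hℓNQ hℓS' A hA φ hφ)
  have d0 : LinearMap.det ((Sg.F Sg.S Sg.hgoodS).ρ.ρ φ) = ((ℓ : ℕ) : (Sg.F Sg.S Sg.hgoodS).R) :=
    det_eq_of_charpoly (Sg.D.H Sg.S Sg.hgoodS).ρ.finrank_eq _
      ((Sg.D.H Sg.S Sg.hgoodS).charpoly_frob ℓ hℓ hℓN0 hℓS0 A hA φ hφ)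
  refine ⟨?_, ?_⟩
  · rw [tQ, t0]
    show D.e₀ (β _) = β₀ _
    rw [hβ ℓ hℓ hℓNQ hℓS' hi hJ hℓM g hgg, hβ₀ ℓ hℓ hℓN0 hℓS0 hi hℓM₀ g.1 hgg0, map_mul,
      D.e₀_tG, D.e₀_tX]
  · rw [dQ, d0, map_natCast, map_natCast]

/-- **COMPAT** (helper7's `SPEC_bricks2.txt`, verbatim) -/
theorem compat_of (hH : HubHyp Sg)
    {r : ℕ} (n : ℕ) (qv : Fin r → ℕ) (hinj : Function.Injective qv)
    (hqv : ∀ i, (qv i).Prime ∧ qv i ∉ Sg.S ∧ P.p ^ (n + 1) ∣ qv i - 1)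
    [NeZero (M₀ N * (QL qv).prod)] (hcop : (M₀ N).Coprime (QL qv).prod)
    (hgoodQ : (HQ Sg n qv hcop).Good P.p) (hgood0 : (H0 Sg).Good P.p)
    (hS' : Sg.good (SQ P N qv))
    (D : TWData P.p (χ₀ P N) (QL qv) hcop (kapQ P n qv) (tS Sg) (aS Sg))
    (β : (Sg.F (SQ P N qv) hS').R →ₐ[Sg.𝒪] TQ Sg n qv hcop)
    (hβ : ∀ (ℓ : ℕ) (hℓ : ℓ.Prime) (hℓN : ¬ ℓ ∣ lvlTw P.p (SQ P N qv))
        (hℓS : ℓ ∉ (↑(SQ P N qv) : Set ℕ)) (hi : ℓ.Prime ∧ ¬ ℓ ∣ M₀ N ∧ ℓ ≠ P.p)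
        (hJ : (Sum.inl ⟨ℓ, hi⟩ : Idx P.p (M₀ N)) ∈ JQ P.p (M₀ N) (QL qv))
        (hℓM : ℓ.Coprime (M₀ N * (QL qv).prod)) (g : G₀ P N × DelQ P r n),
        g * g * chiQ (χ₀ P N) (kapQ P n qv) (ZMod.unitOfCoprime ℓ hℓM) = 1 →
        β (heckeLocal.π _ _ _ _ (heckeAlgebra.T hℓ hℓN hℓS)) =
          (HQ Sg n qv hcop).tG (JQ P.p (M₀ N) (QL qv)) g *
            (HQ Sg n qv hcop).tX (JQ P.p (M₀ N) (QL qv)) (Sum.inl ⟨ℓ, hi⟩) hJ)
    (β₀ : (Sg.F Sg.S Sg.hgoodS).R →ₐ[Sg.𝒪] T0 Sg)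
    (hβ₀ : ∀ (ℓ : ℕ) (hℓ : ℓ.Prime) (hℓN : ¬ ℓ ∣ lvlTw P.p Sg.S)
        (hℓS : ℓ ∉ (↑Sg.S : Set ℕ)) (hi : ℓ.Prime ∧ ¬ ℓ ∣ M₀ N ∧ ℓ ≠ P.p)
        (hℓM : ℓ.Coprime (M₀ N)) (g : G₀ P N),
        g * g * χ₀ P N (ZMod.unitOfCoprime ℓ hℓM) = 1 →
        β₀ (heckeLocal.π _ _ _ _ (heckeAlgebra.T hℓ hℓN hℓS)) =
          (H0 Sg).tG Set.univ g * (H0 Sg).tX Set.univ (Sum.inl ⟨ℓ, hi⟩) (Set.mem_univ _))
    (h : GQ) :
    D.e₀ (β ((Sg.F (SQ P N qv) hS').ρ.trace h)) = β₀ ((Sg.F Sg.S Sg.hgoodS).ρ.trace h) :=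
  compat_of_aux Sg hH n qv hinj hqv hcop hgoodQ hgood0 hS' (Sg.D.H_π (SQ P N qv) hS')
    (Sg.D.H_π Sg.S Sg.hgoodS) D β hβ β₀ hβ₀ h

end Fermat.Agent.S43lib.Mod4.Hub
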