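/-
S43lib / B2 / Bridge / ToB1Triv (helper5).

**The untwisted BRIDGE in the language of `S43lib/B1`** (trivial character, level `M` itself): if `G`
acts trivially on the torsion-free module `W`, then for every class `x ∈ H¹(Γ₀(M), W)`, every prime
`ℓ₀ ≡ 1` modulo `M` and every relation `P` of the Hecke algebra of weight two cusp forms of level `M`:
`P(T_ℓ) (T_{ℓ₀} - 1 - ℓ₀) x = 0`.
-/
import Mathlib
import Fermat.Agent.S43lib.B1.Level
import Fermat.Agent.S43lib.B2.Bridge.ES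
import Fermat.Agent.S43lib.B2.Bridge.Eis

set_option autoImplicit false
set_option linter.unusedSectionVars false

noncomputable section

namespace Fermat.Agent.S43lib.B2.Bridge

open CongruenceSubgroup Matrix.SpecialLinearGroup ModularForm ModularCurve.Period
open Fermat.Agent.S41lib.HC Fermat.Agent.S16lib.LH Fermat.Agent.S29lib.H
open scoped MatrixGroups

variable {M : ℕ} [NeZero M] {S : Set ℕ}
variable {G : Type*} [Group G] (χ : (ZMod M)ˣ →* G)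
variable (R : Type*) [CommRing R] (W : Type*) [AddCommGroup W] [Module R W] [DistribMulAction G W]
  [SMulCommClass G R W]

variable {χ R W}

/-- crossed homomorphisms for a trivial action are homomorphisms -/
def toHomTriv (htriv : ∀ (g : G) (w : W), g • w = w) :
    ↥(B1.Z1 (B1.levelPi χ) R W) →ₗ[R] H (Gamma0 M) W where
  toFun f := AddMonoidHom.mk' (fun a => (f : ↥(Gamma0 M) → W) (Additive.toMul a)) (by
    intro a b
    show (f : ↥(Gamma0 M) → W) (Additive.toMul a * Additive.toMul b) = _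
    rw [f.2, htriv])
  map_add' f f' := by
    refine AddMonoidHom.ext fun a => ?_
    rfl
  map_smul' c f := by
    refine AddMonoidHom.ext fun a => ?_
    rfl

theorem toHomTriv_apply (htriv : ∀ (g : G) (w : W), g • w = w)
    (f : ↥(B1.Z1 (B1.levelPi χ) R W)) (γ : ↥(Gamma0 M)) :
    toHomTriv htriv f (Additive.ofMul γ) = (f : ↥(Gamma0 M) → W) γ := rfl

theorem toHomTriv_injective (htriv : ∀ (g : G) (w : W), g • w = w) :
    Function.Injective (toHomTriv (χ := χ) (R := R) htriv) := by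
  intro f f' h
  apply Subtype.ext
  funext γ
  exact congrFun (congrArg DFunLike.coe h) (Additive.ofMul γ)

section Hecke

variable {ℓ : ℕ} [Fact ℓ.Prime] (hℓ : ¬ ℓ ∣ M)

theorem nData_equi₀ : B1.CosetData.IsEquivariant (B1.levelPi χ) (B1.nData hℓ) :=
  B1.isEquivariant_levelPi χ (B1.nData_equivariant hℓ)

theorem toHomTriv_heckeZ (htriv : ∀ (g : G) (w : W), g • w = w)
    (f : ↥(B1.Z1 (B1.levelPi χ) R W)) :
    toHomTriv htriv (B1.heckeZ R W (nData_equi₀ (χ := χ) hℓ) f) =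
      heckeT hℓ W (toHomTriv htriv f) := by
  rw [← B1.nData_op hℓ W]
  refine AddMonoidHom.ext fun a => ?_
  obtain ⟨γ, rfl⟩ : ∃ γ : ↥(Gamma0 M), Additive.ofMul γ = a := ⟨Additive.toMul a, rfl⟩
  rw [toHomTriv_apply, B1.heckeZ_coe, B1.heckeFun_apply, CosetData.op_apply]
  rfl

end Hecke

variable (χ R W)

/-- `T_ℓ` on crossed homomorphisms -/
def heckeZOp₀ (ℓ : GoodPrime M S) : Module.End ℤ ↥(B1.Z1 (B1.levelPi χ) R W) :=
  haveI : Fact ℓ.1.Prime := ⟨ℓ.2.1⟩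
  (B1.heckeZ R W (nData_equi₀ (χ := χ) ℓ.2.2.1)).toAddMonoidHom.toIntLinearMap

/-- `T_ℓ` on `H¹` -/
def heckeHOp₀ (ℓ : GoodPrime M S) : Module.End ℤ (B1.H1 (B1.levelPi χ) R W) :=
  haveI : Fact ℓ.1.Prime := ⟨ℓ.2.1⟩
  (B1.heckeH R W (nData_equi₀ (χ := χ) ℓ.2.2.1)).toAddMonoidHom.toIntLinearMap

/-- evaluation at the `T_ℓ` on crossed homomorphisms -/
def evalZ₀ : FreeAlgebra ℤ (GoodPrime M S) →ₐ[ℤ] Module.End ℤ ↥(B1.Z1 (B1.levelPi χ) R W) :=
  FreeAlgebra.lift ℤ (heckeZOp₀ χ R W)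

/-- evaluation at the `T_ℓ` on `H¹` -/
def evalH₀ : FreeAlgebra ℤ (GoodPrime M S) →ₐ[ℤ] Module.End ℤ (B1.H1 (B1.levelPi χ) R W) :=
  FreeAlgebra.lift ℤ (heckeHOp₀ χ R W)

theorem mk_evalZ₀ (P : FreeAlgebra ℤ (GoodPrime M S)) (f : ↥(B1.Z1 (B1.levelPi χ) R W)) :
    B1.H1.mk (B1.levelPi χ) R W (evalZ₀ χ R W P f) =
      evalH₀ χ R W P (B1.H1.mk (B1.levelPi χ) R W f) := by
  refine lift_intertwine (heckeZOp₀ χ R W) (heckeHOp₀ χ R W)
    (B1.H1.mk (B1.levelPi χ) R W).toAddMonoidHom ?_ P f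
  intro ℓ v
  rfl

variable {χ R W}

theorem toHomTriv_evalZ₀ (htriv : ∀ (g : G) (w : W), g • w = w)
    (P : FreeAlgebra ℤ (GoodPrime M S)) (f : ↥(B1.Z1 (B1.levelPi χ) R W)) :
    toHomTriv htriv (evalZ₀ χ R W P f) = evalCoh W P (toHomTriv htriv f) := by
  refine lift_intertwine (heckeZOp₀ χ R W) (heckeOp W) (toHomTriv htriv).toAddMonoidHom ?_ P f
  intro ℓ v
  have : Fact ℓ.1.Prime := ⟨ℓ.2.1⟩
  show toHomTriv htriv (B1.heckeZ R W (nData_equi₀ (χ := χ) ℓ.2.2.1) v) =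
    heckeOp W ℓ (toHomTriv htriv v)
  rw [toHomTriv_heckeZ, heckeOp_apply]

/-- **the untwisted BRIDGE on `H¹(Γ₀(M), W)`, trivial action** -/
theorem bridge_H1_triv [IsAddTorsionFree W] (htriv : ∀ (g : G) (w : W), g • w = w)
    (P : FreeAlgebra ℤ (GoodPrime M S))
    (hP : (evalForms P : ↥(CuspForm.heckeAlgebra M 2 S)) = 0)
    {ℓ₀ : ℕ} [Fact ℓ₀.Prime] (hℓ₀ : ¬ ℓ₀ ∣ M) (h1 : (M : ℤ) ∣ (ℓ₀ : ℤ) - 1)
    (x : B1.H1 (B1.levelPi χ) R W) :
    evalH₀ χ R W P (B1.heckeH R W (nData_equi₀ (χ := χ) hℓ₀) x - (1 + ℓ₀) • x) = 0 := by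
  obtain ⟨f, rfl⟩ := B1.H1.mk_surjective (B1.levelPi χ) R W x
  set f₁ : ↥(B1.Z1 (B1.levelPi χ) R W) :=
    B1.heckeZ R W (nData_equi₀ (χ := χ) hℓ₀) f - (1 + ℓ₀) • f with hf₁
  have e1 : B1.heckeH R W (nData_equi₀ (χ := χ) hℓ₀) (B1.H1.mk (B1.levelPi χ) R W f) -
      (1 + ℓ₀) • B1.H1.mk (B1.levelPi χ) R W f = B1.H1.mk (B1.levelPi χ) R W f₁ := by
    rw [hf₁, map_sub, map_nsmul, B1.heckeH_mk]
  rw [e1, ← mk_evalZ₀]
  have h0 : evalZ₀ χ R W P f₁ = 0 := by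
    apply toHomTriv_injective htriv
    rw [toHomTriv_evalZ₀, map_zero]
    have e2 : toHomTriv htriv f₁ =
        heckeT hℓ₀ W (toHomTriv htriv f) - (1 + ℓ₀) • toHomTriv htriv f := by
      rw [hf₁, map_sub, map_nsmul, toHomTriv_heckeZ]
    rw [e2]
    exact evalCoh_eq_zero P hP (heckeT_sub_isParabolicHom hℓ₀ h1 _)
  rw [h0, map_zero]

end Fermat.Agent.S43lib.B2.Bridge
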