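/-
S43lib / B2 / Bridge / Rev (helper5).

**The reverse Eichler–Shimura bridge**: a (non-commutative) polynomial relation between the `T_ℓ` which
holds on the integral parabolic classes `Hom_par(Γ₀(M), ℤ)` holds in the Hecke algebra of the weight two
cusp forms of level `Γ₀(M)` (the period map is injective, S21), and it holds on the parabolic classes
with values in any torsion-free group.
-/
import Mathlib
import Fermat.Agent.S43lib.B1.Level
import Fermat.Agent.S43lib.B2.Bridge.ToB1Triv
import Fermat.Agent.S21

set_option autoImplicit false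
set_option linter.unusedSectionVars false
set_option linter.style.haveILetI false

noncomputable section

namespace Fermat.Agent.S43lib.B2.Bridge

open CongruenceSubgroup Matrix.SpecialLinearGroup ModularForm ModularCurve ModularCurve.Period
open Fermat.Agent.S41lib.HC Fermat.Agent.S16lib.LH Fermat.Agent.S29lib.H Fermat.Agent.S48lib.W1
open MvPolynomial
open scoped MatrixGroups

/-! ### The reverse Eichler–Shimura bridge -/

section Reverse

variable {M : ℕ} [NeZero M] {S : Set ℕ}

/-- a relation on the integral parabolic classes holds on the parabolic classes with values in any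
torsion-free group -/
theorem evalCoh_eq_zero_of_int (P : FreeAlgebra ℤ (GoodPrime M S))
    (h : ∀ φ : H (Gamma0 M) ℤ, IsParabolicHom (Gamma0 M) φ → evalCoh ℤ P φ = 0)
    {A : Type*} [AddCommGroup A] [IsAddTorsionFree A] {φ : H (Gamma0 M) A}
    (hφ : IsParabolicHom (Gamma0 M) φ) : evalCoh A P φ = 0 := by
  have := Fermat.Agent.S16lib.LG.Gamma0_fg M
  obtain ⟨T, hT⟩ := (Group.FG.out : (⊤ : Subgroup ↥(Gamma0 M)).FG)
  set A₀ : Submodule ℤ A :=
    Submodule.span ℤ (Set.range (fun s : ↥T => φ (Additive.ofMul s.1))) with hA₀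
  have hfg : A₀.FG := Submodule.fg_span (Set.finite_range _)
  have : Module.Finite ℤ ↥A₀ := Module.Finite.of_fg hfg
  have : Module.Free ℤ ↥A₀ := Module.free_of_finite_type_torsion_free'
  let e := Module.Free.chooseBasis ℤ ↥A₀
  have hval : ∀ a : Additive ↥(Gamma0 M), φ a ∈ A₀ := by
    let K : Subgroup ↥(Gamma0 M) :=
      { carrier := {γ | φ (Additive.ofMul γ) ∈ A₀}
        mul_mem' := by
          intro a b ha hb
          show φ (Additive.ofMul (a * b)) ∈ A₀
          rw [ofMul_mul, map_add]
          exact A₀.add_mem ha hb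
        one_mem' := by
          show φ (Additive.ofMul 1) ∈ A₀
          rw [ofMul_one, map_zero]
          exact A₀.zero_mem
        inv_mem' := by
          intro a ha
          show φ (Additive.ofMul a⁻¹) ∈ A₀
          rw [ofMul_inv, map_neg]
          exact A₀.neg_mem ha }
    have hK : Subgroup.closure (T : Set ↥(Gamma0 M)) ≤ K := by
      rw [Subgroup.closure_le]
      intro s hs
      exact Submodule.subset_span ⟨⟨s, hs⟩, rfl⟩
    rw [hT] at hK
    intro a
    exact hK (Subgroup.mem_top (Additive.toMul a))
  let φ₀ : H (Gamma0 M) ↥A₀ :=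
    { toFun := fun a => ⟨φ a, hval a⟩
      map_zero' := Subtype.ext (map_zero φ)
      map_add' := fun a b => Subtype.ext (map_add φ a b) }
  have hφ₀ : IsParabolicHom (Gamma0 M) φ₀ := fun γ hγ => Subtype.ext (hφ γ hγ)
  have hφeq : φ = coeff (Gamma0 M) A₀.subtype.toAddMonoidHom φ₀ := by
    ext a
    rfl
  rw [hφeq, ← evalCoh_coeff]
  have hzero : evalCoh ↥A₀ P φ₀ = 0 := by
    refine AddMonoidHom.ext fun a => ?_
    apply e.ext_elem
    intro i
    have h1 := evalCoh_coeff (M := M) (S := S) (e.coord i).toAddMonoidHom P φ₀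
    have h2 : evalCoh ℤ P (coeff (Gamma0 M) (e.coord i).toAddMonoidHom φ₀) = 0 :=
      h _ (coeff_isParabolicHom _ _ hφ₀)
    rw [h2] at h1
    have h3 := congrArg (fun F : H (Gamma0 M) ℤ => F a) h1
    simp only [coeff_apply, AddMonoidHom.zero_apply] at h3
    show e.repr (evalCoh ↥A₀ P φ₀ a) i = e.repr ((0 : H (Gamma0 M) ↥A₀) a) i
    rw [AddMonoidHom.zero_apply, map_zero, Finsupp.zero_apply]
    exact h3
  rw [hzero, map_zero]

/-- **The reverse bridge**: a relation between the `T_ℓ` on the integral parabolic classes is a relation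
in the Hecke algebra of the cusp forms. -/
theorem evalForms_eq_zero_of_int (P : FreeAlgebra ℤ (GoodPrime M S))
    (h : ∀ φ : H (Gamma0 M) ℤ, IsParabolicHom (Gamma0 M) φ → evalCoh ℤ P φ = 0) :
    (evalForms P : ↥(CuspForm.heckeAlgebra M 2 S)) = 0 := by
  apply Subtype.ext
  refine LinearMap.ext fun f => ?_
  have h1 := evalCoh_periodHomPair P f 0
  have hpar : IsParabolicHom (Gamma0 M) (periodHomPair M (f, 0)) := by
    have : periodHomPair M (f, 0) ∈ parabolicHoms ℂ (Gamma0 M) ℂ := by
      rw [← (Fermat.Agent.S21.result M).2]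
      exact ⟨_, rfl⟩
    exact this
  rw [evalCoh_eq_zero_of_int P h hpar] at h1
  have h2 := (Fermat.Agent.S21.result M).1 (h1.symm.trans (map_zero (periodHomPair M)).symm)
  exact congrArg Prod.fst h2

end Reverse

end Fermat.Agent.S43lib.B2.Bridge
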