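/-
S43lib / B2 / Bridge / NonVan (helper5).

**Non-vanishing of the localised cohomology.**  Let `θ : 𝕋(M) → k` be a ring homomorphism from the
Hecke algebra of the weight two cusp forms of level `Γ₀(M)` to the commutative ring `k`, for a domain `𝒪`
of characteristic zero, and let `𝔪 ⊂ 𝒪[X_I]` be the kernel of the evaluation `X_{T_ℓ} ↦ θ(T_ℓ)`,
`X_{⟨u⟩} ↦ 1`.  If `𝔪` is not Eisenstein, the localisation of `H¹(Γ₀(M), Reg G 𝒪)` at `𝔪` is non-zero.

Proof.  `H¹(Γ₀(M), 𝒪) ↪ H¹(Γ₀(M), Reg G 𝒪)` after localisation (the kernel is Eisenstein), and an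
`s ∉ 𝔪` killing all integral parabolic classes in `H¹(Γ₀(M), 𝒪) = Hom(Γ₀(M), 𝒪)` cannot exist:
writing the coefficients of `s` in a `ℤ`-basis of the group they generate (`𝒪` is torsion-free), `s` is
an `𝒪`-combination, with `ℤ`-independent coefficients, of integral polynomials each of which kills
the integral parabolic classes, hence (REVERSE Eichler–Shimura bridge: the period map is injective)
vanishes in `𝕋(M)`; applying `θ` gives `ev s = 0`.
-/
import Mathlib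
import Fermat.Agent.S43lib.B1.Level
import Fermat.Agent.S43lib.B2.Bridge.ToB1Triv
import Fermat.Agent.S43lib.B2.Bridge.Rev
import Fermat.Agent.S43lib.B2.Bridge.GlueSys

set_option autoImplicit false
set_option linter.unusedSectionVars false
set_option linter.style.haveILetI false

noncomputable section

namespace Fermat.Agent.S43lib.B2.Bridge

open CongruenceSubgroup Matrix.SpecialLinearGroup ModularForm ModularCurve ModularCurve.Period
open Fermat.Agent.S41lib.HC Fermat.Agent.S16lib.LH Fermat.Agent.S29lib.H Fermat.Agent.S48lib.W1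
open MvPolynomial
open scoped MatrixGroups

/-- the integral parabolic classes form a finitely generated group -/
theorem finite_parabolicHoms_int (M : ℕ) [NeZero M] :
    Module.Finite ℤ ↥(parabolicHoms ℤ (Gamma0 M) ℤ) := by
  have := Fermat.Agent.S16lib.LG.Gamma0_fg M
  obtain ⟨T, hT⟩ := (Group.FG.out : (⊤ : Subgroup ↥(Gamma0 M)).FG)
  let ev : H (Gamma0 M) ℤ →ₗ[ℤ] (↥T → ℤ) :=
    { toFun := fun φ t => φ (Additive.ofMul t.1)
      map_add' := fun φ ψ => rfl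
      map_smul' := fun c φ => rfl }
  have hinj : Function.Injective ev := by
    rw [← LinearMap.ker_eq_bot, LinearMap.ker_eq_bot']
    intro φ hφ
    let K : Subgroup ↥(Gamma0 M) :=
      { carrier := {γ | φ (Additive.ofMul γ) = 0}
        mul_mem' := by
          intro a b ha hb
          show φ (Additive.ofMul (a * b)) = 0
          rw [ofMul_mul, map_add, ha, hb, add_zero]
        one_mem' := by
          show φ (Additive.ofMul 1) = 0
          rw [ofMul_one, map_zero]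
        inv_mem' := by
          intro a ha
          show φ (Additive.ofMul a⁻¹) = 0
          rw [ofMul_inv, map_neg, ha, neg_zero] }
    have hK : Subgroup.closure (T : Set ↥(Gamma0 M)) ≤ K := by
      rw [Subgroup.closure_le]
      intro s hs
      exact congrFun hφ ⟨s, hs⟩
    rw [hT] at hK
    refine AddMonoidHom.ext fun a => ?_
    exact hK (Subgroup.mem_top (Additive.toMul a))
  haveI : Module.Finite ℤ (H (Gamma0 M) ℤ) := Module.Finite.of_injective ev hinj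
  haveI : IsNoetherian ℤ (H (Gamma0 M) ℤ) := isNoetherian_of_isNoetherianRing_of_finite ℤ _
  infer_instance


theorem exists_lift_eq_monomial {I : Type*} (𝒪 : Type*) [CommRing 𝒪] (μ : I →₀ ℕ) :
    ∃ P' : FreeAlgebra ℤ I,
      FreeAlgebra.lift ℤ (fun i => (X i : MvPolynomial I 𝒪)) P' = monomial μ 1 := by
  classical
  induction μ using Finsupp.induction with
  | zero => exact ⟨1, by rw [map_one]; rfl⟩
  | single_add i k μ' _ _ ih =>
    obtain ⟨P', hP'⟩ := ih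
    refine ⟨FreeAlgebra.ι ℤ i ^ k * P', ?_⟩
    rw [map_mul, map_pow, FreeAlgebra.lift_ι_apply, hP', monomial_single_add]

/-- decomposition of a polynomial with coefficients in a torsion-free ring along a `ℤ`-basis of the
group generated by its coefficients -/
theorem exists_decomposition {I : Type*} {𝒪 : Type*} [CommRing 𝒪] [IsDomain 𝒪] [CharZero 𝒪]
    (s : MvPolynomial I 𝒪) :
    ∃ (m : ℕ) (e : Fin m → 𝒪) (P' : Fin m → FreeAlgebra ℤ I), LinearIndependent ℤ e ∧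
      s = ∑ j, C (e j) * FreeAlgebra.lift ℤ (fun i => (X i : MvPolynomial I 𝒪)) (P' j) := by
  classical
  set C₀ : Submodule ℤ 𝒪 := Submodule.span ℤ ((fun μ => coeff μ s) '' (s.support : Set (I →₀ ℕ)))
    with hC₀
  have hfg : C₀.FG := Submodule.fg_span ((Finset.finite_toSet _).image _)
  haveI : Module.Finite ℤ ↥C₀ := Module.Finite.of_fg hfg
  haveI : Module.Free ℤ ↥C₀ := Module.free_of_finite_type_torsion_free'
  let b := Module.finBasis ℤ ↥C₀
  have hmem : ∀ μ ∈ s.support, coeff μ s ∈ C₀ := fun μ hμ =>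
    Submodule.subset_span ⟨μ, hμ, rfl⟩
  choose Q hQ using fun μ : I →₀ ℕ => exists_lift_eq_monomial (I := I) 𝒪 μ
  -- the integer coordinates
  let n : (I →₀ ℕ) → Fin (Module.finrank ℤ ↥C₀) → ℤ := fun μ j =>
    if hμ : μ ∈ s.support then b.repr ⟨coeff μ s, hmem μ hμ⟩ j else 0
  have hn : ∀ μ ∈ s.support, coeff μ s = ∑ j, n μ j • (b j : 𝒪) := by
    intro μ hμ
    have h1 := b.sum_repr ⟨coeff μ s, hmem μ hμ⟩
    have h2 := congrArg (C₀.subtype) h1
    simp only [n, dif_pos hμ]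
    rw [map_sum] at h2
    simp only [map_zsmul, Submodule.subtype_apply] at h2
    exact h2.symm
  refine ⟨_, fun j => (b j : 𝒪), fun j => ∑ μ ∈ s.support, n μ j • Q μ, ?_, ?_⟩
  · have h1 := b.linearIndependent
    exact h1.map' C₀.subtype (Submodule.ker_subtype C₀)
  · conv_lhs => rw [s.as_sum]
    simp_rw [map_sum, map_zsmul, hQ, Finset.mul_sum]
    rw [Finset.sum_comm]
    refine Finset.sum_congr rfl fun μ hμ => ?_
    rw [hn μ hμ, map_sum]
    refine Finset.sum_congr rfl fun j _ => ?_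
    rw [map_zsmul, mul_smul_comm, C_mul_monomial, mul_one]


/-! ### The level system with trivial coefficients -/

section Triv

variable {M : ℕ} [NeZero M] {S : Set ℕ}
variable {G : Type} [CommGroup G] [Fintype G] (χ : (ZMod M)ˣ →* G)
variable {I : Type} (f : I → B1.LvlIdx M) (hcomm : B1.CommStmt M)
variable (𝒪 : Type) [CommRing 𝒪]

/-- the index of `T_ℓ` in helper3's index type of level `M` -/
def goodIdx₀ (ℓ : GoodPrime M S) : B1.LvlIdx M := Sum.inl (Sum.inl ⟨ℓ.1, ℓ.2.1, ℓ.2.2.1⟩)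

variable (W : Type) [AddCommGroup W] [Module 𝒪 W] [DistribMulAction G W] [SMulCommClass G 𝒪 W]

/-- the identity, from the cohomology of the level system to `H¹` -/
def cohToH1₀ : (B1.lvlSys χ f hcomm).Coh 𝒪 W →+ B1.H1 (B1.levelPi χ) 𝒪 W where
  toFun x := x
  map_zero' := rfl
  map_add' _ _ := rfl

theorem cohToH1₀_injective : Function.Injective (cohToH1₀ χ f hcomm 𝒪 W) := fun _ _ h => h

theorem cohToH1₀_cls (z : ↥(B1.Z1 (B1.levelPi χ) 𝒪 W)) :
    cohToH1₀ χ f hcomm 𝒪 W ((B1.lvlSys χ f hcomm).cls 𝒪 W z) = B1.H1.mk (B1.levelPi χ) 𝒪 W z := rfl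

variable {W}

theorem lvlSys_T_eq₀ (i : I) (j : B1.LvlIdx M) (h : f i = j) :
    (B1.lvlSys χ f hcomm).T 𝒪 W i =
      B1.heckeH 𝒪 W (B1.isEquivariant_levelPi χ (B1.lvlD_equivariant M j)) := by
  subst h
  rfl

theorem cohToH1₀_X_good (i : I) (ℓ : GoodPrime M S) (h : f i = goodIdx₀ ℓ)
    (x : (B1.lvlSys χ f hcomm).Coh 𝒪 W) :
    cohToH1₀ χ f hcomm 𝒪 W ((X i : MvPolynomial I 𝒪) • x) =
      heckeHOp₀ χ 𝒪 W ℓ (cohToH1₀ χ f hcomm 𝒪 W x) := by
  haveI : Fact ℓ.1.Prime := ⟨ℓ.2.1⟩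
  rw [B1.HeckeSys.X_smul, lvlSys_T_eq₀ χ f hcomm 𝒪 i _ h]
  show B1.heckeH 𝒪 W _ x = B1.heckeH 𝒪 W (nData_equi₀ (χ := χ) ℓ.2.2.1) x
  congr!

theorem cohToH1₀_X_diam (htriv : ∀ (g : G) (w : W), g • w = w) (i : I) (u : (ZMod M)ˣ)
    (h : f i = Sum.inr u) (x : (B1.lvlSys χ f hcomm).Coh 𝒪 W) :
    (X i : MvPolynomial I 𝒪) • x = x := by
  rw [B1.HeckeSys.X_smul, lvlSys_T_eq₀ χ f hcomm 𝒪 i _ h]
  have h2 := B1.heckeH_diamData (B1.levelPi χ) 𝒪 W (unitRep u) x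
  refine h2.trans ?_
  obtain ⟨z, rfl⟩ := B1.H1.mk_surjective (B1.levelPi χ) 𝒪 W x
  rw [B1.H1.map_mk]
  congr 1
  apply Subtype.ext
  funext γ
  exact htriv _ _

end Triv

/-! ### Non-vanishing -/

section NonVan

variable {M : ℕ} [NeZero M] {S : Set ℕ}
variable {G : Type} [CommGroup G] [Fintype G] (χ : (ZMod M)ˣ →* G)
variable {I : Type} (f : I → B1.LvlIdx M) (hcomm : B1.CommStmt M)
variable (𝒪 : Type) [CommRing 𝒪]

/-- the crossed homomorphism (for the trivial action) of an integral class -/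
def zOf : H (Gamma0 M) ℤ →+ ↥(B1.Z1 (B1.levelPi χ) 𝒪 (B1.TrivMod G 𝒪)) where
  toFun φ := ⟨fun γ => ((φ (Additive.ofMul γ) : ℤ) : 𝒪), fun γ γ' => by
    show ((φ (Additive.ofMul (γ * γ')) : ℤ) : 𝒪) = _
    rw [ofMul_mul, map_add, Int.cast_add]
    rfl⟩
  map_zero' := by
    apply Subtype.ext
    funext γ
    exact (Int.cast_zero : ((0 : ℤ) : 𝒪) = 0)
  map_add' φ ψ := by
    apply Subtype.ext
    funext γ
    exact (Int.cast_add _ _ : ((φ (Additive.ofMul γ) + ψ (Additive.ofMul γ) : ℤ) : 𝒪) = _)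

theorem toHomTriv_zOf (φ : H (Gamma0 M) ℤ) :
    toHomTriv (χ := χ) (R := 𝒪) (W := B1.TrivMod G 𝒪) (fun _ _ => rfl) (zOf χ 𝒪 φ) =
      coeff (Gamma0 M) (Int.castAddHom 𝒪) φ := by
  refine AddMonoidHom.ext fun a => ?_
  rfl

/-- for the trivial action the class map is injective -/
theorem mk_triv_injective :
    Function.Injective (B1.H1.mk (B1.levelPi χ) 𝒪 (B1.TrivMod G 𝒪)) := by
  rw [← LinearMap.ker_eq_bot, LinearMap.ker_eq_bot']
  intro z hz
  rw [B1.H1.mk_eq_zero_iff] at hz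
  obtain ⟨w, hw⟩ := hz
  apply Subtype.ext
  funext γ
  rw [hw γ]
  exact sub_self w

variable {χ f 𝒪} in
/-- the polynomials of `FreeAlgebra ℤ (GoodPrime M S)` attached to the indices -/
def idxPoly {k : Type} [CommRing k] (θ : CuspForm.heckeAlgebra M 2 S →+* k)
    (ev : MvPolynomial I 𝒪 →+* k) (i : I) :
    FreeAlgebra ℤ (GoodPrime M S) := by
  classical
  exact if h : ∃ ℓ : GoodPrime M S, f i = goodIdx₀ ℓ ∧
      ev (X i) = θ (CuspForm.heckeAlgebra.T ℓ.2.1 ℓ.2.2.1 ℓ.2.2.2)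
    then FreeAlgebra.ι ℤ (Classical.choose h) else 1

variable {k : Type} [CommRing k] (θ : CuspForm.heckeAlgebra M 2 S →+* k)
  (ev : MvPolynomial I 𝒪 →+* k)

variable {χ f 𝒪} in
theorem idxPoly_good (i : I) (h : ∃ ℓ : GoodPrime M S, f i = goodIdx₀ ℓ ∧
    ev (X i) = θ (CuspForm.heckeAlgebra.T ℓ.2.1 ℓ.2.2.1 ℓ.2.2.2)) :
    idxPoly (f := f) θ ev i = FreeAlgebra.ι ℤ (Classical.choose h) := by
  unfold idxPoly
  exact dif_pos h

variable {χ f 𝒪} in
theorem idxPoly_diam (i : I) (h : ¬ ∃ ℓ : GoodPrime M S, f i = goodIdx₀ ℓ ∧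
    ev (X i) = θ (CuspForm.heckeAlgebra.T ℓ.2.1 ℓ.2.2.1 ℓ.2.2.2)) :
    idxPoly (f := f) θ ev i = 1 := by
  unfold idxPoly
  exact dif_neg h

variable (hev : ∀ i, (∃ ℓ : GoodPrime M S, f i = goodIdx₀ ℓ ∧
    ev (X i) = θ (CuspForm.heckeAlgebra.T ℓ.2.1 ℓ.2.2.1 ℓ.2.2.2)) ∨
    (∃ u : (ZMod M)ˣ, f i = Sum.inr u ∧ ev (X i) = 1))

include hev in
/-- the evaluation `ev` of an integral polynomial is `θ` of the corresponding Hecke operator -/
theorem ev_lift_eq (P' : FreeAlgebra ℤ I) :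
    ev (FreeAlgebra.lift ℤ (fun i => (X i : MvPolynomial I 𝒪)) P') =
      θ (evalForms (FreeAlgebra.lift ℤ (idxPoly (f := f) θ ev) P')) := by
  let a₁ : FreeAlgebra ℤ I →ₐ[ℤ] k :=
    ev.toIntAlgHom.comp (FreeAlgebra.lift ℤ (fun i => (X i : MvPolynomial I 𝒪)))
  let a₂ : FreeAlgebra ℤ I →ₐ[ℤ] k :=
    θ.toIntAlgHom.comp ((evalForms (M := M) (S := S)).comp
      (FreeAlgebra.lift ℤ (idxPoly (f := f) θ ev)))
  have h12 : a₁ = a₂ := by
    refine FreeAlgebra.hom_ext (funext fun i => ?_)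
    show ev (FreeAlgebra.lift ℤ (fun i => (X i : MvPolynomial I 𝒪)) (FreeAlgebra.ι ℤ i)) =
      θ (evalForms (FreeAlgebra.lift ℤ (idxPoly (f := f) θ ev) (FreeAlgebra.ι ℤ i)))
    rw [FreeAlgebra.lift_ι_apply, FreeAlgebra.lift_ι_apply]
    by_cases h : ∃ ℓ : GoodPrime M S, f i = goodIdx₀ ℓ ∧
        ev (X i) = θ (CuspForm.heckeAlgebra.T ℓ.2.1 ℓ.2.2.1 ℓ.2.2.2)
    · rw [idxPoly_good θ ev i h, evalForms_ι]
      exact (Classical.choose_spec h).2
    · rw [idxPoly_diam θ ev i h, map_one, map_one]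
      rcases hev i with h' | ⟨u, -, hu⟩
      · exact absurd h' h
      · exact hu
  exact congrArg (fun a : FreeAlgebra ℤ I →ₐ[ℤ] k => a P') h12

include hev in
/-- the action of an integral polynomial on the cohomology with trivial coefficients -/
theorem cohToH1₀_lift_smul (P' : FreeAlgebra ℤ I)
    (x : (B1.lvlSys χ f hcomm).Coh 𝒪 (B1.TrivMod G 𝒪)) :
    cohToH1₀ χ f hcomm 𝒪 (B1.TrivMod G 𝒪)
        ((FreeAlgebra.lift ℤ (fun i => (X i : MvPolynomial I 𝒪)) P') • x) =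
      evalH₀ χ 𝒪 (B1.TrivMod G 𝒪) (FreeAlgebra.lift ℤ (idxPoly (f := f) θ ev) P')
        (cohToH1₀ χ f hcomm 𝒪 (B1.TrivMod G 𝒪) x) := by
  let a : I → Module.End ℤ ((B1.lvlSys χ f hcomm).Coh 𝒪 (B1.TrivMod G 𝒪)) :=
    fun i => (DistribSMul.toAddMonoidHom _ (X i : MvPolynomial I 𝒪)).toIntLinearMap
  let b : I → Module.End ℤ (B1.H1 (B1.levelPi χ) 𝒪 (B1.TrivMod G 𝒪)) :=
    fun i => evalH₀ χ 𝒪 (B1.TrivMod G 𝒪) (idxPoly (f := f) θ ev i)
  have h1 : (FreeAlgebra.lift ℤ (fun i => (X i : MvPolynomial I 𝒪)) P') • x =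
      FreeAlgebra.lift ℤ a P' x := lift_smul_eq _ a (fun _ _ => rfl) P' x
  have h2 : cohToH1₀ χ f hcomm 𝒪 (B1.TrivMod G 𝒪) (FreeAlgebra.lift ℤ a P' x) =
      FreeAlgebra.lift ℤ b P' (cohToH1₀ χ f hcomm 𝒪 (B1.TrivMod G 𝒪) x) := by
    refine lift_intertwine a b (cohToH1₀ χ f hcomm 𝒪 (B1.TrivMod G 𝒪)) ?_ P' x
    intro i v
    show cohToH1₀ χ f hcomm 𝒪 (B1.TrivMod G 𝒪) ((X i : MvPolynomial I 𝒪) • v) =
      evalH₀ χ 𝒪 (B1.TrivMod G 𝒪) (idxPoly (f := f) θ ev i)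
        (cohToH1₀ χ f hcomm 𝒪 (B1.TrivMod G 𝒪) v)
    by_cases h : ∃ ℓ : GoodPrime M S, f i = goodIdx₀ ℓ ∧
        ev (X i) = θ (CuspForm.heckeAlgebra.T ℓ.2.1 ℓ.2.2.1 ℓ.2.2.2)
    · rw [idxPoly_good θ ev i h]
      unfold evalH₀
      rw [FreeAlgebra.lift_ι_apply]
      exact cohToH1₀_X_good χ f hcomm 𝒪 i _ (Classical.choose_spec h).1 v
    · rw [idxPoly_diam θ ev i h, map_one, Module.End.one_apply]
      rcases hev i with h' | ⟨u, hu, -⟩
      · exact absurd h' h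
      · rw [cohToH1₀_X_diam χ f hcomm 𝒪 (fun _ _ => rfl) i u hu v]
  have h3 : FreeAlgebra.lift ℤ b = (evalH₀ χ 𝒪 (B1.TrivMod G 𝒪)).comp
      (FreeAlgebra.lift ℤ (idxPoly (f := f) θ ev)) := by
    refine FreeAlgebra.hom_ext (funext fun i => ?_)
    show FreeAlgebra.lift ℤ b (FreeAlgebra.ι ℤ i) = evalH₀ χ 𝒪 (B1.TrivMod G 𝒪)
      (FreeAlgebra.lift ℤ (idxPoly (f := f) θ ev) (FreeAlgebra.ι ℤ i))
    rw [FreeAlgebra.lift_ι_apply, FreeAlgebra.lift_ι_apply]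
  rw [h1, h2, h3]
  rfl

theorem cohToH1₀_smul (a : 𝒪) (x : (B1.lvlSys χ f hcomm).Coh 𝒪 (B1.TrivMod G 𝒪)) :
    cohToH1₀ χ f hcomm 𝒪 (B1.TrivMod G 𝒪) (a • x) =
      a • cohToH1₀ χ f hcomm 𝒪 (B1.TrivMod G 𝒪) x := rfl

include hev in
/-- **Key step**: a polynomial killing the classes of all integral parabolic homomorphisms lies in
the kernel of `ev`. -/
theorem ev_eq_zero_of_kills [IsDomain 𝒪] [CharZero 𝒪] (s : MvPolynomial I 𝒪)
    (hs : ∀ φ : H (Gamma0 M) ℤ, IsParabolicHom (Gamma0 M) φ →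
      s • (B1.lvlSys χ f hcomm).cls 𝒪 (B1.TrivMod G 𝒪) (zOf χ 𝒪 φ) = 0) : ev s = 0 := by
  classical
  obtain ⟨m, e, P', hli, hdec⟩ := exists_decomposition s
  have hkill : ∀ j, (evalForms (FreeAlgebra.lift ℤ (idxPoly (f := f) θ ev) (P' j)) :
      ↥(CuspForm.heckeAlgebra M 2 S)) = 0 := by
    intro j₀
    apply evalForms_eq_zero_of_int
    intro φ hφ
    have h0 := hs φ hφ
    rw [hdec, Finset.sum_smul] at h0
    have h1 := congrArg (cohToH1₀ χ f hcomm 𝒪 (B1.TrivMod G 𝒪)) h0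
    rw [map_sum, map_zero] at h1
    have h2 : ∀ j, cohToH1₀ χ f hcomm 𝒪 (B1.TrivMod G 𝒪)
        ((C (e j) * FreeAlgebra.lift ℤ (fun i => (X i : MvPolynomial I 𝒪)) (P' j)) •
          (B1.lvlSys χ f hcomm).cls 𝒪 (B1.TrivMod G 𝒪) (zOf χ 𝒪 φ)) =
        B1.H1.mk (B1.levelPi χ) 𝒪 (B1.TrivMod G 𝒪)
          (e j • evalZ₀ χ 𝒪 (B1.TrivMod G 𝒪) (FreeAlgebra.lift ℤ (idxPoly (f := f) θ ev) (P' j))
            (zOf χ 𝒪 φ)) := by
      intro j
      rw [mul_smul, B1.HeckeSys.C_smul, cohToH1₀_smul, cohToH1₀_lift_smul χ f hcomm 𝒪 θ ev hev,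
        cohToH1₀_cls, ← mk_evalZ₀, map_smul]
    rw [Finset.sum_congr rfl fun j _ => h2 j, ← map_sum] at h1
    have h3 := mk_triv_injective χ 𝒪 (h1.trans (map_zero _).symm)
    have h4 := congrArg (toHomTriv (χ := χ) (R := 𝒪) (W := B1.TrivMod G 𝒪) (fun _ _ => rfl)) h3
    rw [map_sum, map_zero] at h4
    simp_rw [map_smul, toHomTriv_evalZ₀, toHomTriv_zOf] at h4
    refine AddMonoidHom.ext fun a => ?_
    have h5 := congrArg (fun F : H (Gamma0 M) (B1.TrivMod G 𝒪) => F a) h4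
    simp only [AddMonoidHom.zero_apply] at h5
    rw [AddMonoidHom.finsetSum_apply] at h5
    have h6 : ∑ j, (evalCoh ℤ (FreeAlgebra.lift ℤ (idxPoly (f := f) θ ev) (P' j)) φ a) • e j = 0 := by
      refine Eq.trans (Finset.sum_congr rfl fun j _ => ?_) h5
      have h7 := evalCoh_coeff (M := M) (S := S) (A' := B1.TrivMod G 𝒪) (Int.castAddHom 𝒪)
        (FreeAlgebra.lift ℤ (idxPoly (f := f) θ ev) (P' j)) φ
      have h8 := congrArg (fun F : H (Gamma0 M) (B1.TrivMod G 𝒪) => F a) h7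
      refine Eq.trans ?_ (congrArg (fun t : B1.TrivMod G 𝒪 => e j • t) h8)
      show _ = e j * ((evalCoh ℤ (FreeAlgebra.lift ℤ (idxPoly (f := f) θ ev) (P' j)) φ a : ℤ) : 𝒪)
      rw [zsmul_eq_mul, mul_comm]
    exact Fintype.linearIndependent_iff.mp hli _ h6 j₀
  rw [hdec, map_sum]
  refine Finset.sum_eq_zero fun j _ => ?_
  rw [map_mul, ev_lift_eq f 𝒪 θ ev hev, hkill j, map_zero, mul_zero]

include hev in
/-- **Non-vanishing, trivial coefficients**: the localisation of `H¹(Γ₀(M), 𝒪)` at the kernel of `ev`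
is non-zero. -/
theorem nontrivial_F_triv [IsDomain 𝒪] [CharZero 𝒪]
    (𝔪 : Ideal (MvPolynomial I 𝒪)) [𝔪.IsPrime] (h𝔪 : ∀ s, s ∈ 𝔪 ↔ ev s = 0) :
    Nontrivial ((B1.lvlSys χ f hcomm).F 𝒪 (B1.TrivMod G 𝒪) 𝔪) := by
  classical
  by_contra hnt
  rw [not_nontrivial_iff_subsingleton] at hnt
  have hkill : ∀ x : (B1.lvlSys χ f hcomm).Coh 𝒪 (B1.TrivMod G 𝒪),
      ∃ s : MvPolynomial I 𝒪, s ∉ 𝔪 ∧ s • x = 0 := by
    intro x
    have h1 : (B1.lvlSys χ f hcomm).loc 𝒪 (B1.TrivMod G 𝒪) 𝔪 x = 0 := Subsingleton.elim _ _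
    obtain ⟨c, hc⟩ := (IsLocalizedModule.eq_zero_iff 𝔪.primeCompl
      ((B1.lvlSys χ f hcomm).loc 𝒪 (B1.TrivMod G 𝒪) 𝔪)).mp h1
    exact ⟨c.1, c.2, hc⟩
  haveI := finite_parabolicHoms_int M
  obtain ⟨gens, hgens⟩ :=
    (Module.Finite.fg_top : (⊤ : Submodule ℤ ↥(parabolicHoms ℤ (Gamma0 M) ℤ)).FG)
  choose sx hsx using hkill
  let cl : H (Gamma0 M) ℤ →+ (B1.lvlSys χ f hcomm).Coh 𝒪 (B1.TrivMod G 𝒪) :=
    ((B1.lvlSys χ f hcomm).cls 𝒪 (B1.TrivMod G 𝒪)).toAddMonoidHom.comp (zOf χ 𝒪)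
  let s : MvPolynomial I 𝒪 := ∏ g ∈ gens, sx (cl g.1)
  have hs𝔪 : s ∉ 𝔪 := by
    intro h
    obtain ⟨g, -, hg⟩ := (Ideal.IsPrime.prod_mem_iff).mp h
    exact (hsx _).1 hg
  have hsg : ∀ g ∈ gens, s • cl g.1 = 0 := by
    intro g hg
    show (∏ g ∈ gens, sx (cl g.1)) • cl g.1 = 0
    rw [← Finset.mul_prod_erase gens _ hg, mul_comm, mul_smul, (hsx _).2, smul_zero]
  have hs : ∀ φ : H (Gamma0 M) ℤ, IsParabolicHom (Gamma0 M) φ →
      s • (B1.lvlSys χ f hcomm).cls 𝒪 (B1.TrivMod G 𝒪) (zOf χ 𝒪 φ) = 0 := by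
    intro φ hφ
    have hmem : (⟨φ, hφ⟩ : ↥(parabolicHoms ℤ (Gamma0 M) ℤ)) ∈
        Submodule.span ℤ (gens : Set ↥(parabolicHoms ℤ (Gamma0 M) ℤ)) := by
      rw [hgens]
      trivial
    have key : ∀ y ∈ Submodule.span ℤ (gens : Set ↥(parabolicHoms ℤ (Gamma0 M) ℤ)),
        s • cl y.1 = 0 := by
      intro y hy
      induction hy using Submodule.span_induction with
      | mem y hy => exact hsg y hy
      | zero =>
        show s • cl 0 = 0
        rw [map_zero, smul_zero]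
      | add y z _ _ hy hz =>
        show s • cl (y.1 + z.1) = 0
        rw [map_add, smul_add, hy, hz, add_zero]
      | smul n y _ hy =>
        show s • cl (n • y.1) = 0
        rw [map_zsmul, smul_comm, hy, smul_zero]
    exact key _ hmem
  exact hs𝔪 ((h𝔪 s).mpr (ev_eq_zero_of_kills χ f hcomm 𝒪 θ ev hev s hs))

/-- the constant functions, as a map from the trivial module to the regular module -/
def constReg (G : Type) [Group G] (𝒪 : Type) [CommRing 𝒪] : B1.TrivMod G 𝒪 →ₗ[𝒪] B1.Reg G 𝒪 where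
  toFun a := ⟨fun _ => a⟩
  map_add' _ _ := rfl
  map_smul' _ _ := rfl

theorem isEquivar_constReg (G : Type) [Group G] (𝒪 : Type) [CommRing 𝒪] :
    B1.IsEquivar G (constReg G 𝒪) := fun _ _ => rfl

theorem constReg_injective (G : Type) [Group G] (𝒪 : Type) [CommRing 𝒪] :
    Function.Injective (constReg G 𝒪) := fun _ _ h =>
  congrArg (fun r : B1.Reg G 𝒪 => r 1) h

include hev in
/-- **Non-vanishing, regular coefficients**: if `𝔪 = ker ev` is not Eisenstein, the localisation of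
`H¹(Γ₀(M), Reg G 𝒪)` at `𝔪` is non-zero. -/
theorem nontrivial_F_reg [IsDomain 𝒪] [CharZero 𝒪]
    (𝔪 : Ideal (MvPolynomial I 𝒪)) [𝔪.IsPrime] (h𝔪 : ∀ s, s ∈ 𝔪 ↔ ev s = 0)
    (hne : (B1.lvlSys χ f hcomm).NonEis 𝔪) :
    Nontrivial ((B1.lvlSys χ f hcomm).F 𝒪 (B1.Reg G 𝒪) 𝔪) := by
  haveI := nontrivial_F_triv χ f hcomm 𝒪 θ ev hev 𝔪 h𝔪
  exact ((B1.lvlSys χ f hcomm).Fmap_injective hne (isEquivar_constReg G 𝒪)
    (constReg_injective G 𝒪)).nontrivial

end NonVan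

end Fermat.Agent.S43lib.B2.Bridge
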