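/-
S43lib / B2 / Bridge / Abstract (helper5).

Abstract group theory for the twist on cohomology.

* `eq_zero_of_eigen_relation` (the Mackey/Bruhat vanishing argument): a `(B, ψ)`-eigenvector `v` of
  a representation of `B` factoring through a finite quotient, satisfying a relation
  `c₀ v + ∑ c_i G_i v = 0` with `c₀ ≠ 0`, where each `G_i` intertwines `ρ(t_i)` with `ρ(t'_i)` on
  `v` for some `t_i, t'_i ∈ B` with `ψ(t_i) ≠ ψ(t'_i)`, vanishes.
* `transferData`: the transfer `Hom(K, A) → Hom(G, A)` of a finite index subgroup as a `CosetData`;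
  `exists_extension_of_invariant`: a homomorphism on a normal subgroup of finite index `n`,
  invariant under conjugation, with values in a module over a ring in which `n` is invertible,
  extends to `G`.
* `hom_eq_zero_of_restrict`: restriction to a finite index subgroup is injective on
  homomorphisms with torsion-free values.
-/
import Mathlib
import Fermat.Agent.S41lib.HC.CosetData

set_option autoImplicit false
set_option linter.unusedSectionVars false

noncomputable section

namespace Fermat.Agent.S43lib.B2.Bridge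

open Fermat.Agent.S41lib.HC

/-! ### The vanishing argument -/

section Eigen

variable {K : Type*} [Field K] {W : Type*} [AddCommGroup W] [Module K W]
variable {B : Type*} [Group B] (B₀ : Subgroup B) [B₀.Normal] [Fintype (B ⧸ B₀)]

/-- the `ψ`-averaging operator of a representation factoring through `B ⧸ B₀` -/
def avgOp (ρ : B →* Module.End K W) (hρ : ∀ b ∈ B₀, ρ b = 1) (ψ : B →* Kˣ)
    (hψ : ∀ b ∈ B₀, ψ b = 1) : Module.End K W :=
  ∑ q : B ⧸ B₀, ((QuotientGroup.lift B₀ ψ hψ q)⁻¹ : Kˣ).1 • QuotientGroup.lift B₀ ρ hρ q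

theorem avgOp_comp (ρ : B →* Module.End K W) (hρ : ∀ b ∈ B₀, ρ b = 1) (ψ : B →* Kˣ)
    (hψ : ∀ b ∈ B₀, ψ b = 1) (b : B) (w : W) :
    avgOp B₀ ρ hρ ψ hψ (ρ b w) = (ψ b : K) • avgOp B₀ ρ hρ ψ hψ w := by
  unfold avgOp
  rw [LinearMap.sum_apply, LinearMap.sum_apply, Finset.smul_sum]
  rw [← Equiv.sum_comp (Equiv.mulRight (QuotientGroup.mk b : B ⧸ B₀))
    (fun q => (ψ b : K) • (((QuotientGroup.lift B₀ ψ hψ q)⁻¹ : Kˣ).1 •
      QuotientGroup.lift B₀ ρ hρ q) w)]
  refine Finset.sum_congr rfl fun q _ => ?_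
  rw [LinearMap.smul_apply, LinearMap.smul_apply, Equiv.coe_mulRight, map_mul, map_mul,
    QuotientGroup.lift_mk, QuotientGroup.lift_mk, Module.End.mul_apply, smul_smul]
  congr 1
  rw [mul_inv_rev, Units.val_mul, ← mul_assoc, Units.mul_inv, one_mul]

theorem avgOp_eigen (ρ : B →* Module.End K W) (hρ : ∀ b ∈ B₀, ρ b = 1) (ψ : B →* Kˣ)
    (hψ : ∀ b ∈ B₀, ψ b = 1) (v : W) (hv : ∀ b, ρ b v = (ψ b : K) • v) :
    avgOp B₀ ρ hρ ψ hψ v = (Fintype.card (B ⧸ B₀) : K) • v := by
  unfold avgOp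
  rw [LinearMap.sum_apply]
  have : ∀ q : B ⧸ B₀, (((QuotientGroup.lift B₀ ψ hψ q)⁻¹ : Kˣ).1 •
      QuotientGroup.lift B₀ ρ hρ q) v = v := by
    intro q
    obtain ⟨b, rfl⟩ := QuotientGroup.mk_surjective q
    rw [LinearMap.smul_apply, QuotientGroup.lift_mk, QuotientGroup.lift_mk, hv, smul_smul,
      Units.inv_mul, one_smul]
  rw [Finset.sum_congr rfl fun q _ => this q, Finset.sum_const, Finset.card_univ,
    Nat.cast_smul_eq_nsmul]

/-- **The vanishing argument.** -/
theorem eq_zero_of_eigen_relation (ρ : B →* Module.End K W) (hρ : ∀ b ∈ B₀, ρ b = 1)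
    (ψ : B →* Kˣ) (hψ : ∀ b ∈ B₀, ψ b = 1) (hcard : (Fintype.card (B ⧸ B₀) : K) ≠ 0)
    (v : W) (hv : ∀ b, ρ b v = (ψ b : K) • v)
    {ι : Type*} (s : Finset ι) (G : ι → Module.End K W) (t t' : ι → B)
    (hG : ∀ i ∈ s, ρ (t i) (G i v) = G i (ρ (t' i) v))
    (hne : ∀ i ∈ s, ψ (t i) ≠ ψ (t' i))
    (c₀ : K) (hc₀ : c₀ ≠ 0) (c : ι → K)
    (hrel : c₀ • v + ∑ i ∈ s, c i • G i v = 0) : v = 0 := by
  set E := avgOp B₀ ρ hρ ψ hψ with hE
  have hkill : ∀ i ∈ s, E (G i v) = 0 := by
    intro i hi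
    have h1 : E (ρ (t i) (G i v)) = (ψ (t i) : K) • E (G i v) := avgOp_comp B₀ ρ hρ ψ hψ _ _
    have h2 : E (G i (ρ (t' i) v)) = (ψ (t' i) : K) • E (G i v) := by
      rw [hv, map_smul, map_smul]
    rw [hG i hi, h2] at h1
    have h3 : ((ψ (t' i) : K) - (ψ (t i) : K)) • E (G i v) = 0 := by
      rw [sub_smul, h1, sub_self]
    rcases smul_eq_zero.mp h3 with h4 | h4
    · exfalso
      apply hne i hi
      apply Units.ext
      exact (sub_eq_zero.mp h4).symm
    · exact h4
  have h5 := congrArg E hrel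
  rw [map_add, map_smul, map_sum, map_zero, avgOp_eigen B₀ ρ hρ ψ hψ v hv] at h5
  rw [Finset.sum_eq_zero (fun i hi => by rw [map_smul, hkill i hi, smul_zero]), add_zero,
    smul_smul] at h5
  rcases smul_eq_zero.mp h5 with h6 | h6
  · exact absurd h6 (mul_ne_zero hc₀ hcard)
  · exact h6

end Eigen


/-! ### The transfer as a coset datum, and descent of invariant homomorphisms -/

section Transfer

variable {G : Type*} [Group G] (K : Subgroup G)

/-- coset representatives -/
def qrep (x : G ⧸ K) : G := Quotient.out x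

theorem mk_qrep (x : G ⧸ K) : (QuotientGroup.mk (qrep K x) : G ⧸ K) = x :=
  QuotientGroup.out_eq' x

theorem transferElt_mem (g : G) (x : G ⧸ K) : (qrep K x)⁻¹ * g * qrep K (g⁻¹ • x) ∈ K := by
  have h1 : (QuotientGroup.mk (g * qrep K (g⁻¹ • x)) : G ⧸ K) = QuotientGroup.mk (qrep K x) := by
    have : (QuotientGroup.mk (g * qrep K (g⁻¹ • x)) : G ⧸ K) =
        g • (QuotientGroup.mk (qrep K (g⁻¹ • x)) : G ⧸ K) := rfl
    rw [this, mk_qrep, mk_qrep, smul_inv_smul]
  have h2 := QuotientGroup.eq.mp h1.symm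
  rwa [← mul_assoc] at h2

/-- the coset datum of the transfer `Hom(K, A) → Hom(G, A)` -/
def transferData : CosetData G ↥K (G ⧸ K) where
  σ g := (MulAction.toPerm g⁻¹ : Equiv.Perm (G ⧸ K))
  c g x := ⟨_, transferElt_mem K g x⟩
  σ_mul g h x := by
    show (g * h)⁻¹ • x = h⁻¹ • g⁻¹ • x
    rw [mul_inv_rev, mul_smul]
  c_mul g h x := by
    apply Subtype.ext
    show (qrep K x)⁻¹ * (g * h) * qrep K ((g * h)⁻¹ • x) =
      ((qrep K x)⁻¹ * g * qrep K (g⁻¹ • x)) *
        ((qrep K (g⁻¹ • x))⁻¹ * h * qrep K (h⁻¹ • g⁻¹ • x))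
    rw [mul_inv_rev, mul_smul]
    group

@[simp] theorem transferData_c_coe (g : G) (x : G ⧸ K) :
    ((transferData K).c g x : G) = (qrep K x)⁻¹ * g * qrep K (g⁻¹ • x) := rfl

theorem smul_eq_of_mem_normal [K.Normal] {k : G} (hk : k ∈ K) (x : G ⧸ K) : k • x = x := by
  obtain ⟨g, rfl⟩ := QuotientGroup.mk_surjective x
  show (QuotientGroup.mk (k * g) : G ⧸ K) = QuotientGroup.mk g
  rw [QuotientGroup.eq, mul_inv_rev, mul_assoc]
  have := Subgroup.Normal.conj_mem (inferInstance : K.Normal) k⁻¹ (K.inv_mem hk) g⁻¹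
  rwa [inv_inv, mul_assoc] at this

variable [K.Normal] [Fintype (G ⧸ K)]

/-- on a conjugation invariant homomorphism, transfer followed by restriction is multiplication by
the index -/
theorem transferData_op_apply_of_mem {A : Type*} [AddCommGroup A] (φ : Additive ↥K →+ A)
    (hinv : ∀ (g : G) (k : ↥K) (h : g * (k : G) * g⁻¹ ∈ K),
      φ (Additive.ofMul (⟨_, h⟩ : ↥K)) = φ (Additive.ofMul k)) (k : ↥K) :
    (transferData K).op A φ (Additive.ofMul (k : G)) =
      Fintype.card (G ⧸ K) • φ (Additive.ofMul k) := by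
  rw [CosetData.op_apply]
  have : ∀ x : G ⧸ K, φ (Additive.ofMul ((transferData K).c (k : G) x)) =
      φ (Additive.ofMul k) := by
    intro x
    have hx : (k : G)⁻¹ • x = x := smul_eq_of_mem_normal K (K.inv_mem k.2) x
    have hmem : (qrep K x)⁻¹ * (k : G) * ((qrep K x)⁻¹)⁻¹ ∈ K :=
      Subgroup.Normal.conj_mem inferInstance _ k.2 _
    have := hinv (qrep K x)⁻¹ k hmem
    rw [← this]
    congr 2
    apply Subtype.ext
    show ((transferData K).c (k : G) x : G) = (qrep K x)⁻¹ * (k : G) * ((qrep K x)⁻¹)⁻¹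
    rw [transferData_c_coe, hx, inv_inv]
  rw [Finset.sum_congr rfl fun x _ => this x, Finset.sum_const, Finset.card_univ]

/-- **Descent.**  A conjugation invariant homomorphism on a normal subgroup of finite index `n`
with values in a module over a ring in which `n` is invertible extends to the whole group. -/
theorem exists_extension_of_invariant {R : Type*} [Ring R] {A : Type*} [AddCommGroup A]
    [Module R A] (hn : IsUnit (Fintype.card (G ⧸ K) : R)) (φ : Additive ↥K →+ A)
    (hinv : ∀ (g : G) (k : ↥K) (h : g * (k : G) * g⁻¹ ∈ K),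
      φ (Additive.ofMul (⟨_, h⟩ : ↥K)) = φ (Additive.ofMul k)) :
    ∃ Φ : Additive G →+ A, ∀ k : ↥K, Φ (Additive.ofMul (k : G)) = φ (Additive.ofMul k) := by
  obtain ⟨u, hu⟩ := hn
  refine ⟨(DistribSMul.toAddMonoidHom A (u⁻¹ : Rˣ).1).comp ((transferData K).op A φ), ?_⟩
  intro k
  rw [AddMonoidHom.comp_apply, transferData_op_apply_of_mem K φ hinv k]
  show (u⁻¹ : Rˣ).1 • (Fintype.card (G ⧸ K) • φ (Additive.ofMul k)) = _
  rw [← Nat.cast_smul_eq_nsmul R, smul_smul, ← hu, Units.inv_mul, one_smul]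

end Transfer

/-! ### Restriction to a subgroup of finite index -/

section Restrict

variable {G : Type*} [Group G]

/-- a homomorphism with torsion-free values vanishing on a subgroup of finite index vanishes -/
theorem hom_eq_zero_of_restrict (K : Subgroup G) (hK : K.index ≠ 0) {A : Type*} [AddCommGroup A]
    [IsAddTorsionFree A] (φ : Additive G →+ A)
    (h : ∀ k : ↥K, φ (Additive.ofMul (k : G)) = 0) : φ = 0 := by
  refine AddMonoidHom.ext fun a => ?_
  obtain ⟨n, hn0, -, hn⟩ := Subgroup.exists_pow_mem_of_index_ne_zero hK (Additive.toMul a)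
  have h1 := h ⟨_, hn⟩
  rw [ofMul_pow, map_nsmul] at h1
  rw [AddMonoidHom.zero_apply]
  exact (nsmul_eq_zero_iff_right hn0.ne').mp h1

end Restrict

end Fermat.Agent.S43lib.B2.Bridge
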