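/-
S43lib / B2 / Bridge / Points (helper5).

**Semisimplicity of the Hecke algebra `𝕋_Q`.**  Let `E` be a commutative `𝒪`-algebra, finite and free as an
`𝒪`-module (`𝒪` a complete DVR of characteristic zero with finite residue field), generated by elements
`t_ℓ` satisfying all the relations of the `T_ℓ` on the weight two cusp forms of level `N` (BRIDGE (R))
and by the image of a finite commutative group `G` (the diamond operators).  Then there are finitely
many `𝒪`-algebra homomorphisms `E → O₁` into a complete DVR `O₁` finite over `𝒪` which are jointly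
injective; in particular `E` is reduced.

Proof: `E` is generated over `𝒪` by the image of the group algebra `𝕋(N)[G]` of the (reduced, finite over
`ℤ`) Hecke algebra of level `N`, which is reduced (it embeds into a product of copies of `ℂ`), and
`S32lib.exists_characters_dvr` applies.
-/
import Mathlib
import Fermat.Agent.S43lib.B2.Bridge.Lift
import Fermat.Agent.S43lib.B2.Bridge.Cond
import Fermat.Agent.S31lib.PET.Main
import Fermat.Agent.S32lib.Chars.Main
import Fermat.Agent.S22

set_option autoImplicit false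
set_option linter.unusedSectionVars false
set_option linter.style.haveILetI false

noncomputable section

namespace Fermat.Agent.S43lib.B2.Bridge

open CuspForm IsLocalRing Finset

/-! ### Group algebras with enough characters are reduced -/

theorem liftNCRingHom_apply_fintype {k G R : Type*} [CommRing k] [CommGroup G] [Fintype G] [CommRing R]
    (f : k →+* R) (g : G →* R) (a : MonoidAlgebra k G) :
    MonoidAlgebra.liftNCRingHom f g (fun _ _ => Commute.all _ _) a = ∑ x, f (a.coeff x) * g x := by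
  show (Finsupp.liftAddHom fun x => (AddMonoidHom.mulRight (g x)).comp (f : k →+ R)) a.coeff = _
  rw [Finsupp.liftAddHom_apply, Finsupp.sum_fintype]
  · rfl
  · intro x
    simp

/-- a group algebra of a finite commutative group over a ring with enough characters into a field with
enough roots of unity is reduced -/
theorem isReduced_monoidAlgebra_of_chars {B₀ : Type*} [CommRing B₀] {G : Type*} [CommGroup G]
    [Fintype G] {K : Type*} [Field K] [HasEnoughRootsOfUnity K (Monoid.exponent G)] {ι : Type*}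
    (χ : ι → B₀ →+* K) (hχ : ∀ x, (∀ i, χ i x = 0) → x = 0) : IsReduced (MonoidAlgebra B₀ G) := by
  classical
  let Φ : MonoidAlgebra B₀ G →+* (ι × (G →* Kˣ) → K) :=
    RingHom.pi fun iψ => MonoidAlgebra.liftNCRingHom (χ iψ.1) ((Units.coeHom K).comp iψ.2)
      (fun _ _ => Commute.all _ _)
  have hΦ : Function.Injective Φ := by
    rw [injective_iff_map_eq_zero]
    intro a ha
    apply MonoidAlgebra.coeff_injective
    ext g
    show a.coeff g = 0
    apply hχ
    intro i
    have h1 : (fun g => χ i (a.coeff g)) = 0 := by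
      apply eq_zero_of_forall_char_sum_eq_zero
      intro ψ
      have h2 := congrFun ha (i, ψ)
      simp only [Φ, RingHom.pi_apply, Pi.zero_apply] at h2
      rw [liftNCRingHom_apply_fintype] at h2
      exact h2
    exact congrFun h1 g
  exact isReduced_of_injective Φ hΦ

/-! ### The Hecke algebra of level `N` -/

variable (N : ℕ) [NeZero N] (S : Set ℕ)

/-- the complex characters of the Hecke algebra are jointly injective -/
theorem exists_heckeAlgebra_chars (hS : ∀ q : ℕ, q.Prime → q ∣ N → q ∈ S) :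
    ∃ (ι : Type) (χ : ι → (heckeAlgebra N 2 S →+* ℂ)),
      ∀ x : heckeAlgebra N 2 S, (∀ i, χ i x = 0) → x = 0 := by
  obtain ⟨ι, _, b, χ, hχ⟩ := Fermat.Agent.S31lib.PET.exists_eigenbasis' (N := N) (S := S) hS
  refine ⟨ι, χ, fun x hx => ?_⟩
  apply Subtype.ext
  apply b.ext
  intro i
  rw [hχ i x, hx i, zero_smul]
  rfl

theorem hasEnoughRootsOfUnity_complex (G : Type*) [CommGroup G] [Fintype G] :
    HasEnoughRootsOfUnity ℂ (Monoid.exponent G) := by
  haveI : NeZero ((Monoid.exponent G : ℕ) : ℂ) := ⟨by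
    rw [Nat.cast_ne_zero]
    exact Monoid.exponent_ne_zero_of_finite⟩
  infer_instance

/-- the group algebra of a finite commutative group over the Hecke algebra is reduced -/
theorem isReduced_monoidAlgebra_heckeAlgebra (hS : ∀ q : ℕ, q.Prime → q ∣ N → q ∈ S)
    (G : Type*) [CommGroup G] [Fintype G] : IsReduced (MonoidAlgebra (heckeAlgebra N 2 S) G) := by
  obtain ⟨ι, χ, hχ⟩ := exists_heckeAlgebra_chars N S hS
  haveI := hasEnoughRootsOfUnity_complex G
  exact isReduced_monoidAlgebra_of_chars χ hχ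

/-- the ring homomorphism out of the Hecke algebra attached to elements satisfying all relations -/
theorem exists_heckeAlgebra_ringHom (hS : ∀ q : ℕ, q.Prime → q ∣ N → q ∈ S)
    (E : Type*) [CommRing E] (t : GoodPrime N S → E)
    (hR : ∀ P : FreeAlgebra ℤ (GoodPrime N S),
      (evalForms P : ↥(heckeAlgebra N 2 S)) = 0 → FreeAlgebra.lift ℤ t P = 0) :
    ∃ χ : heckeAlgebra N 2 S →+* E, ∀ ℓ : GoodPrime N S,
      χ (heckeAlgebra.T ℓ.2.1 ℓ.2.2.1 ℓ.2.2.2) = t ℓ := by
  classical
  have hsurj := evalForms_surjective N S hS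
  let ev : FreeAlgebra ℤ (GoodPrime N S) →+* ↥(heckeAlgebra N 2 S) :=
    (evalForms (M := N) (S := S) : FreeAlgebra ℤ (GoodPrime N S) →+* ↥(heckeAlgebra N 2 S))
  let lt : FreeAlgebra ℤ (GoodPrime N S) →+* E :=
    (FreeAlgebra.lift ℤ t : FreeAlgebra ℤ (GoodPrime N S) →+* E)
  have hker : RingHom.ker ev ≤ RingHom.ker lt := by
    intro P hP
    rw [RingHom.mem_ker] at hP ⊢
    exact hR P hP
  let χ : ↥(heckeAlgebra N 2 S) →+* E := RingHom.liftOfSurjective ev hsurj ⟨lt, hker⟩
  have hχ : ∀ P : FreeAlgebra ℤ (GoodPrime N S), χ (evalForms P) = FreeAlgebra.lift ℤ t P :=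
    fun P => RingHom.liftOfRightInverse_comp_apply ev _ _ ⟨lt, hker⟩ P
  refine ⟨χ, fun ℓ => ?_⟩
  rw [← evalForms_ι, hχ, FreeAlgebra.lift_ι_apply]

/-! ### Jointly injective points -/

/-- **Semisimplicity**: a finite free `𝒪`-algebra generated by elements `t_ℓ` satisfying the relations
of the Hecke algebra of level `N` and by the image of a finite commutative group has jointly
injective points with values in a complete DVR finite over `𝒪`. -/
theorem exists_points_of_relations (hS : ∀ q : ℕ, q.Prime → q ∣ N → q ∈ S)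
    {G : Type} [CommGroup G] [Fintype G]
    {𝒪 : Type} [CommRing 𝒪] [IsDomain 𝒪] [IsDiscreteValuationRing 𝒪] [CharZero 𝒪]
    [IsAdicComplete (maximalIdeal 𝒪) 𝒪] [Finite (ResidueField 𝒪)]
    {E : Type} [CommRing E] [Algebra 𝒪 E] [Module.Finite 𝒪 E] [Module.Free 𝒪 E]
    (t : GoodPrime N S → E) (δ : G →* E)
    (hR : ∀ P : FreeAlgebra ℤ (GoodPrime N S),
      (evalForms P : ↥(heckeAlgebra N 2 S)) = 0 → FreeAlgebra.lift ℤ t P = 0)
    (hgen : Algebra.adjoin 𝒪 (Set.range t ∪ Set.range δ) = ⊤) :
    ∃ (κ : Type) (_ : Fintype κ) (O₁ : Type) (_ : CommRing O₁) (_ : IsDomain O₁)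
      (_ : IsDiscreteValuationRing O₁) (_ : IsAdicComplete (maximalIdeal O₁) O₁)
      (_ : Finite (ResidueField O₁)) (_ : CharZero O₁) (_ : Algebra 𝒪 O₁)
      (_ : Module.Finite 𝒪 O₁) (_ : IsLocalHom (algebraMap 𝒪 O₁)),
      Function.Injective (algebraMap 𝒪 O₁) ∧
      ∃ ψ : κ → E →ₐ[𝒪] O₁, ∀ x : E, (∀ k, ψ k x = 0) → x = 0 := by
  classical
  haveI : IsReduced (MonoidAlgebra (heckeAlgebra N 2 S) G) :=
    isReduced_monoidAlgebra_heckeAlgebra N S hS G
  haveI : Module.Finite ℤ ↥(heckeAlgebra N 2 S) := Fermat.Agent.S22.result N 2 S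
  haveI : Module.Finite ℤ (MonoidAlgebra (heckeAlgebra N 2 S) G) :=
    Module.Finite.trans (heckeAlgebra N 2 S) _
  obtain ⟨χ, hχ⟩ := exists_heckeAlgebra_ringHom N S hS E t hR
  let π : MonoidAlgebra (heckeAlgebra N 2 S) G →+* E :=
    MonoidAlgebra.liftNCRingHom χ δ (fun _ _ => Commute.all _ _)
  refine Fermat.Agent.S32lib.exists_characters_dvr π ?_
  rw [eq_top_iff, ← hgen]
  apply Algebra.adjoin_mono
  rintro x (⟨ℓ, rfl⟩ | ⟨g, rfl⟩)
  · refine ⟨MonoidAlgebra.single 1 (heckeAlgebra.T ℓ.2.1 ℓ.2.2.1 ℓ.2.2.2), ?_⟩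
    show MonoidAlgebra.liftNCRingHom χ δ _ _ = _
    rw [MonoidAlgebra.liftNCRingHom_single, map_one, mul_one, hχ]
  · refine ⟨MonoidAlgebra.single g 1, ?_⟩
    show MonoidAlgebra.liftNCRingHom χ δ _ _ = _
    rw [MonoidAlgebra.liftNCRingHom_single, map_one, one_mul]

end Fermat.Agent.S43lib.B2.Bridge
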